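import Fermat.Agent.GalRep.Burnside
import Fermat.Prelude.Def_GaloisRep_Adic
import Mathlib.LinearAlgebra.Trace
import Mathlib.RingTheory.TensorProduct.Free
import Mathlib.RingTheory.Nakayama
import Mathlib.LinearAlgebra.Matrix.StdBasis
import Mathlib.LinearAlgebra.Dual.Lemmas

/-!
# A residually absolutely irreducible representation spans all matrices
-/

namespace FLTAgent.GalRep

open Matrix TensorProduct

local notation "Γℚ" => AlgebraicClosure ℚ ≃ₐ[ℚ] AlgebraicClosure ℚ

variable {A : Type} [CommRing A] [IsLocalRing A] (ρ : GaloisRepAdic A)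

/-- A basis of the underlying space. -/
noncomputable def repBasis : Module.Basis (Fin 2) A ρ.V :=
  (Module.finBasisOfFinrankEq A ρ.V ρ.finrank_eq)

/-- The matrix of `ρ g`. -/
noncomputable def repMat : Γℚ →* Matrix (Fin 2) (Fin 2) A :=
  (MonoidHomClass.toMonoidHom (LinearMap.toMatrixAlgEquiv (repBasis ρ))).comp ρ.ρ

theorem trace_repMat (g : Γℚ) : (repMat ρ g).trace = ρ.trace g :=
  (LinearMap.trace_eq_matrix_trace A (repBasis ρ) (ρ.ρ g)).symm

theorem span_range_repMat (h : ρ.residual.IsAbsolutelyIrreducible) :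
    Submodule.span A (Set.range (repMat ρ)) = ⊤ := by
  classical
  let k := IsLocalRing.ResidueField A
  let K := AlgebraicClosure k
  let b := repBasis ρ
  let bk : Module.Basis (Fin 2) k ρ.residual.V := Algebra.TensorProduct.basis k b
  let bK : Module.Basis (Fin 2) K (ρ.residual.baseChange K).V := Algebra.TensorProduct.basis K bk
  let e : Module.End K (ρ.residual.baseChange K).V ≃ₐ[K] Matrix (Fin 2) (Fin 2) K :=
    LinearMap.toMatrixAlgEquiv bK
  let f : A →+* K := (algebraMap k K).comp (IsLocalRing.residue A)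
  have hmat : ∀ g, e ((ρ.residual.baseChange K).ρ g) =
      ((repMat ρ g).map (IsLocalRing.residue A)).map (algebraMap k K) := by
    intro g
    refine (LinearMap.toMatrix_baseChange (A := K) (ρ.residual.ρ g) bk bk).trans ?_
    exact congrArg (·.map (algebraMap k K)) (LinearMap.toMatrix_baseChange (A := k) (ρ.ρ g) b b)
  haveI : Nontrivial (ρ.residual.baseChange K).V :=
    Module.nontrivial_of_finrank_eq_succ (ρ.residual.baseChange K).finrank_eq
  have hK := span_range_eq_top_of_irreducible (ρ.residual.baseChange K).ρ h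
  -- span over the residue field
  have hk : Submodule.span k (Set.range fun g => (repMat ρ g).map (IsLocalRing.residue A)) = ⊤ := by
    by_contra hne
    obtain ⟨φ, hφ0, hφ⟩ := Submodule.exists_dual_map_eq_bot_of_lt_top (lt_top_iff_ne_top.mpr hne)
      inferInstance
    let φK : Matrix (Fin 2) (Fin 2) K →ₗ[K] K :=
      ∑ a, ∑ c, algebraMap k K (φ (Matrix.single a c 1)) • Matrix.entryLinearMap K K a c
    have hφK : ∀ X : Matrix (Fin 2) (Fin 2) k, φK (X.map (algebraMap k K)) = algebraMap k K (φ X) := by
      intro X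
      conv_rhs => rw [Matrix.matrix_eq_sum_single X]
      simp only [φK, map_sum, LinearMap.sum_apply, LinearMap.smul_apply,
        Matrix.entryLinearMap_apply, Matrix.map_apply]
      refine Finset.sum_congr rfl fun a _ => Finset.sum_congr rfl fun c _ => ?_
      rw [show Matrix.single a c (X a c) = X a c • Matrix.single a c (1 : k) by
        rw [Matrix.smul_single, smul_eq_mul, mul_one], map_smul, smul_eq_mul, smul_eq_mul, map_mul,
        mul_comm]
    have hzero : φK ∘ₗ e.toLinearMap = 0 := by
      refine LinearMap.ext_on hK ?_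
      rintro _ ⟨g, rfl⟩
      show φK (e _) = 0
      rw [hmat, hφK]
      have : φ ((repMat ρ g).map (IsLocalRing.residue A)) ∈ (⊥ : Submodule k k) :=
        hφ ▸ Submodule.mem_map_of_mem (Submodule.subset_span ⟨g, rfl⟩)
      rw [(Submodule.mem_bot k).mp this, map_zero]
    apply hφ0
    refine LinearMap.ext fun X => (algebraMap k K).injective ?_
    rw [← hφK, LinearMap.zero_apply, map_zero]
    obtain ⟨Y, hY⟩ := e.surjective (X.map (algebraMap k K))
    rw [← hY]
    exact LinearMap.congr_fun hzero Y
  -- Nakayama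
  refine eq_top_iff.mpr (Submodule.le_of_le_smul_of_le_jacobson_bot Module.Finite.fg_top
    (IsLocalRing.maximalIdeal_le_jacobson ⊥) fun X _ => ?_)
  have hX : X.map (IsLocalRing.residue A) ∈
      Submodule.span k (Set.range fun g => (repMat ρ g).map (IsLocalRing.residue A)) :=
    hk ▸ Submodule.mem_top
  obtain ⟨c, hc⟩ := Finsupp.mem_span_range_iff_exists_finsupp.mp hX
  choose l hl using fun g => IsLocalRing.residue_surjective (c g)
  let Z := ∑ g ∈ c.support, l g • repMat ρ g
  have hZ : ∀ a d, X a d - Z a d ∈ IsLocalRing.maximalIdeal A := by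
    intro a d
    rw [← IsLocalRing.residue_eq_zero_iff, map_sub, sub_eq_zero]
    have := congrFun (congrFun hc a) d
    simp only [Finsupp.sum, Matrix.sum_apply, Matrix.smul_apply, Matrix.map_apply,
      smul_eq_mul] at this
    rw [← this]
    simp [Z, Matrix.sum_apply, map_sum, hl]
  rw [show X = Z + (X - Z) by abel]
  refine Submodule.add_mem_sup
    (Submodule.sum_mem _ fun g _ => Submodule.smul_mem _ _ (Submodule.subset_span ⟨g, rfl⟩)) ?_
  rw [Matrix.matrix_eq_sum_single (X - Z)]
  refine Submodule.sum_mem _ fun a _ => Submodule.sum_mem _ fun d _ => ?_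
  rw [show Matrix.single a d ((X - Z) a d) = (X - Z) a d • Matrix.single a d (1 : A) by
    rw [Matrix.smul_single, smul_eq_mul, mul_one]]
  exact Submodule.smul_mem_smul (hZ a d) Submodule.mem_top

/-- If the trace is invariant under right translation by `u`, then `u` acts trivially. -/
theorem eq_one_of_trace_mul_right (h : ρ.residual.IsAbsolutelyIrreducible) (u : Γℚ)
    (hu : ∀ g, ρ.trace (g * u) = ρ.trace g) : ρ.ρ u = 1 := by
  classical
  have hz : ∀ Y, (Y * (repMat ρ u - 1)).trace = 0 := by
    intro Y
    induction (span_range_repMat ρ h).ge (Submodule.mem_top : Y ∈ ⊤) using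
      Submodule.span_induction with
    | mem Y hY =>
      obtain ⟨g, rfl⟩ := hY
      rw [mul_sub, mul_one, ← map_mul, Matrix.trace_sub, trace_repMat, trace_repMat, hu, sub_self]
    | zero => simp
    | add Y Y' _ _ e e' => rw [add_mul, Matrix.trace_add, e, e', add_zero]
    | smul c Y _ e => rw [smul_mul_assoc, Matrix.trace_smul, e, smul_zero]
  have h1 : repMat ρ u = 1 := by
    rw [← sub_eq_zero]
    ext a d
    have := hz (Matrix.single d a 1)
    fin_cases a <;> fin_cases d <;>
      simpa [Matrix.trace, Matrix.mul_apply, Matrix.single_apply, Fin.sum_univ_two] using this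
  exact (LinearMap.toMatrixAlgEquiv (repBasis ρ)).injective (h1.trans (map_one _).symm)

theorem repr_mem_of_mem_smul_top {I : Ideal A} {V : Type*} [AddCommGroup V] [Module A V] {ι : Type*}
    (b : Module.Basis ι A V) {x : V} (hx : x ∈ I • (⊤ : Submodule A V)) (i : ι) : b.repr x i ∈ I := by
  refine Submodule.smul_induction_on (p := fun x => b.repr x i ∈ I) hx (fun a ha y _ => ?_)
    fun y z hy hz => ?_
  · rw [map_smul]; exact I.mul_mem_right _ ha
  · rw [map_add]; exact I.add_mem hy hz

theorem trace_mem_of_range_le {I : Ideal A} {V : Type*} [AddCommGroup V] [Module A V]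
    [Module.Free A V] [Module.Finite A V] (f : Module.End A V)
    (hf : ∀ v, f v ∈ I • (⊤ : Submodule A V)) : LinearMap.trace A V f ∈ I := by
  classical
  rw [LinearMap.trace_eq_matrix_trace A (Module.Free.chooseBasis A V), Matrix.trace]
  refine Submodule.sum_mem _ fun i _ => ?_
  rw [Matrix.diag_apply, LinearMap.toMatrix_apply]
  exact repr_mem_of_mem_smul_top _ (hf _) i

theorem trace_sub_mem {n : ℕ} {g σ : Γℚ}
    (h : ∀ v, ρ.ρ (g⁻¹ * σ) v - v ∈ IsLocalRing.maximalIdeal A ^ n • (⊤ : Submodule A ρ.V)) :
    ρ.trace σ - ρ.trace g ∈ IsLocalRing.maximalIdeal A ^ n := by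
  rw [GaloisRepAdic.trace, GaloisRepAdic.trace, ← map_sub]
  refine trace_mem_of_range_le _ fun v => ?_
  have := Submodule.mem_map_of_mem (f := ρ.ρ g) (h v)
  rw [Submodule.map_smul'', map_sub, ← Module.End.mul_apply, ← map_mul, mul_inv_cancel_left] at this
  exact Submodule.smul_mono le_rfl le_top this

theorem trace_eq_of_charpoly {a b : A} {g : Γℚ}
    (h : LinearMap.charpoly (ρ.ρ g) = Polynomial.X ^ 2 - Polynomial.C a * Polynomial.X +
      Polynomial.C b) : ρ.trace g = a := by
  haveI : Nontrivial A := inferInstance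
  rw [← LinearMap.charpoly_toMatrix (ρ.ρ g) (repBasis ρ)] at h
  rw [← trace_repMat]
  show (LinearMap.toMatrix (repBasis ρ) (repBasis ρ) (ρ.ρ g)).trace = a
  rw [Matrix.trace_eq_neg_charpoly_coeff, h]
  simp [Polynomial.coeff_X, Polynomial.coeff_C]

end FLTAgent.GalRep
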