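import Fermat.Prelude.Def_EllipticCurve_FrobeniusTrace
import Fermat.Prelude.Def_GaloisRep_ComplexConjugation
import Mathlib.NumberTheory.Cyclotomic.CyclotomicCharacter
import Mathlib.RingTheory.RootsOfUnity.AlgebraicallyClosed
import Mathlib.Algebra.Ring.Action.End
import Mathlib.NumberTheory.Padics.RingHoms
import Mathlib.RingTheory.IntegralClosure.Algebra.Basic

/-!
# The `p`-adic cyclotomic character of the absolute Galois group of `ℚ`
-/

namespace FLTAgent.GalRep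

local notation "Γℚ" => AlgebraicClosure ℚ ≃ₐ[ℚ] AlgebraicClosure ℚ

variable (p : ℕ) [Fact p.Prime]

/-- The `p`-adic cyclotomic character of `Gal(ℚ̄/ℚ)`. -/
noncomputable def cyclo : Γℚ →* ℤ_[p]ˣ :=
  (cyclotomicCharacter (AlgebraicClosure ℚ) p).comp
    (MulSemiringAction.toRingAut Γℚ (AlgebraicClosure ℚ))

instance hasEnough_primePow (i : ℕ) : HasEnoughRootsOfUnity (AlgebraicClosure ℚ) (p ^ i) :=
  haveI : NeZero p := ⟨(Fact.out : p.Prime).ne_zero⟩
  inferInstance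

theorem cyclo_spec (σ : Γℚ) {n : ℕ} {t : AlgebraicClosure ℚ} (ht : t ^ p ^ n = 1) :
    σ t = t ^ ((cyclo p σ : ℤ_[p]).toZModPow n).val :=
  cyclotomicCharacter.spec p (MulSemiringAction.toRingAut Γℚ (AlgebraicClosure ℚ) σ) t ht

theorem toZModPow_cyclo_eq_natCast (σ : Γℚ) {n j : ℕ} {ζ : AlgebraicClosure ℚ}
    (hζ : IsPrimitiveRoot ζ (p ^ n)) (h : σ ζ = ζ ^ j) :
    (cyclo p σ : ℤ_[p]).toZModPow n = (j : ZMod (p ^ n)) := by
  haveI : NeZero (p ^ n) := ⟨pow_ne_zero n (Fact.out : p.Prime).ne_zero⟩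
  rw [cyclo_spec p σ hζ.pow_eq_one] at h
  have hu := hζ.isUnit (NeZero.ne _)
  have h2 : hu.unit ^ ((cyclo p σ : ℤ_[p]).toZModPow n).val = hu.unit ^ j := Units.ext (by simpa using h)
  rw [pow_inj_mod, ← orderOf_units, IsUnit.unit_spec, ← hζ.eq_orderOf] at h2
  rw [← ZMod.natCast_zmod_val ((cyclo p σ : ℤ_[p]).toZModPow n), ZMod.natCast_eq_natCast_iff]
  exact h2

theorem toZModPow_cyclo_eq_one (σ : Γℚ) {n : ℕ} {ζ : AlgebraicClosure ℚ}
    (hζ : IsPrimitiveRoot ζ (p ^ n)) (h : σ ζ = ζ) :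
    (cyclo p σ : ℤ_[p]).toZModPow n = 1 := by
  simpa using toZModPow_cyclo_eq_natCast p σ hζ (j := 1) (by rwa [pow_one])

theorem cyclo_continuous (n : ℕ) :
    ∃ L : IntermediateField ℚ (AlgebraicClosure ℚ), FiniteDimensional ℚ L ∧
      ∀ σ : Γℚ, (∀ x ∈ L, σ x = x) → (cyclo p σ : ℤ_[p]).toZModPow n = 1 := by
  obtain ⟨ζ, hζ⟩ := HasEnoughRootsOfUnity.exists_primitiveRoot (AlgebraicClosure ℚ) (p ^ n)
  refine ⟨IntermediateField.adjoin ℚ {ζ}, IntermediateField.adjoin.finiteDimensional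
      ((AlgebraicClosure.isAlgebraic ℚ).isAlgebraic ζ).isIntegral, fun σ hσ => ?_⟩
  exact toZModPow_cyclo_eq_one p σ hζ (hσ ζ (IntermediateField.mem_adjoin_simple_self ℚ ζ))

theorem cyclo_eq_of_forall {σ : Γℚ} {j : ℕ}
    (h : ∀ (n : ℕ) (ζ : AlgebraicClosure ℚ), IsPrimitiveRoot ζ (p ^ n) → σ ζ = ζ ^ j) :
    (cyclo p σ : ℤ_[p]) = (j : ℤ_[p]) := by
  refine PadicInt.ext_of_toZModPow.mp fun n => ?_
  obtain ⟨ζ, hζ⟩ := HasEnoughRootsOfUnity.exists_primitiveRoot (AlgebraicClosure ℚ) (p ^ n)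
  rw [map_natCast]
  exact toZModPow_cyclo_eq_natCast p σ hζ (h n ζ hζ)

theorem cyclo_complexConjugation : (cyclo p complexConjugation : ℤ_[p]) = -1 := by
  refine PadicInt.ext_of_toZModPow.mp fun n => ?_
  obtain ⟨ζ, hζ⟩ := HasEnoughRootsOfUnity.exists_primitiveRoot (AlgebraicClosure ℚ) (p ^ n)
  have hp0 : p ^ n ≠ 0 := pow_ne_zero n (Fact.out : p.Prime).ne_zero
  have h1 : complexConjugation ζ = ζ ^ (p ^ n - 1) := by
    have hinv : ζ ^ (p ^ n - 1) = ζ⁻¹ := eq_inv_of_mul_eq_one_left (by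
      rw [← pow_succ, Nat.sub_add_cancel (Nat.one_le_iff_ne_zero.mpr hp0), hζ.pow_eq_one])
    apply complexEmbedding.toRingHom.injective
    show complexEmbedding (complexConjugation ζ) = complexEmbedding (ζ ^ (p ^ n - 1))
    rw [complexEmbedding_complexConjugation, hinv, map_inv₀]
    have hnorm : ‖complexEmbedding ζ‖ = 1 :=
      Complex.norm_eq_one_of_pow_eq_one (by rw [← map_pow, hζ.pow_eq_one, map_one]) hp0
    exact (Complex.inv_eq_conj hnorm).symm
  rw [map_neg, map_one, toZModPow_cyclo_eq_natCast p complexConjugation hζ h1,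
    Nat.cast_sub (Nat.one_le_iff_ne_zero.mpr hp0)]
  simp

theorem cyclo_complexConjugation_eq : cyclo p complexConjugation = -1 :=
  Units.ext (cyclo_complexConjugation p)

theorem complexConjugation_ne_one : complexConjugation ≠ 1 := by
  intro h
  haveI : Fact (Nat.Prime 3) := ⟨Nat.prime_three⟩
  have h3 := cyclo_complexConjugation 3
  rw [h, map_one, Units.val_one] at h3
  have : (2 : ℤ_[3]) = 0 := by linear_combination h3
  exact two_ne_zero this

section Places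

variable {p} {A : ValuationSubring (AlgebraicClosure ℚ)} {q : ℕ}

theorem natCast_notMem_nonunits (hA : A.LiesOverPrime q) {m : ℕ} (hm : m.Coprime q) :
    (m : AlgebraicClosure ℚ) ∉ A.nonunits := by
  intro hmem
  obtain ⟨a, ha⟩ : ∃ a : A, (a : AlgebraicClosure ℚ) = m := ⟨⟨_, natCast_mem A m⟩, rfl⟩
  obtain ⟨b, hb⟩ : ∃ b : A, (b : AlgebraicClosure ℚ) = q := ⟨⟨_, natCast_mem A q⟩, rfl⟩
  have haI : a ∈ IsLocalRing.maximalIdeal A := ValuationSubring.coe_mem_nonunits_iff.mp (ha ▸ hmem)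
  have hbI : b ∈ IsLocalRing.maximalIdeal A :=
    ValuationSubring.coe_mem_nonunits_iff.mp (hb ▸ (hA : (q : AlgebraicClosure ℚ) ∈ A.nonunits))
  have ha' : a = (m : A) := Subtype.ext (by rw [ha]; simp)
  have hb' : b = (q : A) := Subtype.ext (by rw [hb]; simp)
  have hbez : ((m.gcd q : ℕ) : ℤ) = m * m.gcdA q + q * m.gcdB q := Nat.gcd_eq_gcd_ab m q
  rw [hm.gcd_eq_one] at hbez
  have : (1 : A) ∈ IsLocalRing.maximalIdeal A := by
    have e := congrArg (fun z : ℤ => (z : A)) hbez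
    simp only [Nat.cast_one, Int.cast_one, Int.cast_add, Int.cast_mul, Int.cast_natCast] at e
    rw [e, ← ha', ← hb']
    exact Ideal.add_mem _ (Ideal.mul_mem_right _ _ haI) (Ideal.mul_mem_right _ _ hbI)
  exact (IsLocalRing.maximalIdeal.isMaximal A).ne_top ((Ideal.eq_top_iff_one _).mpr this)

theorem residue_natCast_ne_zero (hA : A.LiesOverPrime q) {m : ℕ} (hm : m.Coprime q) :
    (m : IsLocalRing.ResidueField A) ≠ 0 := by
  rw [← map_natCast (IsLocalRing.residue A), ne_eq, IsLocalRing.residue_eq_zero_iff,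
    ← ValuationSubring.coe_mem_nonunits_iff]
  simpa using natCast_notMem_nonunits hA hm

theorem root_mem (m : ℕ) (hm : m ≠ 0) {ζ : AlgebraicClosure ℚ} (hζ : ζ ^ m = 1) : ζ ∈ A := by
  rcases A.mem_or_inv_mem ζ with h | h
  · exact h
  · have h' : ζ = ζ⁻¹ ^ (m - 1) := by
      have h0 : ζ ≠ 0 := by rintro rfl; simp [hm] at hζ
      rw [inv_pow]
      refine eq_inv_of_mul_eq_one_left ?_
      rw [← pow_succ', Nat.sub_add_cancel (Nat.one_le_iff_ne_zero.mpr hm), hζ]
    rw [h']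
    exact pow_mem h _

/-- Roots of unity of order prime to `q` are determined by their residue. -/
theorem root_eq_of_residue_eq (hA : A.LiesOverPrime q) {m : ℕ} (hm0 : m ≠ 0) (hm : m.Coprime q)
    {x y : A} (hx : x ^ m = 1) (hy : y ^ m = 1)
    (h : IsLocalRing.residue A x = IsLocalRing.residue A y) : x = y := by
  obtain ⟨z, rfl⟩ : ∃ z, x = z * y := ⟨x * y ^ (m - 1), by
    rw [mul_assoc, ← pow_succ, Nat.sub_add_cancel (Nat.one_le_iff_ne_zero.mpr hm0), hy, mul_one]⟩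
  have hz : z ^ m = 1 := by simpa [mul_pow, hy] using hx
  have hy0 : IsLocalRing.residue A y ≠ 0 := fun h0 => by
    have := congrArg (IsLocalRing.residue A) hy
    rw [map_pow, h0, zero_pow hm0, map_one] at this
    exact zero_ne_one this
  have hz1 : IsLocalRing.residue A z = 1 := by
    rw [map_mul] at h
    exact (mul_eq_right₀ hy0).mp h
  have hgeom := geom_sum_mul z m
  rw [hz, sub_self, mul_eq_zero] at hgeom
  rcases hgeom with h0 | h0
  · have := congrArg (IsLocalRing.residue A) h0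
    simp [map_sum, hz1] at this
    exact absurd this (residue_natCast_ne_zero hA hm)
  · rw [sub_eq_zero] at h0; rw [h0, one_mul]

theorem cyclo_frobenius {ℓ : ℕ} (hℓ : ℓ.Prime) (hne : ℓ ≠ p)
    (hA : A.LiesOverPrime ℓ) {σ : Γℚ} (hσ : A.IsFrobeniusAt σ ℓ) :
    (cyclo p σ : ℤ_[p]) = (ℓ : ℤ_[p]) := by
  refine cyclo_eq_of_forall p fun n ζ hζ => ?_
  have hm0 : p ^ n ≠ 0 := pow_ne_zero n (Fact.out : p.Prime).ne_zero
  let x : A := ⟨ζ, root_mem _ hm0 hζ.pow_eq_one⟩
  have hx : x ^ p ^ n = 1 := Subtype.ext (by simpa using hζ.pow_eq_one)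
  let g : A.decompositionSubgroup ℚ := ⟨σ, hσ.mem_decompositionSubgroup⟩
  have h := hσ.smul_residue_eq (IsLocalRing.residue A x)
  rw [← IsLocalRing.ResidueField.residue_smul, ← map_pow] at h
  have key : g • x = x ^ ℓ := by
    refine root_eq_of_residue_eq hA hm0
      (Nat.Coprime.pow_left n ((Nat.coprime_primes (Fact.out : p.Prime) hℓ).mpr (Ne.symm hne)))
      ?_ ?_ h
    · rw [← smul_pow', hx, smul_one]
    · rw [← pow_mul, mul_comm, pow_mul, hx, one_pow]
  exact congrArg Subtype.val key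

theorem cyclo_inertia (hq : q.Prime) (hne : q ≠ p) (hA : A.LiesOverPrime q)
    {σ : Γℚ} (hσ : σ ∈ A.inertiaSubgroupIn ℚ) : cyclo p σ = 1 := by
  obtain ⟨g, hg, rfl⟩ := hσ
  refine Units.ext ?_
  rw [cyclo_eq_of_forall p (j := 1) fun n ζ hζ => ?_, Nat.cast_one, Units.val_one]
  rw [pow_one]
  have hm0 : p ^ n ≠ 0 := pow_ne_zero n (Fact.out : p.Prime).ne_zero
  let x : A := ⟨ζ, root_mem _ hm0 hζ.pow_eq_one⟩
  have hx : x ^ p ^ n = 1 := Subtype.ext (by simpa using hζ.pow_eq_one)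
  have hres : g • IsLocalRing.residue A x = IsLocalRing.residue A x := by
    have := RingEquiv.congr_fun (MonoidHom.mem_ker.mp hg) (IsLocalRing.residue A x)
    simpa using this
  rw [← IsLocalRing.ResidueField.residue_smul] at hres
  have key : g • x = x := by
    refine root_eq_of_residue_eq hA hm0
      (Nat.Coprime.pow_left n ((Nat.coprime_primes (Fact.out : p.Prime) hq).mpr (Ne.symm hne)))
      ?_ hx hres
    rw [← smul_pow', hx, smul_one]
  exact congrArg Subtype.val key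

end Places

end FLTAgent.GalRep
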