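import Fermat.Agent.GalRep.Quadratic
import Mathlib.LinearAlgebra.Trace
import Mathlib.LinearAlgebra.Determinant
import Mathlib.LinearAlgebra.Matrix.FiniteDimensional
import Mathlib.LinearAlgebra.FiniteDimensional.Lemmas

/-!
# Existence of two-dimensional representations with prescribed trace
-/

namespace FLTAgent.GalRep

open Matrix

variable {G : Type*} [Group G] {K : Type*} [Field K] {V : Type*} [AddCommGroup V] [Module K V]

/-- A common eigenvector yields a character `ψ` with `τ = ψ + c / ψ`. -/
theorem exists_char_of_eigenvector (r : G →* Module.End K V) (c : G →* Kˣ) (τ : G → K)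
    (hrel : ∀ g, r g + (c g : K) • r g⁻¹ = τ g • (1 : Module.End K V))
    {v : V} (hv : v ≠ 0) (hev : ∀ g, ∃ t : K, r g v = t • v) :
    ∃ ψ : G →* Kˣ, (∀ g, r g v = (ψ g : K) • v) ∧
      ∀ g, τ g = (ψ g : K) + (c g : K) * ((ψ g)⁻¹ : Kˣ) := by
  choose t ht using hev
  have inj : ∀ a b : K, a • v = b • v → a = b := fun a b h => smul_left_injective K hv h
  have h1 : t 1 = 1 := inj _ _ (by rw [← ht, map_one, one_smul]; rfl)
  have hm : ∀ g h, t (g * h) = t g * t h := fun g h => inj _ _ (by
    rw [← ht, map_mul, Module.End.mul_apply, ht, map_smul, ht, smul_smul, mul_comm])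
  let ψ : G →* Kˣ := MonoidHom.toHomUnits { toFun := t, map_one' := h1, map_mul' := hm }
  refine ⟨ψ, fun g => ht g, fun g => inj _ _ ?_⟩
  have := congrArg (fun f : Module.End K V => f v) (hrel g)
  simp only [LinearMap.add_apply, LinearMap.smul_apply, Module.End.one_apply, ht, smul_smul,
    ← add_smul] at this
  rw [← this]
  congr 1

/-- The diagonal representation with entries `ψ` and `c / ψ`. -/
def diagRep (ψ c : G →* Kˣ) : G →* Matrix (Fin 2) (Fin 2) K where
  toFun g := Matrix.diagonal ![(ψ g : K), ((c g * (ψ g)⁻¹ : Kˣ) : K)]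
  map_one' := by
    ext i j; fin_cases i <;> fin_cases j <;> simp
  map_mul' g h := by
    rw [Matrix.diagonal_mul_diagonal]
    congr 1
    ext i; fin_cases i <;> simp <;> ring

theorem trace_diagRep (ψ c : G →* Kˣ) (g : G) :
    (diagRep ψ c g).trace = (ψ g : K) + (c g : K) * ((ψ g)⁻¹ : Kˣ) := by
  simp [diagRep, Matrix.trace_fin_two, Matrix.diagonal]

theorem det_diagRep (ψ c : G →* Kˣ) (g : G) : (diagRep ψ c g).det = (c g : K) := by
  simp [diagRep, Matrix.det_diagonal, Fin.prod_univ_two]
  field_simp

/-- Restriction of a representation to a stable subspace. -/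
noncomputable def restrictEnd (r : G →* Module.End K V) (W : Submodule K V) (hW : IsStable r W) :
    G →* Module.End K W where
  toFun g := (r g).restrict (hW g)
  map_one' := by ext x; simp
  map_mul' g h := by ext x; simp

theorem coe_restrictEnd_apply (r : G →* Module.End K V) (W : Submodule K V) (hW : IsStable r W)
    (g : G) (x : W) : ((restrictEnd r W hW g x : W) : V) = r g x := rfl

theorem restrictEnd_rel (r : G →* Module.End K V) (W : Submodule K V) (hW : IsStable r W)
    (c : G →* Kˣ) (τ : G → K)
    (hrel : ∀ g, r g + (c g : K) • r g⁻¹ = τ g • (1 : Module.End K V)) (g : G) :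
    restrictEnd r W hW g + (c g : K) • restrictEnd r W hW g⁻¹ = τ g • (1 : Module.End K W) := by
  refine LinearMap.ext fun x => Subtype.ext ?_
  simpa [coe_restrictEnd_apply] using congrArg (fun f : Module.End K V => f x) (hrel g)

/-- Over an algebraically closed field, the relation `g + c g⁻¹ = τ` on a nonzero finite
dimensional space gives a two-dimensional representation with trace `τ` and determinant `c`. -/
theorem exists_matrixRep_of_relation [IsAlgClosed K] [FiniteDimensional K V] [Nontrivial V]
    (r : G →* Module.End K V) (c : G →* Kˣ) (τ : G → K)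
    (hrel : ∀ g, r g + (c g : K) • r g⁻¹ = τ g • (1 : Module.End K V)) :
    ∃ ρ : G →* Matrix (Fin 2) (Fin 2) K, (∀ g, (ρ g).trace = τ g) ∧
      (∀ g, (ρ g).det = (c g : K)) ∧ ∀ g, r g = 1 → c g = 1 → ρ g = 1 := by
  classical
  obtain ⟨W, ⟨hWst, hWne⟩, hWmin⟩ :=
    wellFounded_lt.has_min {W : Submodule K V | IsStable r W ∧ W ≠ ⊥}
      ⟨⊤, fun _ _ _ => Submodule.mem_top, top_ne_bot⟩
  haveI : Nontrivial W := (Submodule.nontrivial_iff_ne_bot).mpr hWne
  set rW := restrictEnd r W hWst with hrW
  have hWrel := restrictEnd_rel r W hWst c τ hrel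
  have hone : ∀ g, r g = 1 → rW g = 1 := fun g hg => LinearMap.ext fun x => Subtype.ext (by
    simp [hrW, coe_restrictEnd_apply, hg])
  by_cases hd : Module.finrank K W = 1
  · obtain ⟨v, hv0, hv⟩ := finrank_eq_one_iff'.mp hd
    obtain ⟨ψ, hψ, hτ⟩ := exists_char_of_eigenvector rW c τ hWrel hv0
      fun g => (hv (rW g v)).imp fun _ h => h.symm
    refine ⟨diagRep ψ c, fun g => by rw [trace_diagRep, hτ g], det_diagRep ψ c, fun g hg hc => ?_⟩
    have h1 : (ψ g : K) = 1 := smul_left_injective K hv0 (by
      show (ψ g : K) • v = (1 : K) • v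
      rw [one_smul, ← hψ, hone g hg, Module.End.one_apply])
    have h1' : ψ g = 1 := Units.ext h1
    ext i j; fin_cases i <;> fin_cases j <;> simp [diagRep, h1', hc]
  · have hpos : 0 < Module.finrank K W := Module.finrank_pos
    have hirr : ∀ U : Submodule K W, IsStable rW U → U = ⊥ ∨ U = ⊤ := by
      intro U hU
      by_cases hU0 : U = ⊥
      · exact Or.inl hU0
      right
      by_contra hUt
      have hst : IsStable r (U.map W.subtype) := by
        rintro g _ ⟨x, hx, rfl⟩
        exact ⟨rW g x, hU g x hx, rfl⟩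
      have hne : U.map W.subtype ≠ ⊥ := by
        rw [ne_eq, ← Submodule.map_bot W.subtype]
        exact fun h => hU0 (Submodule.map_injective_of_injective W.injective_subtype h)
      refine hWmin _ ⟨hst, hne⟩ ?_
      refine lt_of_le_of_ne (Submodule.map_subtype_le W U) fun h => hUt ?_
      refine Submodule.map_injective_of_injective W.injective_subtype ?_
      rw [h, Submodule.map_subtype_top]
    have hspan := span_range_eq_top_of_irreducible rW hirr
    let b := Module.finBasis K W
    let e : Module.End K W ≃ₐ[K] Matrix _ _ K := LinearMap.toMatrixAlgEquiv b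
    let r' : G →* Matrix _ _ K := (MonoidHomClass.toMonoidHom e.toAlgHom).comp rW
    have hrel' : ∀ g, r' g + (c g : K) • r' g⁻¹ = τ g • 1 := fun g => by
      have h := congrArg e (hWrel g)
      simpa [r', map_add, map_smul] using h
    have hspan' : Submodule.span K (Set.range r') = ⊤ := by
      have : Set.range r' = e.toLinearMap '' Set.range rW := by
        ext x; simp [r', eq_comm]
      rw [this, Submodule.span_image, hspan, Submodule.map_top, LinearMap.range_eq_top]
      exact e.surjective
    obtain ⟨hd2, htr⟩ := dim_eq_two_and_trace (by omega) r' c τ hrel' hspan'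
    let re := Matrix.reindexAlgEquiv K K (finCongr hd2)
    refine ⟨(MonoidHomClass.toMonoidHom re.toAlgHom).comp r', fun g => ?_, fun g => ?_, ?_⟩
    · show (re (r' g)).trace = τ g
      rw [← htr g]
      simp only [re, Matrix.coe_reindexAlgEquiv, Matrix.trace, Matrix.diag]
      exact Fintype.sum_equiv (finCongr hd2).symm _ _ fun i => by simp
    · have ht : (re (r' g)).trace = τ g := by
        rw [← htr g]
        simp only [re, Matrix.coe_reindexAlgEquiv, Matrix.trace, Matrix.diag]
        exact Fintype.sum_equiv (finCongr hd2).symm _ _ fun i => by simp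
      refine det_eq_of_quadratic (re (r' g)) (τ g) _ ht ?_
      exact quadratic_of_relation ((MonoidHomClass.toMonoidHom re.toAlgHom).comp r') c τ
        (fun g => by simpa [map_add, map_smul] using congrArg re (hrel' g)) g
    · intro g hg _
      simp [r', hone g hg]

/-- Dichotomy in characteristic different from two, given an element of order two with `c = -1`:
either there is a common eigenvector, or a stable plane on which the trace is `τ`. -/
theorem exists_eigenvector_or_plane (r : G →* Module.End K V) (c : G →* Kˣ) (τ : G → K)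
    (hrel : ∀ g, r g + (c g : K) • r g⁻¹ = τ g • (1 : Module.End K V))
    (h2 : (2 : K) ≠ 0) (σ : G) (hσ : σ * σ = 1) (hcσ : (c σ : K) = -1) [Nontrivial V] :
    (∃ v : V, v ≠ 0 ∧ ∀ g, ∃ t : K, r g v = t • v) ∨
    (∃ v w : V, LinearIndependent K ![v, w] ∧ ∀ g, ∃ a b e d : K,
      r g v = a • v + e • w ∧ r g w = b • v + d • w ∧ a + d = τ g) := by
  classical
  by_cases hev : ∃ v : V, v ≠ 0 ∧ ∀ g, ∃ t : K, r g v = t • v
  · exact Or.inl hev
  right
  push Not at hev
  set s := r σ with hs
  have hss : ∀ x, s (s x) = x := fun x => by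
    rw [hs, ← Module.End.mul_apply, ← map_mul, hσ, map_one, Module.End.one_apply]
  have hσinv : σ⁻¹ = σ := inv_eq_of_mul_eq_one_right hσ
  have hrelv : ∀ g x, r g x + (c g : K) • r g⁻¹ x = τ g • x := fun g x => by
    simpa using congrArg (fun f : Module.End K V => f x) (hrel g)
  let A : G → K := fun g => (τ g + τ (σ * g)) / 2
  let D : G → K := fun g => (τ g - τ (σ * g)) / 2
  have hsum : ∀ g x, r g x + (c g : K) • r g⁻¹ x + s (r g x) + (-(c g : K)) • r g⁻¹ (s x)
      = (τ g + τ (σ * g)) • x := by
    intro g x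
    have h' := hrelv (σ * g) x
    rw [map_mul, map_mul, Units.val_mul, hcσ, _root_.mul_inv_rev, map_mul, hσinv] at h'
    simp only [Module.End.mul_apply, ← hs, neg_mul, one_mul] at h'
    rw [add_smul, ← hrelv g x, ← h']
    abel
  have hdiff : ∀ g x, r g x + (c g : K) • r g⁻¹ x - s (r g x) + (c g : K) • r g⁻¹ (s x)
      = (τ g - τ (σ * g)) • x := by
    intro g x
    have h' := hrelv (σ * g) x
    rw [map_mul, map_mul, Units.val_mul, hcσ, _root_.mul_inv_rev, map_mul, hσinv] at h'
    simp only [Module.End.mul_apply, ← hs, neg_mul, one_mul] at h'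
    rw [sub_smul, ← hrelv g x, ← h', neg_smul]
    abel
  -- on a `+1` vector, the `+1` part of `g x` is `A g • x`; dually for `-1`
  have hplus : ∀ g x, s x = x → (2 : K)⁻¹ • (r g x + s (r g x)) = A g • x := by
    intro g x hx
    have := hsum g x
    rw [hx, neg_smul] at this
    have e : r g x + s (r g x) = (τ g + τ (σ * g)) • x := by rw [← this]; abel
    rw [e, smul_smul]; congr 1; simp only [A]; ring
  have hminus : ∀ g x, s x = -x → (2 : K)⁻¹ • (r g x - s (r g x)) = D g • x := by
    intro g x hx
    have := hdiff g x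
    rw [hx, map_neg, smul_neg] at this
    have e : r g x - s (r g x) = (τ g - τ (σ * g)) • x := by rw [← this]; abel
    rw [e, smul_smul]; congr 1; simp only [D]; ring
  have hAD : ∀ g, A g + D g = τ g := fun g => by simp only [A, D]; field_simp; ring
  let P : V →ₗ[K] V := (2 : K)⁻¹ • ((1 : Module.End K V) + s)
  let M : V →ₗ[K] V := (2 : K)⁻¹ • ((1 : Module.End K V) - s)
  have hP : ∀ x, P x = (2 : K)⁻¹ • (x + s x) := fun x => by simp [P]
  have hM : ∀ x, M x = (2 : K)⁻¹ • (x - s x) := fun x => by simp [M]
  have hPM : ∀ x, P x + M x = x := fun x => by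
    rw [hP, hM, ← smul_add, show x + s x + (x - s x) = (2 : K) • x by rw [two_smul]; abel,
      smul_smul, inv_mul_cancel₀ h2, one_smul]
  have hsP : ∀ x, s (P x) = P x := fun x => by rw [hP, map_smul, map_add, hss, add_comm]
  have hsM : ∀ x, s (M x) = -M x := fun x => by
    rw [hM, map_smul, map_sub, hss, ← smul_neg, neg_sub]
  have decP : ∀ g x, s x = x → r g x = A g • x + M (r g x) := fun g x hx => by
    rw [← hplus g x hx, ← hP, hPM]
  have decM : ∀ g x, s x = -x → r g x = P (r g x) + D g • x := fun g x hx => by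
    rw [← hminus g x hx, ← hM, hPM]
  -- a nonzero `+1` vector
  obtain ⟨v, hv0, hv⟩ : ∃ v : V, v ≠ 0 ∧ s v = v := by
    obtain ⟨x, hx⟩ := exists_ne (0 : V)
    by_cases h : P x = 0
    · have hxM : s x = -x := by
        have := hPM x; rw [h, zero_add] at this; rw [← this]; exact hsM x
      obtain ⟨g, hg⟩ := hev x hx
      refine ⟨P (r g x), fun h0 => hg (D g) ?_, hsP _⟩
      conv_lhs => rw [decM g x hxM, h0, zero_add]
    · exact ⟨P x, h, hsP x⟩
  obtain ⟨h, hh⟩ := hev v hv0
  set w := M (r h v) with hw
  have hw0 : w ≠ 0 := fun h0 => hh (A h) (by rw [decP h v hv, ← hw, h0, add_zero])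
  have hsw : s w = -w := hsM _
  -- `P (g w)` is a multiple of `v`
  have hPw : ∀ g, P (r g w) = (A (g * h) - A h * A g) • v := by
    intro g
    have e : w = r h v - A h • v := by
      rw [hw]; nth_rewrite 2 [decP h v hv]; abel
    rw [e, map_sub, map_smul, ← Module.End.mul_apply, ← map_mul, map_sub, map_smul, hP, hP,
      hplus (g * h) v hv, hplus g v hv, smul_smul, ← sub_smul]
  obtain ⟨g0, hg0⟩ : ∃ g0, A (g0 * h) - A h * A g0 ≠ 0 := by
    by_contra hcon
    push Not at hcon
    obtain ⟨g, hg⟩ := hev w hw0
    exact hg (D g) (by conv_lhs => rw [decM g w hsw, hPw, hcon g, zero_smul, zero_add])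
  set x0 := A (g0 * h) - A h * A g0 with hx0
  -- `M (g v)` is a multiple of `w`
  have hMv : ∀ g, M (r g v) = (x0⁻¹ * (D (g * g0) - D g0 * D g)) • w := by
    intro g
    have e : x0 • v = r g0 w - D g0 • w := by
      rw [← hPw]; nth_rewrite 2 [decM g0 w hsw]; abel
    have : x0 • M (r g v) = (D (g * g0) - D g0 * D g) • w := by
      rw [← map_smul, ← map_smul, e, map_sub, map_smul, ← Module.End.mul_apply, ← map_mul,
        map_sub, map_smul, hM, hM, hminus (g * g0) w hsw, hminus g w hsw, smul_smul, ← sub_smul]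
    rw [mul_smul, ← this, smul_smul, inv_mul_cancel₀ hg0, one_smul]
  refine ⟨v, w, ?_, fun g => ⟨A g, A (g * h) - A h * A g,
    x0⁻¹ * (D (g * g0) - D g0 * D g), D g, ?_, ?_, hAD g⟩⟩
  · rw [LinearIndependent.pair_iff]
    intro a b hab
    have h' := congrArg s hab
    rw [map_add, map_smul, map_smul, hv, hsw, map_zero, smul_neg] at h'
    have ha : (2 * a) • v = 0 := by
      rw [mul_smul, two_smul,
        show a • v + a • v = (a • v + b • w) + (a • v + -(b • w)) by abel, hab, h', add_zero]
    have ha0 : a = 0 := by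
      rcases smul_eq_zero.mp ha with h | h
      · exact (mul_eq_zero.mp h).resolve_left h2
      · exact absurd h hv0
    subst ha0
    rw [zero_smul, zero_add, smul_eq_zero] at hab
    exact ⟨rfl, hab.resolve_right hw0⟩
  · rw [← hMv]; exact decP g v hv
  · rw [← hPw]; exact decM g w hsw

end FLTAgent.GalRep
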