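import Fermat.Prelude.Def_ModularCurve_ArithmeticGalois
import Mathlib.RingTheory.IntegralClosure.Algebra.Basic

/-!
# Open stabilisers for the arithmetic Galois action on places and divisor classes
-/

namespace FLTAgent.GalRep

open AlgebraicCurve ModularCurve
open scoped Pointwise

local notation "Γℚ" => AlgebraicClosure ℚ ≃ₐ[ℚ] AlgebraicClosure ℚ

/-- An element of a `Gal(ℚ̄/ℚ)`-set is finite-level if it is fixed by the subgroup fixing some
number field. -/
def IsFiniteLevel {X : Type*} [SMul Γℚ X] (x : X) : Prop :=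
  ∃ L : IntermediateField ℚ (AlgebraicClosure ℚ), FiniteDimensional ℚ L ∧
    ∀ σ : Γℚ, (∀ a ∈ L, σ a = a) → σ • x = x

theorem exists_common_level {ι : Type*} (s : Finset ι) (P : ι → Γℚ → Prop)
    (h : ∀ i ∈ s, ∃ L : IntermediateField ℚ (AlgebraicClosure ℚ), FiniteDimensional ℚ L ∧
      ∀ σ : Γℚ, (∀ a ∈ L, σ a = a) → P i σ) :
    ∃ L : IntermediateField ℚ (AlgebraicClosure ℚ), FiniteDimensional ℚ L ∧
      ∀ σ : Γℚ, (∀ a ∈ L, σ a = a) → ∀ i ∈ s, P i σ := by
  classical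
  induction s using Finset.induction_on with
  | empty => exact ⟨⊥, inferInstance, fun _ _ i hi => absurd hi (Finset.notMem_empty i)⟩
  | insert a s _ ih =>
    obtain ⟨L, hL, h1⟩ := ih fun i hi => h i (Finset.mem_insert_of_mem hi)
    obtain ⟨L', hL', h2⟩ := h a (Finset.mem_insert_self a s)
    refine ⟨L ⊔ L', inferInstance, fun σ hσ i hi => ?_⟩
    rcases Finset.mem_insert.mp hi with rfl | hi
    · exact h2 σ fun x hx => hσ x ((le_sup_right : L' ≤ L ⊔ L') hx)
    · exact h1 σ (fun x hx => hσ x ((le_sup_left : L ≤ L ⊔ L') hx)) i hi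

theorem exists_common_level₂ (P Q : Γℚ → Prop)
    (hP : ∃ L : IntermediateField ℚ (AlgebraicClosure ℚ), FiniteDimensional ℚ L ∧
      ∀ σ : Γℚ, (∀ a ∈ L, σ a = a) → P σ)
    (hQ : ∃ L : IntermediateField ℚ (AlgebraicClosure ℚ), FiniteDimensional ℚ L ∧
      ∀ σ : Γℚ, (∀ a ∈ L, σ a = a) → Q σ) :
    ∃ L : IntermediateField ℚ (AlgebraicClosure ℚ), FiniteDimensional ℚ L ∧
      ∀ σ : Γℚ, (∀ a ∈ L, σ a = a) → P σ ∧ Q σ := by
  obtain ⟨L, hL, h1⟩ := hP
  obtain ⟨L', hL', h2⟩ := hQ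
  exact ⟨L ⊔ L', inferInstance, fun σ hσ =>
    ⟨h1 σ fun x hx => hσ x ((le_sup_left : L ≤ L ⊔ L') hx),
      h2 σ fun x hx => hσ x ((le_sup_right : L' ≤ L ⊔ L') hx)⟩⟩

section Curve

variable (F₀ : IntermediateField ℚ (LaurentSeries ℚ))

local notation "FF" => laurentBaseChange (AlgebraicClosure ℚ) F₀

theorem exists_level_function (f : FF) :
    ∃ L : IntermediateField ℚ (AlgebraicClosure ℚ), FiniteDimensional ℚ L ∧
      ∀ σ : Γℚ, (∀ a ∈ L, σ a = a) → arithmeticGalois F₀ σ • f = f := by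
  suffices h : ∃ L : IntermediateField ℚ (AlgebraicClosure ℚ), FiniteDimensional ℚ L ∧
      ∀ σ : Γℚ, (∀ a ∈ L, σ a = a) →
        coeffMap (σ : AlgebraicClosure ℚ →+* AlgebraicClosure ℚ)
          (f : LaurentSeries (AlgebraicClosure ℚ)) = f by
    obtain ⟨L, hL, h⟩ := h
    exact ⟨L, hL, fun σ hσ => Subtype.ext ((coe_arithmeticGalois_smul F₀ σ f).trans (h σ hσ))⟩
  obtain ⟨x, hx⟩ := f
  simp only
  rw [mem_laurentBaseChange_iff] at hx
  induction hx using Subfield.closure_induction with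
  | mem y hy =>
    rcases hy with ⟨a, rfl⟩ | ⟨z, _, rfl⟩
    · refine ⟨IntermediateField.adjoin ℚ {a}, IntermediateField.adjoin.finiteDimensional
        ((AlgebraicClosure.isAlgebraic ℚ).isAlgebraic a).isIntegral, fun σ hσ => ?_⟩
      rw [coeffMap_algebraMap]
      exact congrArg _ (hσ a (IntermediateField.mem_adjoin_simple_self ℚ a))
    · exact ⟨⊥, inferInstance, fun σ _ => coeffMap_coeffEmb σ z⟩
  | one => exact ⟨⊥, inferInstance, fun σ _ => map_one _⟩
  | neg x _ hx =>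
    obtain ⟨L, hL, h⟩ := hx
    exact ⟨L, hL, fun σ hσ => by rw [map_neg, h σ hσ]⟩
  | inv x _ hx =>
    obtain ⟨L, hL, h⟩ := hx
    exact ⟨L, hL, fun σ hσ => by rw [map_inv₀, h σ hσ]⟩
  | add x y _ _ hx hy =>
    obtain ⟨L, hL, h⟩ := exists_common_level₂ _ _ hx hy
    exact ⟨L, hL, fun σ hσ => by rw [map_add, (h σ hσ).1, (h σ hσ).2]⟩
  | mul x y _ _ hx hy =>
    obtain ⟨L, hL, h⟩ := exists_common_level₂ _ _ hx hy
    exact ⟨L, hL, fun σ hσ => by rw [map_mul, (h σ hσ).1, (h σ hσ).2]⟩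

theorem mem_of_nonneg_ord {K F : Type*} [Field K] [Field F] [Algebra K F] (v : Place K F) {f : F}
    (hf : f ≠ 0) (h : 0 ≤ v.ord f) : f ∈ v.toValuationSubring := by
  obtain ⟨π, hπ⟩ := IsDiscreteValuationRing.exists_irreducible v.toValuationSubring
  obtain ⟨u, hu⟩ := v.exists_unit_mul_zpow hf hπ
  obtain ⟨n, hn⟩ := Int.eq_ofNat_of_zero_le h
  rw [hu, hn, zpow_natCast]
  exact mul_mem (u : v.toValuationSubring).2 (pow_mem π.2 n)

theorem place_eq_of_le {K F : Type*} [Field K] [Field F] [Algebra K F] {v w : Place K F}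
    (h : v.toValuationSubring ≤ w.toValuationSubring) : v = w := by
  refine Place.ext (le_antisymm h fun x hx => ?_)
  by_contra hxv
  apply w.ne_top'
  obtain ⟨π, hπ⟩ := IsDiscreteValuationRing.exists_irreducible v.toValuationSubring
  have hπ0 : (π : F) ≠ 0 := by simpa using hπ.ne_zero
  have hx0 : x ≠ 0 := fun e => hxv (e ▸ zero_mem _)
  obtain ⟨u, hu⟩ := v.exists_unit_mul_zpow hx0 hπ
  have hneg : v.ord x < 0 := lt_of_not_ge fun hn => hxv (mem_of_nonneg_ord v hx0 hn)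
  obtain ⟨m, hm⟩ : ∃ m : ℕ, v.ord x = -((m : ℤ) + 1) := ⟨(-v.ord x - 1).toNat, by omega⟩
  have hu0 : ((u : v.toValuationSubring) : F) ≠ 0 := by simp
  have hinv : (π : F)⁻¹ ∈ w.toValuationSubring := by
    have e : (π : F)⁻¹ = x * (((u⁻¹ : v.toValuationSubringˣ) : v.toValuationSubring) : F) *
        (π : F) ^ m := by
      have hui : ((u : v.toValuationSubring) : F) *
          (((u⁻¹ : v.toValuationSubringˣ) : v.toValuationSubring) : F) = 1 :=
        congrArg Subtype.val u.mul_inv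
      rw [hu, hm, zpow_neg, show ((m : ℤ) + 1) = ((m + 1 : ℕ) : ℤ) by push_cast; rfl, zpow_natCast,
        mul_right_comm ((u : v.toValuationSubring) : F), hui, one_mul, pow_succ]
      field_simp
    rw [e]
    exact mul_mem (mul_mem hx (h (SetLike.coe_mem _))) (pow_mem (h π.2) m)
  refine eq_top_iff.mpr fun y _ => ?_
  by_cases hy : y = 0
  · rw [hy]; exact zero_mem _
  obtain ⟨u', hu'⟩ := v.exists_unit_mul_zpow hy hπ
  rw [hu']
  refine mul_mem (h (SetLike.coe_mem _)) ?_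
  rcases Int.eq_nat_or_neg (v.ord y) with ⟨k, hk | hk⟩
  · rw [hk, zpow_natCast]; exact pow_mem (h π.2) k
  · rw [hk, zpow_neg, zpow_natCast, ← inv_pow]; exact pow_mem hinv k

theorem exists_level_place [HasPrincipalDivisors (AlgebraicClosure ℚ) FF]
    (v : Place (AlgebraicClosure ℚ) FF) :
    ∃ L : IntermediateField ℚ (AlgebraicClosure ℚ), FiniteDimensional ℚ L ∧
      ∀ σ : Γℚ, (∀ a ∈ L, σ a = a) → arithmeticGalois F₀ σ • v = v := by
  classical
  obtain ⟨π, hπ⟩ := IsDiscreteValuationRing.exists_irreducible v.toValuationSubring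
  have hπ0 : (π : FF) ≠ 0 := by simpa using hπ.ne_zero
  obtain ⟨D, hD, -⟩ := HasPrincipalDivisors.exists_divisor (K := AlgebraicClosure ℚ) (π : FF) hπ0
  have hsep : ∀ w : Place (AlgebraicClosure ℚ) FF, ∃ f : FF, w ≠ v → f ≠ 0 ∧
      f ∈ v.toValuationSubring ∧ f ∉ w.toValuationSubring := by
    intro w
    by_cases hw : w = v
    · exact ⟨1, fun h => absurd hw h⟩
    obtain ⟨f, hf, hf'⟩ := SetLike.not_le_iff_exists.mp fun h => hw (place_eq_of_le h).symm
    exact ⟨f, fun _ => ⟨fun e => hf' (e ▸ zero_mem _), hf, hf'⟩⟩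
  choose sep hsep using hsep
  obtain ⟨L, hL, h⟩ := exists_common_level (insert (π : FF) (D.support.image sep))
    (fun f σ => arithmeticGalois F₀ σ • f = f) (fun f _ => exists_level_function F₀ f)
  refine ⟨L, hL, fun σ hσ => ?_⟩
  by_contra hne
  set w := arithmeticGalois F₀ σ • v with hw
  have hπw : w.ord (π : FF) = 1 := by
    have := SemilinearAut.ord_smul (arithmeticGalois F₀ σ) v (π : FF)
    rwa [h σ hσ _ (Finset.mem_insert_self _ _), v.ord_coe_irreducible hπ] at this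
  have hwD : w ∈ D.support := by
    rw [Finsupp.mem_support_iff, hD, hπw]; exact one_ne_zero
  obtain ⟨_, hin, hnot⟩ := hsep w hne
  apply hnot
  rw [hw, SemilinearAut.smul_toValuationSubring,
    ← h σ hσ _ (Finset.mem_insert_of_mem (Finset.mem_image_of_mem sep hwD))]
  exact ValuationSubring.smul_mem_pointwise_smul _ _ _ hin

theorem isFiniteLevel_pic0 [HasPrincipalDivisors (AlgebraicClosure ℚ) FF]
    (x : Pic0 (AlgebraicClosure ℚ) FF) : IsFiniteLevel x := by
  obtain ⟨D, rfl⟩ := Pic0.mk_surjective x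
  obtain ⟨L, hL, h⟩ := exists_common_level (D : Divisor (AlgebraicClosure ℚ) FF).support
    (fun v σ => arithmeticGalois F₀ σ • v = v) (fun v _ => exists_level_place F₀ v)
  refine ⟨L, hL, fun σ hσ => ?_⟩
  rw [galois_smul_pic0_def, SemilinearAut.pic0_smul_mk]
  refine congrArg Pic0.mk (Subtype.ext ?_)
  rw [SemilinearAut.coe_degZeroSMulHom, SemilinearAut.divisor_smul_def,
    Finsupp.mapDomain_congr (g := id) fun v hv => h σ hσ v hv, Finsupp.mapDomain_id]

end Curve

theorem isFiniteLevel_jZero (N : ℕ)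
    [HasPrincipalDivisors (AlgebraicClosure ℚ) (modularFunctionFieldBar N)] (x : JZero N) :
    IsFiniteLevel x :=
  isFiniteLevel_pic0 (modularFunctionFieldFull N) x

theorem exists_common_level_set {X : Type*} [SMul Γℚ X] {S : Set X} (hS : S.Finite)
    (h : ∀ x ∈ S, IsFiniteLevel x) :
    ∃ L : IntermediateField ℚ (AlgebraicClosure ℚ), FiniteDimensional ℚ L ∧
      ∀ σ : Γℚ, (∀ a ∈ L, σ a = a) → ∀ x ∈ S, σ • x = x := by
  obtain ⟨L, hL, h⟩ := exists_common_level hS.toFinset (fun x σ => σ • x = x)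
    (fun x hx => h x (hS.mem_toFinset.mp hx))
  exact ⟨L, hL, fun σ hσ x hx => h σ hσ x (hS.mem_toFinset.mpr hx)⟩

end FLTAgent.GalRep
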