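import Fermat.Agent.GalRep.EigenRep
import Fermat.Prelude.Def_CuspForm_HeckeGaloisRepDatum

/-!
# The Galois representation attached to a point of the Hecke algebra
-/

namespace FLTAgent.GalRep

open Polynomial

theorem exists_galoisRep_of_matModel {p : ℕ} [Fact p.Prime] {N : ℕ} [NeZero N] {S : Finset ℕ}
    (M : MatModel N p ↑S) (hd : FrobeniusDense) (hpS : p ∈ S)
    (𝒪' : Type) [CommRing 𝒪'] [IsDomain 𝒪'] [IsDiscreteValuationRing 𝒪']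
    [IsAdicComplete (IsLocalRing.maximalIdeal 𝒪') 𝒪'] [Finite (IsLocalRing.ResidueField 𝒪')]
    [CharZero 𝒪'] (hp𝒪' : (p : 𝒪') ∈ IsLocalRing.maximalIdeal 𝒪')
    (χ : CuspForm.heckeAlgebra N 2 (↑S : Set ℕ) →+* 𝒪') :
    ∃ (𝒪'' : Type) (_ : CommRing 𝒪'') (_ : IsDomain 𝒪'') (_ : IsDiscreteValuationRing 𝒪'')
      (_ : IsAdicComplete (IsLocalRing.maximalIdeal 𝒪'') 𝒪'')
      (_ : Finite (IsLocalRing.ResidueField 𝒪'')) (_ : CharZero 𝒪'')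
      (_ : Algebra 𝒪' 𝒪'') (_ : Module.Finite 𝒪' 𝒪'') (_ : IsLocalHom (algebraMap 𝒪' 𝒪'')),
    Function.Injective (algebraMap 𝒪' 𝒪'') ∧
    ∃ ρ : GaloisRepAdic 𝒪'',
      (∀ (ℓ : ℕ) (hℓ : ℓ.Prime) (hℓN : ¬ ℓ ∣ N) (hℓS : ℓ ∉ (↑S : Set ℕ)),
        ∀ A : ValuationSubring (AlgebraicClosure ℚ), A.LiesOverPrime ℓ →
          ∀ σ : AlgebraicClosure ℚ ≃ₐ[ℚ] AlgebraicClosure ℚ, A.IsFrobeniusAt σ ℓ →
            LinearMap.charpoly (ρ.ρ σ) =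
              X ^ 2 - C (algebraMap 𝒪' 𝒪'' (χ (CuspForm.heckeAlgebra.T hℓ hℓN hℓS))) * X
                + C ((ℓ : 𝒪''))) ∧
      (∀ q : ℕ, q.Prime → ¬ q ∣ N → q ≠ p → ρ.IsUnramifiedAt q) := by
  obtain ⟨E, hfrob, hinert⟩ := M.exists_eigenSetup χ hd hp𝒪'
  obtain ⟨ρ, htr, hcont, hker⟩ := E.exists_rep
  refine ⟨𝒪', inferInstance, inferInstance, inferInstance, inferInstance, inferInstance,
    inferInstance, Algebra.id 𝒪', Module.Finite.self 𝒪', ⟨fun a ha => ha⟩, fun a b h => h,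
    adicOfMat ρ hcont, ?_, ?_⟩
  · intro ℓ hℓ hℓN hℓS A hA σ hσ
    obtain ⟨hc, hτ⟩ := hfrob ℓ hℓ hℓN hℓS (fun h => hℓS (by simpa [h] using hpS)) A hA σ hσ
    rw [charpoly_adicOfMat, (htr σ).1, (htr σ).2, hc, hτ]
    rfl
  · intro q hq hqN hqp
    refine isUnramifiedAt_adicOfMat ρ hcont q fun P hP σ hσ => ?_
    obtain ⟨h1, h2⟩ := hinert q hq (fun h => (hq.dvd_mul.mp h).elim hqN fun h' =>
      hqp ((Nat.prime_dvd_prime_iff_eq hq Fact.out).mp h')) P hP σ hσ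
    exact hker σ h1 h2

end FLTAgent.GalRep
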