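import Fermat.Agent.GalRep.Approx
import Fermat.Agent.GalRep.Span
import Fermat.Prelude.Def_CuspForm_HeckeGaloisRepDatum
import Mathlib.RingTheory.Filtration

/-!
# The representation of a Hecke–Galois datum is unramified outside `S`
-/

namespace FLTAgent.GalRep

open Polynomial

local notation "Γℚ" => AlgebraicClosure ℚ ≃ₐ[ℚ] AlgebraicClosure ℚ

theorem natCast_mem_maximalIdeal {𝒪 T : Type*} [CommRing 𝒪] [IsLocalRing 𝒪] [CommRing T]
    [IsLocalRing T] [Algebra 𝒪 T] [IsLocalHom (algebraMap 𝒪 T)] {p : ℕ}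
    (hp : (p : 𝒪) ∈ IsLocalRing.maximalIdeal 𝒪) : (p : T) ∈ IsLocalRing.maximalIdeal T := by
  rw [← map_natCast (algebraMap 𝒪 T) p]
  exact map_nonunit (algebraMap 𝒪 T) _ hp

theorem map_mem_maximalIdeal_pow {R T : Type*} [CommRing R] [CommRing T] [IsLocalRing T]
    (π : R →+* T) {p : ℕ} (hp : (p : T) ∈ IsLocalRing.maximalIdeal T) {m n : ℕ} (hnm : n ≤ m)
    (t : R) : π (p ^ m • t) ∈ IsLocalRing.maximalIdeal T ^ n := by
  rw [map_nsmul, nsmul_eq_mul, Nat.cast_pow]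
  exact Ideal.mul_mem_right _ _ (Ideal.pow_le_pow_right hnm (Ideal.pow_mem_pow hp m))

theorem isUnramifiedAt_of_matModel {p : ℕ} [Fact p.Prime] {N : ℕ} [NeZero N] {S : Finset ℕ}
    (M : MatModel N p ↑S) (hd : FrobeniusDense)
    {𝒪 : Type} [CommRing 𝒪] [IsDomain 𝒪] [IsDiscreteValuationRing 𝒪]
    [IsAdicComplete (IsLocalRing.maximalIdeal 𝒪) 𝒪]
    {θ : CuspForm.heckeAlgebra N 2 (↑S : Set ℕ) →+* IsLocalRing.ResidueField 𝒪}
    {T : Type} [CommRing T] [IsLocalRing T] [IsNoetherianRing T]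
    [IsAdicComplete (IsLocalRing.maximalIdeal T) T] [Algebra 𝒪 T] [IsLocalHom (algebraMap 𝒪 T)]
    [Module.Finite 𝒪 T] [Module.Free 𝒪 T]
    (hp𝒪 : (p : 𝒪) ∈ IsLocalRing.maximalIdeal 𝒪)
    (H : CuspForm.HeckeGaloisRepDatum N (↑S : Set ℕ) 𝒪 θ T)
    (q : ℕ) (hq : q.Prime) (hqn : ¬ q ∣ N * p) : H.ρ.IsUnramifiedAt q := by
  intro P hP u hu
  have hpT : (p : T) ∈ IsLocalRing.maximalIdeal T := natCast_mem_maximalIdeal hp𝒪
  refine eq_one_of_trace_mul_right H.ρ H.residual_absIrr u fun g => sub_eq_zero.mp ?_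
  rw [← Submodule.mem_bot T, ← Ideal.iInf_pow_eq_bot_of_isLocalRing
    (IsLocalRing.maximalIdeal T) (IsLocalRing.maximalIdeal.isMaximal T).ne_top, Submodule.mem_iInf]
  intro n
  obtain ⟨c, hc⟩ := M.exists_bound
  obtain ⟨L, hL, hLρ⟩ := H.ρ.isAdicContinuous n
  obtain ⟨ℓ, hℓ, hℓN, hℓS, A, hA, σ, hσ, hℓp, hag, he⟩ := M.exists_approx hd g (n + c) L
  obtain ⟨ℓ', hℓ', hℓ'N, hℓ'S, A', hA', σ', hσ', hℓ'p, hag', he'⟩ :=
    M.exists_approx hd (g * u) (n + c) L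
  have hu1 := M.inertia q hq hqn P hP u hu
  have hu2 := M.inertia q hq hqn P hP u⁻¹ (inv_mem hu)
  have hqp : q ≠ p := fun h => hqn (h ▸ dvd_mul_left q N)
  have hphi : M.phi (g * u) = M.phi g := by
    rw [MatModel.phi, MatModel.phi, _root_.mul_inv_rev, map_mul, map_mul, map_mul, hu1, hu2,
      cyclo_inertia hq hqp hP hu, mul_one, mul_one, one_mul]
  rw [hphi, he] at he'
  obtain ⟨t, ht⟩ := hc (n + c) (CuspForm.heckeAlgebra.T hℓ' hℓ'N hℓ'S -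
    CuspForm.heckeAlgebra.T hℓ hℓN hℓS) (by rw [map_sub, map_sub, map_sub, ← he', sub_self])
  have hπ := map_mem_maximalIdeal_pow H.π hpT (m := n + c - c) (n := n) (by omega) t
  rw [← ht, map_sub] at hπ
  have e1 := trace_sub_mem H.ρ (g := g) (σ := σ) (n := n)
    (hLρ _ (fixing_of_agree hag).1)
  have e2 := trace_sub_mem H.ρ (g := g * u) (σ := σ') (n := n)
    (hLρ _ (fixing_of_agree hag').1)
  rw [trace_eq_of_charpoly H.ρ (H.charpoly_frob ℓ hℓ hℓN hℓS A hA σ hσ)] at e1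
  rw [trace_eq_of_charpoly H.ρ (H.charpoly_frob ℓ' hℓ' hℓ'N hℓ'S A' hA' σ' hσ')] at e2
  have := Ideal.add_mem _ (Ideal.sub_mem _ e1 e2) hπ
  convert this using 1
  ring

end FLTAgent.GalRep
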