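import Fermat.Agent.GalRep.Attach
import Fermat.Agent.GalRep.Existence
import Fermat.Agent.GalRep.Unramified
import Fermat.Agent.Hecke.Final
import Fermat.Agent.Hecke.Inputs

/-!
# Matrix models of the Tate modules from the geometric inputs
-/

namespace FLTAgent.GalRep

open AlgebraicCurve ModularCurve

/-- The good reduction specialisations at every level. -/
def SpecializationsExist : Prop :=
  ∀ (N p : ℕ) [NeZero N] (_ : HeckeOperatorsCommuteBar N),
    letI := heckeModuleBar N
    ∀ (_ : SMulCommClass (AlgebraicClosure ℚ ≃ₐ[ℚ] AlgebraicClosure ℚ) HeckeAlg (JZero N)),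
      SpecializationExists (K := ℚ) (L := AlgebraicClosure ℚ) N p (JZero N)

theorem galoisFacts (hspec : SpecializationsExist) (N : ℕ) [NeZero N] (p : ℕ) :
    GaloisFacts N p :=
  haveI : HasPrincipalDivisors (AlgebraicClosure ℚ) (modularFunctionFieldBar N) :=
    FLTAgent.Hecke.hasPrincipalDivisors_level (AlgebraicClosure ℚ) N
  GaloisFacts.of_specialization N p (FLTAgent.Hecke.heckeOperatorsCommuteBar N)
    (FLTAgent.Hecke.smulCommClass_heckeModuleBar N)
    (hspec N p (FLTAgent.Hecke.heckeOperatorsCommuteBar N)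
      (FLTAgent.Hecke.smulCommClass_heckeModuleBar N))

theorem matModel_of_inputs (hspec : SpecializationsExist)
    (hT : ∀ (N : ℕ) [NeZero N] (p : ℕ) [Fact p.Prime], Nonempty (TorsionModel N p))
    (N : ℕ) [NeZero N] (p : ℕ) [Fact p.Prime] (S : Finset ℕ)
    (hS : ∀ q : ℕ, q.Prime → q ∣ N → q ∈ S) : Nonempty (MatModel N p ↑S) := by
  obtain ⟨T⟩ := hT N p
  exact ⟨T.matModel (galoisFacts hspec N p) fun q hq => hS q hq.1 hq.2⟩

end FLTAgent.GalRep
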