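import Fermat.Agent.GalRep.Approx
import Fermat.Agent.Chebotarev.Main

/-!
# Density of Frobenius elements
-/

set_option autoImplicit false

namespace FLTAgent.GalRep

/-- Frobenius elements are dense in the absolute Galois group of `ℚ`. -/
theorem frobeniusDense : FrobeniusDense := fun L hL g S ↦ by
  obtain ⟨ℓ, hℓ, hℓS, A, hA, -, σ, hσ, h⟩ := Chebotarev.exists_frobenius_eqOn L g S
  exact ⟨ℓ, hℓ, hℓS, A, hA, σ, hσ, h⟩

end FLTAgent.GalRep
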