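import Fermat.Agent.GalRep.MatModel

/-!
# Approximation of Galois elements by Frobenius elements
-/

namespace FLTAgent.GalRep

local notation "Γℚ" => AlgebraicClosure ℚ ≃ₐ[ℚ] AlgebraicClosure ℚ

/-- Existence form of Chebotarev: every element agrees on a number field with a Frobenius element
at a prime outside any given finite set. -/
def FrobeniusDense : Prop :=
  ∀ (L : IntermediateField ℚ (AlgebraicClosure ℚ)), FiniteDimensional ℚ L →
    ∀ (g : Γℚ) (S : Finset ℕ), ∃ ℓ : ℕ, ℓ.Prime ∧ ℓ ∉ S ∧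
      ∃ A : ValuationSubring (AlgebraicClosure ℚ), A.LiesOverPrime ℓ ∧
        ∃ σ : Γℚ, A.IsFrobeniusAt σ ℓ ∧ ∀ x ∈ L, σ x = g x

theorem fixing_of_agree {g σ : Γℚ} {L : IntermediateField ℚ (AlgebraicClosure ℚ)}
    (h : ∀ x ∈ L, σ x = g x) :
    (∀ x ∈ L, (g⁻¹ * σ) x = x) ∧ (∀ x ∈ L, (σ⁻¹ * g) x = x) := by
  constructor <;> intro x hx <;> rw [AlgEquiv.mul_apply]
  · rw [h x hx]; exact g.symm_apply_apply x
  · rw [← h x hx]; exact σ.symm_apply_apply x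

namespace MatModel

variable {N : ℕ} [NeZero N] {p : ℕ} [Fact p.Prime] {S : Finset ℕ} (M : MatModel N p ↑S)

/-- The operator `g + χ(g) g⁻¹`. -/
noncomputable def phi (g : Γℚ) : Matrix (Fin M.r) (Fin M.r) ℤ_[p] :=
  M.G g + (cyclo p g : ℤ_[p]) • M.G g⁻¹

theorem phi_complexConjugation : M.phi complexConjugation = 0 := by
  rw [phi, cyclo_complexConjugation, complexConjugation_inv, neg_smul, one_smul, add_neg_cancel]

theorem exists_approx (hd : FrobeniusDense) (g : Γℚ) (n : ℕ)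
    (L : IntermediateField ℚ (AlgebraicClosure ℚ)) [FiniteDimensional ℚ L] :
    ∃ (ℓ : ℕ) (hℓ : ℓ.Prime) (hℓN : ¬ ℓ ∣ N) (hℓS : ℓ ∉ (↑S : Set ℕ)),
      ∃ A : ValuationSubring (AlgebraicClosure ℚ), A.LiesOverPrime ℓ ∧
        ∃ σ : Γℚ, A.IsFrobeniusAt σ ℓ ∧ ℓ ≠ p ∧ (∀ x ∈ L, σ x = g x) ∧
          redP p n (M.phi g) =
            redP p n (castP p (M.Tm (CuspForm.heckeAlgebra.T hℓ hℓN hℓS))) := by
  obtain ⟨L₁, hL₁, h₁⟩ := M.cont n
  obtain ⟨L₂, hL₂, h₂⟩ := cyclo_continuous p n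
  let L' := L ⊔ L₁ ⊔ L₂
  obtain ⟨ℓ, hℓ, hℓS, A, hA, σ, hσ, hag⟩ := hd L' inferInstance g (insert p (S ∪ N.divisors))
  simp only [Finset.mem_insert, Finset.mem_union, Nat.mem_divisors, not_or] at hℓS
  obtain ⟨hℓp, hℓS, hℓN⟩ := hℓS
  have hℓN' : ¬ ℓ ∣ N := fun h => hℓN ⟨h, NeZero.ne N⟩
  refine ⟨ℓ, hℓ, hℓN', by simpa using hℓS, A, hA, σ, hσ, hℓp,
    fun x hx => hag x (le_sup_left.trans (le_sup_left : L ⊔ L₁ ≤ L') hx), ?_⟩
  obtain ⟨ha, hb⟩ := fixing_of_agree hag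
  have hle₁ : L₁ ≤ L' := le_sup_right.trans le_sup_left
  have hle₂ : L₂ ≤ L' := le_sup_right
  have e1 : redP p n (M.G σ) = redP p n (M.G g) := by
    rw [show σ = g * (g⁻¹ * σ) by group, map_mul, map_mul,
      h₁ _ fun x hx => ha x (hle₁ hx), mul_one]
  have e2 : redP p n (M.G g⁻¹) = redP p n (M.G σ⁻¹) := by
    rw [show g⁻¹ = g⁻¹ * σ * σ⁻¹ by group, map_mul, map_mul,
      h₁ _ fun x hx => ha x (hle₁ hx), one_mul]
  have e3 : PadicInt.toZModPow n (cyclo p g : ℤ_[p]) = (ℓ : ZMod (p ^ n)) := by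
    have h3 : (cyclo p σ : ℤ_[p]) = ℓ := cyclo_frobenius hℓ hℓp hA hσ
    have h4 := h₂ _ fun x hx => hb x (hle₂ hx)
    rw [show g = σ * (σ⁻¹ * g) by group, map_mul, Units.val_mul, map_mul, h4, mul_one, h3,
      map_natCast]
  rw [← M.frob ℓ hℓ hℓN' (by simpa using hℓS) hℓp A hA σ hσ, phi, map_add, map_add, redP_smul,
    redP_smul, e1, e2, e3, map_natCast]

end MatModel

end FLTAgent.GalRep
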