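import Fermat.Prelude.Def_ModularCurve_HeckeModule
import Fermat.Prelude.Def_CuspForm_HeckeAlgebra
import Fermat.Agent.GalRep.OpenStab
import Mathlib.LinearAlgebra.FreeModule.Finite.Basic

/-!
# The input for the Galois representations: a lattice model of the torsion of `J₀(N)`
-/

namespace FLTAgent.GalRep

open AlgebraicCurve ModularCurve

local notation "Γℚ" => AlgebraicClosure ℚ ≃ₐ[ℚ] AlgebraicClosure ℚ

/-- The set of primes dividing the level. -/
def levelPrimes (N : ℕ) : Set ℕ := {q | q.Prime ∧ q ∣ N}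

theorem notMem_levelPrimes {N ℓ : ℕ} (h : ¬ ℓ ∣ N) : ℓ ∉ levelPrimes N := fun h' => h h'.2

/-- The Hecke algebra generated by the `T ℓ`, `ℓ` prime not dividing the level. -/
noncomputable abbrev awayHecke (N : ℕ) [NeZero N] :
    Subalgebra ℤ (Module.End ℂ (CuspForm (CongruenceSubgroup.Gamma0 N) 2)) :=
  CuspForm.heckeAlgebra N 2 (levelPrimes N)

/-- The operator `T ℓ` in `awayHecke N`. -/
noncomputable def awayT (N : ℕ) [NeZero N] {ℓ : ℕ} (hℓ : ℓ.Prime) (hℓN : ¬ ℓ ∣ N) : awayHecke N :=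
  CuspForm.heckeAlgebra.T hℓ hℓN (notMem_levelPrimes hℓN)

/-- A lattice `H` with a faithful action of the Hecke algebra, uniformising the `p`-power torsion
of `J₀(N)` compatibly with the Hecke operators `T ℓ`, `ℓ ∤ N`. -/
structure TorsionModel (N : ℕ) [NeZero N] (p : ℕ) : Type 1 where
  H : Type
  [addCommGroup : AddCommGroup H]
  [free : Module.Free ℤ H]
  [finite : Module.Finite ℤ H]
  act : awayHecke N →+* Module.End ℤ H
  act_injective : Function.Injective act
  proj : ℕ → H →+ JZero N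
  exists_proj : ∀ (n : ℕ) (x : JZero N), p ^ n • x = 0 → ∃ h, proj n h = x
  proj_eq_zero_iff : ∀ (n : ℕ) (h : H), proj n h = 0 ↔ ∃ h' : H, h = p ^ n • h'
  proj_succ : ∀ (n : ℕ) (h : H), p • proj (n + 1) h = proj n h
  proj_act : ∀ (n : ℕ) (ℓ : ℕ) (hℓ : ℓ.Prime) (hℓN : ¬ ℓ ∣ N) (h : H),
    proj n (act (awayT N hℓ hℓN) h) = heckeOperatorBar N ⟨ℓ, hℓ⟩ (proj n h)

attribute [instance] TorsionModel.addCommGroup TorsionModel.free TorsionModel.finite

/-- The Galois-theoretic facts about `J₀(N)` used to build the representations. -/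
structure GaloisFacts (N : ℕ) [NeZero N] (p : ℕ) : Prop where
  finiteLevel : ∀ x : JZero N, IsFiniteLevel x
  smul_hecke : ∀ (ℓ : Nat.Primes) (σ : Γℚ) (x : JZero N),
    heckeOperatorBar N ℓ (σ • x) = σ • heckeOperatorBar N ℓ x
  inertia : ∀ q : ℕ, q.Prime → ¬ q ∣ N * p →
    ∀ A : ValuationSubring (AlgebraicClosure ℚ), A.LiesOverPrime q →
      ∀ σ ∈ A.inertiaSubgroupIn ℚ, ∀ x : JZero N, (∃ n : ℕ, p ^ n • x = 0) → σ • x = x
  frobenius : ∀ (ℓ : ℕ) (hℓ : ℓ.Prime), ¬ ℓ ∣ N * p →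
    ∀ A : ValuationSubring (AlgebraicClosure ℚ), A.LiesOverPrime ℓ →
      ∀ σ : Γℚ, A.IsFrobeniusAt σ ℓ → ∀ x : JZero N, (∃ n : ℕ, p ^ n • x = 0) →
        σ • σ • x - heckeOperatorBar N ⟨ℓ, hℓ⟩ (σ • x) + ℓ • x = 0

theorem smul_hecke_of_smulCommClass (N : ℕ) [NeZero N] (hcomm : HeckeOperatorsCommuteBar N)
    (hsc : letI := heckeModuleBar N; SMulCommClass Γℚ HeckeAlg (JZero N))
    (ℓ : Nat.Primes) (σ : Γℚ) (x : JZero N) :
    heckeOperatorBar N ℓ (σ • x) = σ • heckeOperatorBar N ℓ x := by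
  let +nondep := heckeModuleBar N
  rw [← heckeModuleBar_heckeGen_smul hcomm, ← heckeModuleBar_heckeGen_smul hcomm]
  exact (hsc.smul_comm σ (heckeGen ℓ) x).symm

theorem smul_nsmul_jZero {N : ℕ} (σ : Γℚ) (n : ℕ) (x : JZero N) : σ • (n • x) = n • (σ • x) :=
  map_nsmul (DistribSMul.toAddMonoidHom (JZero N) σ) n x

theorem smul_zero_jZero {N : ℕ} (σ : Γℚ) : σ • (0 : JZero N) = 0 :=
  smul_zero (A := JZero N) σ

/-- The Galois facts follow from the existence of good reduction specialisations. -/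
theorem GaloisFacts.of_specialization (N : ℕ) [NeZero N] (p : ℕ)
    [HasPrincipalDivisors (AlgebraicClosure ℚ) (modularFunctionFieldBar N)]
    (hcomm : HeckeOperatorsCommuteBar N)
    (hsc : letI := heckeModuleBar N; SMulCommClass Γℚ HeckeAlg (JZero N))
    (hspec : letI := heckeModuleBar N; letI := hsc;
      SpecializationExists (K := ℚ) (L := AlgebraicClosure ℚ) N p (JZero N)) :
    GaloisFacts N p where
  finiteLevel := isFiniteLevel_jZero N
  smul_hecke := smul_hecke_of_smulCommClass N hcomm hsc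
  inertia := by
    letI := heckeModuleBar N
    letI := hsc
    intro q hq hqn A hA σ hσ x ⟨n, hn⟩
    obtain ⟨J', _, _, sp, F, hsp, _⟩ := hspec q hq hqn A hA
    refine sub_eq_zero.mp (hsp.injective_torsion _ ⟨n, ?_⟩ ?_)
    · rw [nsmul_sub, ← smul_nsmul_jZero, hn, smul_zero_jZero, sub_zero]
    · rw [map_sub, hsp.inertia_comm σ hσ, sub_self]
  frobenius := by
    letI := heckeModuleBar N
    letI := hsc
    intro ℓ hℓ hℓn A hA σ hσ x ⟨n, hn⟩
    obtain ⟨J', _, _, sp, F, hsp, hrel⟩ := hspec ℓ hℓ hℓn A hA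
    show σ • σ • x - heckeOperatorBar N (⟨ℓ, hℓ⟩ : Nat.Primes) (σ • x) + ℓ • x = 0
    rw [← heckeModuleBar_heckeGen_smul hcomm (⟨ℓ, hℓ⟩ : Nat.Primes)]
    refine hsp.injective_torsion _ ⟨n, ?_⟩ ?_
    · have e : ∀ (t : HeckeAlg) (y : JZero N), p ^ n • (t • y) = t • (p ^ n • y) := fun t y =>
        (map_nsmul (DistribSMul.toAddMonoidHom (JZero N) t) (p ^ n) y).symm
      rw [nsmul_add, nsmul_sub, e, smul_comm (p ^ n) ℓ x]
      simp only [← smul_nsmul_jZero, hn, smul_zero_jZero, smul_zero, sub_zero, add_zero]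
    · rw [map_add, map_sub, map_nsmul, hsp.hecke_comm, hsp.frobenius_comm σ hσ,
        hsp.frobenius_comm σ hσ]
      exact hrel (sp x)

end FLTAgent.GalRep
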