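import Fermat.Prelude.Def_GaloisRep_Adic
import Mathlib.NumberTheory.Padics.RingHoms
import Mathlib.RingTheory.AdicCompletion.RingHom
import Mathlib.LinearAlgebra.Matrix.ToLin
import Mathlib.LinearAlgebra.Charpoly.ToMatrix
import Mathlib.LinearAlgebra.Matrix.Charpoly.Coeff
import Mathlib.RingTheory.Valuation.ValuationRing

/-!
# Generalities on adic representations given by matrices
-/

namespace FLTAgent.GalRep

open Polynomial Matrix

local notation "Γℚ" => AlgebraicClosure ℚ ≃ₐ[ℚ] AlgebraicClosure ℚ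

/-- The ring map from `ℤ_p` to a complete local ring with `p` in its maximal ideal. -/
theorem exists_padicHom (p : ℕ) [Fact p.Prime] (R : Type*) [CommRing R] [IsLocalRing R]
    [IsAdicComplete (IsLocalRing.maximalIdeal R) R] (hp : (p : R) ∈ IsLocalRing.maximalIdeal R) :
    Nonempty (ℤ_[p] →+* R) := by
  have h0 : ∀ n, ((p ^ n : ℕ) : R ⧸ IsLocalRing.maximalIdeal R ^ n) = 0 := fun n => by
    rw [← map_natCast (Ideal.Quotient.mk _), Ideal.Quotient.eq_zero_iff_mem, Nat.cast_pow]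
    exact Ideal.pow_mem_pow hp n
  let c : ∀ n, ZMod (p ^ n) →+* R ⧸ IsLocalRing.maximalIdeal R ^ n := fun n =>
    ZMod.castHom (ringChar.dvd (h0 n)) _
  refine ⟨IsAdicComplete.liftRingHom (IsLocalRing.maximalIdeal R)
    (fun n => (c n).comp (PadicInt.toZModPow n)) fun {m n} hle => ?_⟩
  rw [← RingHom.comp_assoc, ← PadicInt.zmod_cast_comp_toZModPow m n hle, ← RingHom.comp_assoc]
  congr 1
  exact RingHom.ext_zmod _ _

theorem padicHom_mem_pow {p : ℕ} [Fact p.Prime] {R : Type*} [CommRing R] [IsLocalRing R]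
    (ψ : ℤ_[p] →+* R) (hp : (p : R) ∈ IsLocalRing.maximalIdeal R) {n : ℕ} {x : ℤ_[p]}
    (hx : PadicInt.toZModPow n x = 0) : ψ x ∈ IsLocalRing.maximalIdeal R ^ n := by
  rw [← RingHom.mem_ker, PadicInt.ker_toZModPow, Ideal.mem_span_singleton] at hx
  obtain ⟨y, rfl⟩ := hx
  rw [map_mul, map_pow, map_natCast]
  exact Ideal.mul_mem_right _ _ (Ideal.pow_mem_pow hp n)

variable {A : Type} [CommRing A] [IsLocalRing A]

/-- An adic representation from a continuous matrix representation. -/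
noncomputable def adicOfMat (ρ : Γℚ →* Matrix (Fin 2) (Fin 2) A)
    (hρ : ∀ n : ℕ, ∃ L : IntermediateField ℚ (AlgebraicClosure ℚ), FiniteDimensional ℚ L ∧
      ∀ σ : Γℚ, (∀ x ∈ L, σ x = x) →
        ∀ a b, (ρ σ - 1) a b ∈ IsLocalRing.maximalIdeal A ^ n) : GaloisRepAdic A where
  V := Fin 2 → A
  finrank_eq := Module.finrank_fin_fun A
  ρ := (MonoidHomClass.toMonoidHom (Matrix.toLinAlgEquiv' (R := A) (n := Fin 2))).comp ρ
  isAdicContinuous := by
    intro n
    obtain ⟨L, hL, h⟩ := hρ n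
    refine ⟨L, hL, fun σ hσ v => ?_⟩
    show ρ σ *ᵥ v - v ∈ _
    conv => enter [2, 2]; rw [← Matrix.one_mulVec v]
    rw [← Matrix.sub_mulVec, ← Finset.univ_sum_single ((ρ σ - 1) *ᵥ v)]
    refine Submodule.sum_mem _ fun i _ => ?_
    rw [show Pi.single i (((ρ σ - 1) *ᵥ v) i) =
        ((ρ σ - 1) *ᵥ v) i • (Pi.single i 1 : Fin 2 → A) by
      rw [← Pi.single_smul', smul_eq_mul, mul_one]]
    refine Submodule.smul_mem_smul ?_ Submodule.mem_top
    simp only [Matrix.mulVec, dotProduct]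
    exact Ideal.sum_mem _ fun j _ => Ideal.mul_mem_right _ _ (h σ hσ i j)

theorem charpoly_adicOfMat (ρ : Γℚ →* Matrix (Fin 2) (Fin 2) A) (hρ) (σ : Γℚ) :
    LinearMap.charpoly ((adicOfMat ρ hρ).ρ σ) =
      X ^ 2 - C (ρ σ).trace * X + C (ρ σ).det := by
  show LinearMap.charpoly (Matrix.toLinAlgEquiv' (ρ σ)) = _
  rw [← LinearMap.charpoly_toMatrix _ (Pi.basisFun A (Fin 2)),
    show Matrix.toLinAlgEquiv' (ρ σ) = Matrix.toLin' (ρ σ) from rfl,
    ← LinearMap.toMatrix'_toLin' (ρ σ), Matrix.charpoly_fin_two]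
  simp [LinearMap.toMatrix_eq_toMatrix']

theorem isUnramifiedAt_adicOfMat (ρ : Γℚ →* Matrix (Fin 2) (Fin 2) A) (hρ) (q : ℕ)
    (h : ∀ P : ValuationSubring (AlgebraicClosure ℚ), P.LiesOverPrime q →
      ∀ σ ∈ P.inertiaSubgroupIn ℚ, ρ σ = 1) : (adicOfMat ρ hρ).IsUnramifiedAt q := by
  intro P hP σ hσ
  show Matrix.toLinAlgEquiv' (ρ σ) = 1
  rw [h P hP σ hσ, map_one]

/-- A vector over a valuation domain is a multiple of a vector with a coordinate equal to one. -/
theorem exists_primitive {R : Type*} [CommRing R] [IsDomain R] [ValuationRing R] {ι : Type*}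
    [Fintype ι] {v : ι → R} (hv : v ≠ 0) :
    ∃ (a : R) (w : ι → R) (i : ι), a ≠ 0 ∧ v = a • w ∧ w i = 1 := by
  classical
  obtain ⟨i0, hi0⟩ := Function.ne_iff.mp hv
  have key : ∀ s : Finset ι, ∃ i, v i ≠ 0 ∧ ∀ j ∈ s, v i ∣ v j := by
    intro s
    induction s using Finset.induction_on with
    | empty => exact ⟨i0, hi0, fun j hj => absurd hj (Finset.notMem_empty j)⟩
    | insert m s _ ih =>
      obtain ⟨i, hi, hdiv⟩ := ih
      rcases (ValuationRing.iff_dvd_total.mp inferInstance).total (v i) (v m) with h | h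
      · refine ⟨i, hi, fun k hk => ?_⟩
        rcases Finset.mem_insert.mp hk with rfl | hk
        · exact h
        · exact hdiv k hk
      · refine ⟨m, fun e => hi (by rwa [e, zero_dvd_iff] at h), fun k hk => ?_⟩
        rcases Finset.mem_insert.mp hk with rfl | hk
        · exact dvd_rfl
        · exact h.trans (hdiv k hk)
  obtain ⟨i, hi, hdiv⟩ := key Finset.univ
  choose w hw using fun j => hdiv j (Finset.mem_univ j)
  refine ⟨v i, w, i, hi, funext fun j => by simp [hw j], ?_⟩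
  exact mul_left_cancel₀ hi (by rw [← hw i, mul_one])

end FLTAgent.GalRep
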