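import Fermat.Agent.GalRep.Assembly
import Fermat.Agent.GalRep.Dense
import Fermat.Agent.JTors.Model

/-!
# The inputs of the Galois representations, reduced to good reduction
-/

set_option autoImplicit false

namespace FLTAgent.GalRep

/-- Matrix models exist as soon as the good reduction specialisations do. -/
theorem matModel_of_specializations (hspec : SpecializationsExist) (N : ℕ) [NeZero N] (p : ℕ)
    [Fact p.Prime] (S : Finset ℕ) (hS : ∀ q : ℕ, q.Prime → q ∣ N → q ∈ S) :
    Nonempty (MatModel N p ↑S) :=
  matModel_of_inputs hspec
    (fun N _ p hp => ⟨haveI : NeZero p := ⟨hp.out.ne_zero⟩; FLTAgent.JTors.torsionModel N p⟩) N p S hS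

end FLTAgent.GalRep
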