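import Fermat.Agent.GalRep.Model
import Fermat.Agent.GalRep.Cyclo
import Mathlib.LinearAlgebra.Matrix.ToLin
import Mathlib.LinearAlgebra.FreeModule.Finite.Matrix
import Mathlib.RingTheory.Noetherian.Basic

/-!
# Matrix form of the `p`-adic Tate module of `J₀(N)`
-/

namespace FLTAgent.GalRep

open AlgebraicCurve ModularCurve Matrix

local notation "Γℚ" => AlgebraicClosure ℚ ≃ₐ[ℚ] AlgebraicClosure ℚ

/-- Reduction of a `p`-adic matrix modulo `p ^ n`. -/
noncomputable def redP {r : ℕ} (p : ℕ) [Fact p.Prime] (n : ℕ) :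
    Matrix (Fin r) (Fin r) ℤ_[p] →+* Matrix (Fin r) (Fin r) (ZMod (p ^ n)) :=
  (PadicInt.toZModPow n).mapMatrix

/-- An integer matrix viewed as a `p`-adic one. -/
noncomputable def castP {r : ℕ} (p : ℕ) [Fact p.Prime] :
    Matrix (Fin r) (Fin r) ℤ →+* Matrix (Fin r) (Fin r) ℤ_[p] :=
  (Int.castRingHom ℤ_[p]).mapMatrix

theorem redP_ext {r p : ℕ} [Fact p.Prime] {X Y : Matrix (Fin r) (Fin r) ℤ_[p]}
    (h : ∀ n, redP p n X = redP p n Y) : X = Y := by
  ext a b
  exact PadicInt.ext_of_toZModPow.mp fun n => congrFun (congrFun (h n) a) b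

theorem redP_castP {r p : ℕ} [Fact p.Prime] (n : ℕ) (X : Matrix (Fin r) (Fin r) ℤ) :
    redP p n (castP p X) = X.map (Int.cast : ℤ → ZMod (p ^ n)) := by
  ext a b; simp [redP, castP]

theorem redP_smul {r p : ℕ} [Fact p.Prime] (n : ℕ) (c : ℤ_[p]) (X : Matrix (Fin r) (Fin r) ℤ_[p]) :
    redP p n (c • X) = PadicInt.toZModPow n c • redP p n X := by
  ext a b; simp [redP]

/-- A `p`-adic matrix representation of `Gal(ℚ̄/ℚ)` with commuting integral Hecke operators,
satisfying the Eichler–Shimura relation. -/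
structure MatModel (N : ℕ) [NeZero N] (p : ℕ) [Fact p.Prime] (S : Set ℕ) : Type where
  r : ℕ
  Tm : CuspForm.heckeAlgebra N 2 S →+* Matrix (Fin r) (Fin r) ℤ
  Tm_injective : Function.Injective Tm
  G : Γℚ →* Matrix (Fin r) (Fin r) ℤ_[p]
  G_comm : ∀ g t, G g * castP p (Tm t) = castP p (Tm t) * G g
  frob : ∀ (ℓ : ℕ) (hℓ : ℓ.Prime) (hℓN : ¬ ℓ ∣ N) (hℓS : ℓ ∉ S), ℓ ≠ p →
    ∀ A : ValuationSubring (AlgebraicClosure ℚ), A.LiesOverPrime ℓ →
      ∀ σ : Γℚ, A.IsFrobeniusAt σ ℓ →
        G σ + (ℓ : ℤ_[p]) • G σ⁻¹ = castP p (Tm (CuspForm.heckeAlgebra.T hℓ hℓN hℓS))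
  inertia : ∀ q : ℕ, q.Prime → ¬ q ∣ N * p →
    ∀ A : ValuationSubring (AlgebraicClosure ℚ), A.LiesOverPrime q →
      ∀ σ ∈ A.inertiaSubgroupIn ℚ, G σ = 1
  cont : ∀ n : ℕ, ∃ L : IntermediateField ℚ (AlgebraicClosure ℚ), FiniteDimensional ℚ L ∧
    ∀ σ : Γℚ, (∀ x ∈ L, σ x = x) → redP p n (G σ) = 1

/-- Saturation bound for a finitely generated lattice of integer matrices. -/
theorem exists_saturation_bound {T : Type*} [AddCommGroup T] {r : ℕ}
    (L : T →+ Matrix (Fin r) (Fin r) ℤ) (hL : Function.Injective L) (m : ℕ) :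
    ∃ c, ∀ (n : ℕ) (t : T), (∀ a b, ((m ^ n : ℕ) : ℤ) ∣ L t a b) →
      ∃ t', t = m ^ (n - c) • t' := by
  let M : ℕ →o Submodule ℤ (Matrix (Fin r) (Fin r) ℤ) :=
    { toFun := fun k => (LinearMap.range L.toIntLinearMap).comap
        (((m ^ k : ℕ) : ℤ) • LinearMap.id)
      monotone' := fun k k' hk y hy => by
        obtain ⟨j, rfl⟩ := Nat.exists_eq_add_of_le hk
        simp only [Submodule.mem_comap, LinearMap.smul_apply, LinearMap.id_apply] at hy ⊢
        rw [pow_add, Nat.cast_mul, mul_comm, mul_smul]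
        exact Submodule.smul_mem _ _ hy }
  obtain ⟨c, hc⟩ := monotone_stabilizes_iff_noetherian.mpr inferInstance M
  refine ⟨c, fun n t hn => ?_⟩
  rcases le_or_gt n c with hnc | hnc
  · exact ⟨t, by rw [Nat.sub_eq_zero_of_le hnc, pow_zero, one_smul]⟩
  choose y hy using hn
  have hy' : L t = ((m ^ n : ℕ) : ℤ) • Matrix.of y := by ext a b; simp [hy a b]
  have hmem : Matrix.of y ∈ M n := ⟨t, hy'⟩
  rw [← hc n hnc.le] at hmem
  obtain ⟨t', ht'⟩ := hmem
  refine ⟨t', hL ?_⟩
  simp only [AddMonoidHom.coe_toIntLinearMap, LinearMap.smul_apply, LinearMap.id_apply] at ht'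
  rw [map_nsmul, ht', hy', ← natCast_zsmul, smul_smul, ← Nat.cast_mul, ← pow_add,
    Nat.sub_add_cancel hnc.le]

namespace MatModel

variable {N : ℕ} [NeZero N] {p : ℕ} [Fact p.Prime] {S : Set ℕ} (M : MatModel N p S)

theorem exists_bound : ∃ c, ∀ (n : ℕ) (t : CuspForm.heckeAlgebra N 2 S),
    redP p n (castP p (M.Tm t)) = 0 → ∃ t', t = p ^ (n - c) • t' := by
  obtain ⟨c, hc⟩ := exists_saturation_bound M.Tm.toAddMonoidHom M.Tm_injective p
  refine ⟨c, fun n t ht => hc n t fun a b => ?_⟩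
  rw [redP_castP] at ht
  have := congrFun (congrFun ht a) b
  simpa [ZMod.intCast_zmod_eq_zero_iff_dvd] using this

end MatModel

section Build

variable {N : ℕ} [NeZero N] {p : ℕ} [Fact p.Prime] (M : TorsionModel N p)

/-- A basis of the lattice. -/
noncomputable def TorsionModel.basis : Module.Basis (Fin (Module.finrank ℤ M.H)) ℤ M.H :=
  Module.finBasis ℤ M.H

/-- The uniformisation of the `p ^ n`-torsion by integer vectors. -/
noncomputable def TorsionModel.projv (n : ℕ) : (Fin (Module.finrank ℤ M.H) → ℤ) →+ JZero N :=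
  (M.proj n).comp M.basis.equivFun.symm.toLinearMap.toAddMonoidHom

theorem TorsionModel.projv_eq_zero_iff (n : ℕ) (v : Fin (Module.finrank ℤ M.H) → ℤ) :
    M.projv n v = 0 ↔ ∀ i, ((p ^ n : ℕ) : ℤ) ∣ v i := by
  show M.proj n (M.basis.equivFun.symm v) = 0 ↔ _
  rw [M.proj_eq_zero_iff]
  constructor
  · rintro ⟨h', hh⟩ i
    refine ⟨M.basis.equivFun h' i, ?_⟩
    have := congrArg M.basis.equivFun hh
    rw [LinearEquiv.apply_symm_apply, map_nsmul] at this
    simp [this]
  · intro hv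
    choose w hw using hv
    refine ⟨M.basis.equivFun.symm w, ?_⟩
    rw [← map_nsmul]
    congr 1
    funext i; simp [hw i]

theorem TorsionModel.exists_projv (n : ℕ) (x : JZero N) (hx : p ^ n • x = 0) :
    ∃ v, M.projv n v = x := by
  obtain ⟨h, rfl⟩ := M.exists_proj n x hx
  exact ⟨M.basis.equivFun h, congrArg (M.proj n) (M.basis.equivFun.symm_apply_apply h)⟩

theorem TorsionModel.pow_smul_projv (n : ℕ) (v : Fin (Module.finrank ℤ M.H) → ℤ) :
    p ^ n • M.projv n v = 0 := by
  rw [← map_nsmul, M.projv_eq_zero_iff]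
  intro i
  exact ⟨v i, by simp⟩

include M in
theorem TorsionModel.finite_torsion (n : ℕ) : {x : JZero N | p ^ n • x = 0}.Finite := by
  have hpn : 0 < (p ^ n : ℕ) := pow_pos (Fact.out : p.Prime).pos n
  haveI : NeZero (p ^ n) := ⟨hpn.ne'⟩
  refine (Set.finite_range fun v : Fin (Module.finrank ℤ M.H) → ZMod (p ^ n) =>
    M.projv n fun i => ((v i).val : ℤ)).subset fun x hx => ?_
  obtain ⟨v, rfl⟩ := M.exists_projv n x hx
  refine ⟨fun i => (v i : ZMod (p ^ n)), sub_eq_zero.mp ?_⟩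
  rw [← map_sub, M.projv_eq_zero_iff]
  intro i
  rw [Pi.sub_apply, ← ZMod.intCast_zmod_eq_zero_iff_dvd]
  simp

theorem TorsionModel.projv_succ (n : ℕ) (v : Fin (Module.finrank ℤ M.H) → ℤ) :
    p • M.projv (n + 1) v = M.projv n v :=
  M.proj_succ n _

theorem TorsionModel.exists_levelMat (n : ℕ) (g : Γℚ) :
    ∃ A : Matrix (Fin (Module.finrank ℤ M.H)) (Fin (Module.finrank ℤ M.H)) ℤ,
      ∀ v, g • M.projv n v = M.projv n (A *ᵥ v) := by
  choose w hw using fun j => M.exists_projv n (g • M.projv n (Pi.single j 1)) (by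
    rw [← smul_nsmul_jZero, M.pow_smul_projv, smul_zero_jZero])
  refine ⟨Matrix.of fun i j => w j i, ?_⟩
  have key : (DistribSMul.toAddMonoidHom (JZero N) g).comp (M.projv n) =
      (M.projv n).comp
        ((Matrix.mulVecLin (Matrix.of fun i j => w j i)).toAddMonoidHom) := by
    refine AddMonoidHom.functions_ext _ _ _ fun j z => ?_
    rw [show (Pi.single j z : Fin (Module.finrank ℤ M.H) → ℤ) = z • Pi.single j (1 : ℤ) by
      rw [← Pi.single_smul', smul_eq_mul, mul_one], map_zsmul, map_zsmul]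
    congr 1
    show g • M.projv n (Pi.single j 1) = M.projv n (_ *ᵥ Pi.single j 1)
    rw [← hw j, Matrix.mulVec_single_one]
    rfl
  exact fun v => DFunLike.congr_fun key v

/-- An integral matrix of `g` on the `p ^ n`-torsion. -/
noncomputable def TorsionModel.levelMat (n : ℕ) (g : Γℚ) :=
  (M.exists_levelMat n g).choose

theorem TorsionModel.smul_projv (n : ℕ) (g : Γℚ) (v : Fin (Module.finrank ℤ M.H) → ℤ) :
    g • M.projv n v = M.projv n (M.levelMat n g *ᵥ v) :=
  (M.exists_levelMat n g).choose_spec v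

theorem TorsionModel.dvd_of_projv_eq (n : ℕ)
    {X Y : Matrix (Fin (Module.finrank ℤ M.H)) (Fin (Module.finrank ℤ M.H)) ℤ}
    (h : ∀ v, M.projv n (X *ᵥ v) = M.projv n (Y *ᵥ v)) :
    ∀ a b, ((p ^ n : ℕ) : ℤ) ∣ X a b - Y a b := by
  intro a b
  have hb := h (Pi.single b 1)
  rw [← sub_eq_zero, ← map_sub, M.projv_eq_zero_iff, Matrix.mulVec_single_one,
    Matrix.mulVec_single_one] at hb
  exact hb a

theorem TorsionModel.levelMat_succ (n : ℕ) (g : Γℚ) (a b : Fin (Module.finrank ℤ M.H)) :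
    (p : ℤ) ^ n ∣ M.levelMat (n + 1) g a b - M.levelMat n g a b := by
  have := M.dvd_of_projv_eq n (X := M.levelMat (n + 1) g) (Y := M.levelMat n g) (fun v => by
    calc M.projv n (M.levelMat (n + 1) g *ᵥ v) = p • M.projv (n + 1) (M.levelMat (n + 1) g *ᵥ v) :=
          (M.projv_succ _ _).symm
      _ = g • (p • M.projv (n + 1) v) := by rw [← M.smul_projv, smul_nsmul_jZero]
      _ = M.projv n (M.levelMat n g *ᵥ v) := by rw [M.projv_succ, M.smul_projv]) a b
  simpa using this

/-- The `p`-adic matrix of `g`. -/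
noncomputable def TorsionModel.galMat (g : Γℚ) :
    Matrix (Fin (Module.finrank ℤ M.H)) (Fin (Module.finrank ℤ M.H)) ℤ_[p] :=
  Matrix.of fun a b => PadicInt.ofIntSeq _
    (PadicInt.isCauSeq_padicNorm_of_pow_dvd_sub (fun n => M.levelMat n g a b) p
      fun n => M.levelMat_succ n g a b)

theorem TorsionModel.redP_galMat (n : ℕ) (g : Γℚ) :
    redP p n (M.galMat g) = (M.levelMat n g).map (Int.cast : ℤ → ZMod (p ^ n)) := by
  ext a b
  exact PadicInt.toZModPow_ofIntSeq_of_pow_dvd_sub (fun n => M.levelMat n g a b) p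
    (fun n => M.levelMat_succ n g a b) n

/-- A reduction identity follows from the identity of operators on the torsion. -/
theorem TorsionModel.map_eq_of_projv_eq (n : ℕ)
    {X Y : Matrix (Fin (Module.finrank ℤ M.H)) (Fin (Module.finrank ℤ M.H)) ℤ}
    (h : ∀ v, M.projv n (X *ᵥ v) = M.projv n (Y *ᵥ v)) :
    X.map (Int.cast : ℤ → ZMod (p ^ n)) = Y.map (Int.cast : ℤ → ZMod (p ^ n)) := by
  ext a b
  rw [Matrix.map_apply, Matrix.map_apply, ← sub_eq_zero, ← Int.cast_sub,
    ZMod.intCast_zmod_eq_zero_iff_dvd]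
  exact M.dvd_of_projv_eq n h a b

/-- The Galois representation on the Tate module, as matrices. -/
noncomputable def TorsionModel.galHom :
    Γℚ →* Matrix (Fin (Module.finrank ℤ M.H)) (Fin (Module.finrank ℤ M.H)) ℤ_[p] where
  toFun := M.galMat
  map_one' := redP_ext fun n => by
    rw [M.redP_galMat, map_one, M.map_eq_of_projv_eq n (Y := 1) fun v => by
      rw [← M.smul_projv, one_smul, Matrix.one_mulVec], Matrix.map_one _ Int.cast_zero Int.cast_one]
  map_mul' g h := redP_ext fun n => by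
    rw [M.redP_galMat, map_mul, M.redP_galMat, M.redP_galMat,
      M.map_eq_of_projv_eq n (Y := M.levelMat n g * M.levelMat n h) fun v => by
        rw [← M.smul_projv, mul_smul, M.smul_projv, M.smul_projv, Matrix.mulVec_mulVec]]
    exact Matrix.map_mul (f := Int.castRingHom (ZMod (p ^ n)))

/-- The matrix of a Hecke operator on the lattice. -/
noncomputable def TorsionModel.heckeMat :
    awayHecke N →+* Matrix (Fin (Module.finrank ℤ M.H)) (Fin (Module.finrank ℤ M.H)) ℤ :=
  (LinearMap.toMatrixAlgEquiv M.basis).toRingEquiv.toRingHom.comp M.act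

theorem TorsionModel.projv_heckeMat (n : ℕ) {ℓ : ℕ} (hℓ : ℓ.Prime) (hℓN : ¬ ℓ ∣ N)
    (v : Fin (Module.finrank ℤ M.H) → ℤ) :
    M.projv n (M.heckeMat (awayT N hℓ hℓN) *ᵥ v) =
      heckeOperatorBar N (⟨ℓ, hℓ⟩ : Nat.Primes) (M.projv n v) := by
  have key : M.basis.equivFun.symm (M.heckeMat (awayT N hℓ hℓN) *ᵥ v) =
      M.act (awayT N hℓ hℓN) (M.basis.equivFun.symm v) := by
    rw [LinearEquiv.symm_apply_eq]
    have := LinearMap.toMatrix_mulVec_repr M.basis M.basis (M.act (awayT N hℓ hℓN))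
      (M.basis.equivFun.symm v)
    simp only [← Module.Basis.equivFun_apply, LinearEquiv.apply_symm_apply] at this
    exact this
  show M.proj n _ = heckeOperatorBar N _ (M.proj n _)
  exact (congrArg (M.proj n) key).trans (M.proj_act n ℓ hℓ hℓN _)

variable (hG : GaloisFacts N p)

/-- The matrix model away from `S`. -/
noncomputable def TorsionModel.matModel {S : Set ℕ} (hS : levelPrimes N ⊆ S) :
    MatModel N p S where
  r := Module.finrank ℤ M.H
  Tm := M.heckeMat.comp (Subalgebra.inclusion (CuspForm.heckeAlgebra_mono hS)).toRingHom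
  Tm_injective := fun a b h => Subalgebra.inclusion_injective (CuspForm.heckeAlgebra_mono hS)
    (M.act_injective ((LinearMap.toMatrixAlgEquiv M.basis).injective h))
  G := M.galHom
  G_comm := by
    intro g t
    have hgen : ∀ x ∈ CuspForm.heckeGenerators N 2 S,
        ∀ hx : x ∈ awayHecke N, Commute (M.galHom g) (castP p (M.heckeMat ⟨x, hx⟩)) := by
      rintro x (⟨ℓ, hℓ, hℓN, hℓS, rfl⟩ | ⟨q, hqN, hq, hqS, rfl⟩) hx
      · refine redP_ext fun n => ?_
        show redP p n (M.galMat g * _) = redP p n (_ * M.galMat g)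
        rw [map_mul, map_mul, M.redP_galMat, redP_castP]
        change (Int.castRingHom (ZMod (p ^ n))).mapMatrix _ * (Int.castRingHom _).mapMatrix _ =
          (Int.castRingHom _).mapMatrix _ * (Int.castRingHom _).mapMatrix _
        rw [← map_mul, ← map_mul]
        refine M.map_eq_of_projv_eq n fun v => ?_
        rw [← Matrix.mulVec_mulVec, ← Matrix.mulVec_mulVec, ← M.smul_projv]
        exact ((congrArg (g • ·) (M.projv_heckeMat n hℓ hℓN v)).trans
          ((hG.smul_hecke _ g _).symm.trans (congrArg _ (M.smul_projv n g v)))).trans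
          (M.projv_heckeMat n hℓ hℓN _).symm
      · exact absurd (hS ⟨hq, hqN⟩) hqS
    obtain ⟨x, hx⟩ := t
    show Commute (M.galHom g) (castP p (M.heckeMat ⟨x, CuspForm.heckeAlgebra_mono hS hx⟩))
    induction hx using Algebra.adjoin_induction with
    | mem x hx => exact hgen x hx _
    | algebraMap z =>
      rw [show (⟨algebraMap ℤ _ z, _⟩ : awayHecke N) = (z : awayHecke N) from
        Subtype.ext (by simp), map_intCast, map_intCast]
      exact Int.cast_commute z _ |>.symm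
    | add a b ha hb iha ihb =>
      rw [show (⟨a + b, _⟩ : awayHecke N) = ⟨a, CuspForm.heckeAlgebra_mono hS ha⟩ +
        ⟨b, CuspForm.heckeAlgebra_mono hS hb⟩ from rfl, map_add, map_add]
      exact iha.add_right ihb
    | mul a b ha hb iha ihb =>
      rw [show (⟨a * b, _⟩ : awayHecke N) = ⟨a, CuspForm.heckeAlgebra_mono hS ha⟩ *
        ⟨b, CuspForm.heckeAlgebra_mono hS hb⟩ from rfl, map_mul, map_mul]
      exact iha.mul_right ihb
  frob := by
    intro ℓ hℓ hℓN hℓS hℓp A hA σ hσ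
    refine redP_ext fun n => ?_
    show redP p n (M.galMat σ + (ℓ : ℤ_[p]) • M.galMat σ⁻¹) = _
    rw [map_add, redP_smul, map_natCast, M.redP_galMat, M.redP_galMat, redP_castP]
    have h := M.map_eq_of_projv_eq n (X := M.levelMat n σ + (ℓ : ℤ) • M.levelMat n σ⁻¹)
      (Y := M.heckeMat (awayT N hℓ hℓN)) fun v => ?_
    · refine Eq.trans ?_ h
      ext a b
      simp [Matrix.smul_apply, -nsmul_eq_mul, -zsmul_eq_mul]
    · have hdvd : ¬ ℓ ∣ N * p := fun hd => (hℓ.dvd_mul.mp hd).elim hℓN fun h' =>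
        hℓp ((Nat.prime_dvd_prime_iff_eq hℓ (Fact.out : p.Prime)).mp h')
      have := hG.frobenius ℓ hℓ hdvd A hA σ hσ (σ⁻¹ • M.projv n v)
        ⟨n, by rw [← smul_nsmul_jZero, M.pow_smul_projv, smul_zero_jZero]⟩
      rw [smul_inv_smul] at this
      rw [Matrix.add_mulVec, Matrix.smul_mulVec, map_add, map_zsmul, ← M.smul_projv, ← M.smul_projv,
        M.projv_heckeMat, natCast_zsmul, ← sub_eq_zero, ← this, add_sub_right_comm]
  inertia := by
    intro q hq hqn A hA σ hσ
    refine redP_ext fun n => ?_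
    show redP p n (M.galMat σ) = _
    rw [M.redP_galMat, map_one, M.map_eq_of_projv_eq n (Y := 1) fun v => by
      rw [← M.smul_projv, Matrix.one_mulVec,
        hG.inertia q hq hqn A hA σ hσ _ ⟨n, M.pow_smul_projv n v⟩],
      Matrix.map_one _ Int.cast_zero Int.cast_one]
  cont := by
    intro n
    obtain ⟨L, hL, h⟩ := exists_common_level_set (TorsionModel.finite_torsion M n)
      fun x _ => hG.finiteLevel x
    refine ⟨L, hL, fun σ hσ => ?_⟩
    show redP p n (M.galMat σ) = 1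
    rw [M.redP_galMat, M.map_eq_of_projv_eq n (Y := 1) fun v => by
      rw [← M.smul_projv, Matrix.one_mulVec, h σ hσ _ (M.pow_smul_projv n v)],
      Matrix.map_one _ Int.cast_zero Int.cast_one]

end Build

end FLTAgent.GalRep
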