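import Fermat.Agent.GalRep.Residual
import Fermat.Agent.Quick.HeckeEigenform
import Fermat.Agent.IntegralStructure.HeckeFinite
import Fermat.Agent.Torsion.Galois
import Fermat.Agent.Frey.Model
import Fermat.Prelude.Def_FreyPackage_EigenformResidualAttachment
import Mathlib.RingTheory.Ideal.GoingUp
import Mathlib.Analysis.Complex.Polynomial.Basic
import Mathlib.FieldTheory.Normal.Closure
import Mathlib.Algebra.Algebra.Rat

/-!
# Residual representations attached to eigenforms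
-/

namespace FLTAgent.GalRep

open Polynomial

local notation "Γℚ" => AlgebraicClosure ℚ ≃ₐ[ℚ] AlgebraicClosure ℚ

local notation "Zc" => integralClosure ℤ ℂ

/-- The eigenvalue character with values in the algebraic integers. -/
theorem exists_integral_char {N : ℕ} [NeZero N] {g : CuspForm (CongruenceSubgroup.Gamma0 N) 2}
    (hg : g.IsNormalizedEigenform) (S : Set ℕ) :
    ∃ θ : CuspForm.heckeAlgebra N 2 S →+* Zc,
      ∀ (ℓ : ℕ) (hℓ : ℓ.Prime) (hℓN : ¬ ℓ ∣ N) (hℓS : ℓ ∉ S),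
        (θ (CuspForm.heckeAlgebra.T hℓ hℓN hℓS) : ℂ) = ModularFormClass.qCoeff g ℓ := by
  haveI := FLTAgent.IntegralStructure.moduleFinite_heckeAlgebra (N := N) 2 S
  refine ⟨(FLTAgent.Quick.eigenformChar hg S).codRestrict (integralClosure ℤ ℂ).toSubring
    fun t => ?_, fun ℓ hℓ hℓN hℓS => FLTAgent.Quick.eigenformChar_T hg hℓ hℓN hℓS⟩
  exact (Algebra.IsIntegral.isIntegral (R := ℤ) t).map (FLTAgent.Quick.eigenformChar hg S).toIntAlgHom

theorem isMaximal_ker {k : Type*} [Field k] {p : ℕ} (hp : p.Prime) [CharP k p] (φ : Zc →+* k) :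
    (RingHom.ker φ).IsMaximal := by
  haveI := RingHom.ker_isPrime φ
  refine Ideal.isMaximal_of_isIntegral_of_isMaximal_comap (R := ℤ) _ ?_
  have hle : Ideal.span {(p : ℤ)} ≤ (RingHom.ker φ).comap (algebraMap ℤ Zc) := by
    rw [Ideal.span_singleton_le_iff_mem, Ideal.mem_comap, RingHom.mem_ker, map_natCast, map_natCast,
      CharP.cast_eq_zero]
  have hmax : (Ideal.span {(p : ℤ)}).IsMaximal :=
    PrincipalIdealRing.isMaximal_of_irreducible (Nat.prime_iff_prime_int.mp hp).irreducible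
  rw [← hmax.eq_of_le (Ideal.comap_ne_top _ (RingHom.ker_ne_top φ)) hle]
  exact hmax

theorem isAlgClosed_quotient (I : Ideal Zc) [I.IsMaximal] :
    letI := Ideal.Quotient.field I; IsAlgClosed (Zc ⧸ I) := by
  letI := Ideal.Quotient.field I
  refine IsAlgClosed.of_exists_root _ fun f hf hirr => ?_
  obtain ⟨F, hF, hdeg, hFm⟩ := Polynomial.lifts_and_natDegree_eq_and_monic
    ((Polynomial.mem_lifts f).mpr
      (Polynomial.map_surjective (Ideal.Quotient.mk I) Ideal.Quotient.mk_surjective f)) hf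
  have hd : 0 < F.natDegree := hdeg ▸ hirr.natDegree_pos
  obtain ⟨z, hz⟩ := IsAlgClosed.exists_root (F.map (algebraMap Zc ℂ)) (by
    rw [hFm.degree_map, Polynomial.degree_eq_natDegree hFm.ne_zero]
    exact_mod_cast hd.ne')
  have hint : IsIntegral Zc z := ⟨F, hFm, by rwa [Polynomial.IsRoot, Polynomial.eval_map] at hz⟩
  let y : Zc := ⟨z, isIntegral_trans z hint⟩
  refine ⟨Ideal.Quotient.mk I y, ?_⟩
  rw [← hF, Polynomial.eval_map, Polynomial.eval₂_at_apply]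
  have : F.eval y = 0 := Subtype.ext (by
    show algebraMap Zc ℂ (F.eval y) = 0
    rw [← Polynomial.eval₂_at_apply, ← Polynomial.eval_map]
    exact hz)
  rw [this, map_zero]

/-- A residual representation from a matrix representation of finite level. -/
noncomputable def residualOfMat {k : Type} [Field k] (ρ : Γℚ →* Matrix (Fin 2) (Fin 2) k)
    (hρ : ∃ L : IntermediateField ℚ (AlgebraicClosure ℚ), FiniteDimensional ℚ L ∧
      ∀ σ : Γℚ, (∀ x ∈ L, σ x = x) → ρ σ = 1) : ResidualGaloisRep k where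
  V := Fin 2 → k
  finrank_eq := Module.finrank_fin_fun k
  ρ := (MonoidHomClass.toMonoidHom (Matrix.toLinAlgEquiv' (R := k) (n := Fin 2))).comp ρ
  factorsThroughFiniteLevel := by
    obtain ⟨L, hL, h⟩ := hρ
    refine ⟨L, hL, fun σ hσ => ?_⟩
    show Matrix.toLinAlgEquiv' (ρ σ) = 1
    rw [h σ hσ, map_one]

theorem charpoly_residualOfMat {k : Type} [Field k] (ρ : Γℚ →* Matrix (Fin 2) (Fin 2) k) (hρ)
    (σ : Γℚ) : LinearMap.charpoly ((residualOfMat ρ hρ).ρ σ) =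
      X ^ 2 - C (ρ σ).trace * X + C (ρ σ).det := by
  show LinearMap.charpoly (Matrix.toLinAlgEquiv' (ρ σ)) = _
  rw [← LinearMap.charpoly_toMatrix _ (Pi.basisFun k (Fin 2)),
    show Matrix.toLinAlgEquiv' (ρ σ) = Matrix.toLin' (ρ σ) from rfl,
    ← LinearMap.toMatrix'_toLin' (ρ σ), Matrix.charpoly_fin_two]
  simp [LinearMap.toMatrix_eq_toMatrix']

/-- The residual representation of an eigenform, as matrices. -/
theorem exists_matRep_of_eigenform (hd : FrobeniusDense)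
    (hM : ∀ (N : ℕ) [NeZero N] (p : ℕ) [Fact p.Prime] (S : Finset ℕ),
      (∀ q : ℕ, q.Prime → q ∣ N → q ∈ S) → Nonempty (MatModel N p ↑S))
    {N : ℕ} [NeZero N] {g : CuspForm (CongruenceSubgroup.Gamma0 N) 2} (hg : g.IsNormalizedEigenform)
    {p : ℕ} [Fact p.Prime] {k : Type} [Field k] [CharP k p] (φ : Zc →+* k) :
    ∃ ρ : Γℚ →* Matrix (Fin 2) (Fin 2) k,
      (∃ L : IntermediateField ℚ (AlgebraicClosure ℚ), FiniteDimensional ℚ L ∧
        ∀ σ : Γℚ, (∀ x ∈ L, σ x = x) → ρ σ = 1) ∧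
      (∀ (ℓ : ℕ), ℓ.Prime → ¬ ℓ ∣ N → ℓ ≠ p →
        ∀ A : ValuationSubring (AlgebraicClosure ℚ), A.LiesOverPrime ℓ →
          ∀ σ : Γℚ, A.IsFrobeniusAt σ ℓ →
            ∃ a : Zc, (a : ℂ) = ModularFormClass.qCoeff g ℓ ∧
              (ρ σ).trace = φ a ∧ (ρ σ).det = (ℓ : k)) ∧
      (∀ q : ℕ, q.Prime → ¬ q ∣ N * p →
        ∀ A : ValuationSubring (AlgebraicClosure ℚ), A.LiesOverPrime q →
          ∀ σ ∈ A.inertiaSubgroupIn ℚ, ρ σ = 1) := by
  classical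
  haveI := isMaximal_ker (Fact.out : p.Prime) φ
  letI := Ideal.Quotient.field (RingHom.ker φ)
  haveI := isAlgClosed_quotient (RingHom.ker φ)
  let ι : Zc ⧸ RingHom.ker φ →+* k := RingHom.kerLift φ
  haveI : CharP (Zc ⧸ RingHom.ker φ) p := (RingHom.charP_iff ι ι.injective p).mpr inferInstance
  let S : Finset ℕ := insert p N.primeFactors
  have hS : ∀ q : ℕ, q.Prime → q ∣ N → q ∈ S := fun q hq hqN =>
    Finset.mem_insert_of_mem (Nat.mem_primeFactors.mpr ⟨hq, hqN, NeZero.ne N⟩)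
  obtain ⟨M⟩ := hM N p S hS
  obtain ⟨θ, hθ⟩ := exists_integral_char hg (↑S : Set ℕ)
  obtain ⟨ρ, hcont, hfrob, hinert⟩ :=
    M.exists_residual hd ((Ideal.Quotient.mk (RingHom.ker φ)).comp θ)
  refine ⟨ι.mapMatrix.toMonoidHom.comp ρ, ?_, ?_, ?_⟩
  · obtain ⟨L, hL, h⟩ := hcont
    exact ⟨L, hL, fun σ hσ => by
      show ι.mapMatrix (ρ σ) = 1
      rw [h σ hσ, map_one]⟩
  · intro ℓ hℓ hℓN hℓp A hA σ hσ
    have hℓS : ℓ ∉ (↑S : Set ℕ) := by
      simp [S, Nat.mem_primeFactors, hℓp, hℓN]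
    obtain ⟨h1, h2⟩ := hfrob ℓ hℓ hℓN hℓS hℓp A hA σ hσ
    refine ⟨θ (CuspForm.heckeAlgebra.T hℓ hℓN hℓS), hθ ℓ hℓ hℓN hℓS, ?_, ?_⟩
    · show (ι.mapMatrix (ρ σ)).trace = _
      rw [RingHom.mapMatrix_apply, Matrix.trace_fin_two, Matrix.map_apply, Matrix.map_apply]
      rw [Matrix.trace_fin_two] at h1
      rw [← RingHom.map_add, h1]
      exact RingHom.kerLift_mk φ _
    · show (ι.mapMatrix (ρ σ)).det = _
      rw [← RingHom.map_det, h2, map_natCast]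
  · intro q hq hqn A hA σ hσ
    show ι.mapMatrix (ρ σ) = 1
    rw [hinert q hq hqn A hA σ hσ, map_one]

theorem exists_residualGaloisRep_isAttachedTo (hd : FrobeniusDense)
    (hM : ∀ (N : ℕ) [NeZero N] (p : ℕ) [Fact p.Prime] (S : Finset ℕ),
      (∀ q : ℕ, q.Prime → q ∣ N → q ∈ S) → Nonempty (MatModel N p ↑S))
    {N : ℕ} {g : CuspForm (CongruenceSubgroup.Gamma0 N) 2} (hg : g.IsNormalizedEigenform)
    {p : ℕ} (hp : p.Prime) {k : Type} [Field k] [CharP k p] (φ : Zc →+* k) :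
    ∃ ρ : ResidualGaloisRep k, ρ.IsAttachedTo g φ ∧
      ∀ ℓ : ℕ, ℓ.Prime → ¬ ℓ ∣ N * p → ρ.IsUnramifiedAt ℓ := by
  rcases eq_or_ne N 0 with rfl | hN
  · exact ⟨residualOfMat 1 ⟨⊥, inferInstance, fun _ _ => rfl⟩,
      fun ℓ _ h => absurd (dvd_zero ℓ) h, fun ℓ _ h => absurd (by simp) h⟩
  haveI : NeZero N := ⟨hN⟩
  haveI : Fact p.Prime := ⟨hp⟩
  obtain ⟨ρ, hcont, hfrob, hinert⟩ := exists_matRep_of_eigenform hd hM hg φ
  refine ⟨residualOfMat ρ hcont, fun ℓ hℓ hℓN hℓk A hA σ hσ => ?_, fun q hq hqn A hA σ hσ => ?_⟩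
  · obtain ⟨a, ha, h1, h2⟩ := hfrob ℓ hℓ hℓN
      (fun h => hℓk (h ▸ CharP.cast_eq_zero k p)) A hA σ hσ
    exact ⟨a, ha, by rw [charpoly_residualOfMat, h1, h2]⟩
  · show Matrix.toLinAlgEquiv' (ρ σ) = 1
    rw [hinert q hq hqn A hA σ hσ, map_one]

open WeierstrassCurve.Affine.Point in
theorem eigenformResidualAttachmentAt (hd : FrobeniusDense)
    (hM : ∀ (N : ℕ) [NeZero N] (p : ℕ) [Fact p.Prime] (S : Finset ℕ),
      (∀ q : ℕ, q.Prime → q ∣ N → q ∈ S) → Nonempty (MatModel N p ↑S))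
    (P : FreyPackage) (M : ℕ) (hMpos : 0 < M) : P.EigenformResidualAttachmentAt M := by
  intro g hg 𝔪 h𝔪 hp𝔪
  haveI : NeZero M := ⟨hMpos.ne'⟩
  haveI : Fact P.p.Prime := ⟨P.pp⟩
  haveI := h𝔪
  letI := Ideal.Quotient.field 𝔪
  haveI : CharP (Zc ⧸ 𝔪) P.p := (CharP.charP_iff_prime_eq_zero P.pp).mpr (by
    rw [← map_natCast (Ideal.Quotient.mk 𝔪), Ideal.Quotient.eq_zero_iff_mem]; exact hp𝔪)
  obtain ⟨ρ, ⟨L₁, hL₁, h₁⟩, hfrob, -⟩ :=
    exists_matRep_of_eigenform hd hM (p := P.p) hg (Ideal.Quotient.mk 𝔪)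
  haveI : P.freyCurve.IsElliptic := by
    rw [← FLTAgent.Frey.freyCurveInt_map P]
    refine ⟨?_⟩
    rw [WeierstrassCurve.map_Δ, isUnit_iff_ne_zero]
    simpa using FLTAgent.Frey.freyCurveInt_Δ_ne_zero P
  obtain ⟨L₂, hL₂, h₂⟩ :=
    FLTAgent.Torsion.galoisFactorsThroughFiniteLevel_galoisRepModuleEnd P.freyCurve P.pp.ne_zero
  haveI : Algebra.IsAlgebraic ℚ (AlgebraicClosure ℚ) := AlgebraicClosure.isAlgebraic ℚ
  haveI : IsAlgClosure ℚ (AlgebraicClosure ℚ) := ⟨inferInstance, inferInstance⟩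
  haveI : Normal ℚ (AlgebraicClosure ℚ) := IsAlgClosure.normal ℚ _
  let F := IntermediateField.normalClosure ℚ (L₁ ⊔ L₂ : IntermediateField ℚ (AlgebraicClosure ℚ))
    (AlgebraicClosure ℚ)
  haveI : Normal ℚ F := normalClosure.normal ℚ _ _
  haveI : FiniteDimensional ℚ F := normalClosure.is_finiteDimensional ℚ _ _
  haveI : IsGalois ℚ F := ⟨⟩
  have hle : L₁ ⊔ L₂ ≤ F := IntermediateField.le_normalClosure _
  refine ⟨Zc ⧸ 𝔪, inferInstance, ZMod.algebra _ P.p, Fin 2 → Zc ⧸ 𝔪, inferInstance, inferInstance,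
    (MonoidHomClass.toMonoidHom (Matrix.toLinAlgEquiv' (R := Zc ⧸ 𝔪) (n := Fin 2))).comp ρ,
    Ideal.Quotient.mk 𝔪, F, inferInstance, NumberField.mk, inferInstance, inferInstance,
    inferInstance, Ideal.mk_ker.ge, Module.finrank_fin_fun _, ?_, ?_, ?_⟩
  · intro σ hσ
    have hfix : ∀ x ∈ L₁ ⊔ L₂, σ x = x := fun x hx => by
      have h := AlgEquiv.restrictNormal_commutes σ F ⟨x, hle hx⟩
      rw [show σ.restrictNormal F = 1 from MonoidHom.mem_ker.mp hσ] at h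
      exact h.symm
    refine ⟨h₂ σ fun x hx => hfix x ((le_sup_right : L₂ ≤ L₁ ⊔ L₂) hx), ?_⟩
    refine MonoidHom.mem_ker.mpr ?_
    show Matrix.toLinAlgEquiv' (ρ σ) = 1
    rw [h₁ σ fun x hx => hfix x ((le_sup_left : L₁ ≤ L₁ ⊔ L₂) hx), map_one]
  · intro ℓ hℓ hℓM hℓp A hA τ hτ
    obtain ⟨a, ha, h1, -⟩ := hfrob ℓ hℓ hℓM hℓp A hA τ hτ
    exact ⟨a, ha, (Matrix.trace_toLin'_eq (ρ τ)).trans h1⟩
  · intro ℓ hℓ hℓM hℓp A hA τ hτ
    obtain ⟨a, -, -, h2⟩ := hfrob ℓ hℓ hℓM hℓp A hA τ hτ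
    exact (LinearMap.det_toLin' (ρ τ)).trans h2

end FLTAgent.GalRep
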