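import Mathlib.RingTheory.SimpleModule.Basic
import Mathlib.RepresentationTheory.AlgebraRepresentation.Basic
import Mathlib.LinearAlgebra.FiniteDimensional.Lemmas
import Mathlib.RingTheory.Nakayama
import Mathlib.LinearAlgebra.TensorProduct.Tower
import Mathlib.LinearAlgebra.Dimension.Constructions
import Mathlib.RingTheory.LocalRing.ResidueField.Basic

/-!
# Burnside's theorem for a monoid of operators

If a monoid acts irreducibly on a finite dimensional space over an algebraically closed field,
its image spans the full endomorphism algebra.
-/

namespace FLTAgent.GalRep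

variable {G : Type*} [Monoid G]

/-- A submodule is stable under a family of operators. -/
def IsStable {R : Type*} [CommSemiring R] {V : Type*} [AddCommMonoid V] [Module R V]
    (r : G →* Module.End R V) (W : Submodule R V) : Prop :=
  ∀ g : G, ∀ x ∈ W, r g x ∈ W

theorem span_range_eq_top_of_irreducible {K : Type*} [Field K] [IsAlgClosed K]
    {V : Type*} [AddCommGroup V] [Module K V] [FiniteDimensional K V] [Nontrivial V]
    (r : G →* Module.End K V)
    (hirr : ∀ W : Submodule K V, IsStable r W → W = ⊥ ∨ W = ⊤) :
    Submodule.span K (Set.range r) = ⊤ := by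
  set A : Subalgebra K (Module.End K V) := Algebra.adjoin K (Set.range r) with hA
  haveI : IsSimpleModule A V := by
    rw [isSimpleModule_iff]
    haveI : Nontrivial (Submodule A V) := (Submodule.nontrivial_iff A).mpr inferInstance
    refine ⟨fun W => ?_⟩
    have hst : IsStable r (W.restrictScalars K) := fun g x hx => by
      have : (⟨r g, Algebra.subset_adjoin ⟨g, rfl⟩⟩ : A) • x ∈ W := W.smul_mem _ hx
      exact this
    rcases hirr _ hst with h | h
    · exact Or.inl ((Submodule.restrictScalars_eq_bot_iff _ _ _).mp h)
    · exact Or.inr ((Submodule.restrictScalars_eq_top_iff _ _ _).mp h)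
  have hadj : Subalgebra.toSubmodule A = Submodule.span K (Set.range r) := by
    rw [hA, Algebra.adjoin_eq_span, ← MonoidHom.coe_mrange, Submonoid.closure_eq]
  rw [← hadj, eq_top_iff]
  intro f _
  have hsc := (IsSimpleModule.algebraMap_end_bijective_of_isAlgClosed (A := A) (V := V) K).2
  let f' : Module.End (Module.End A V) V :=
    { toFun := f
      map_add' := map_add f
      map_smul' := fun φ x => by
        obtain ⟨t, rfl⟩ := hsc φ
        exact map_smul f t x }
  obtain ⟨s, hs⟩ := Module.Finite.fg_top (R := K) (M := V)
  obtain ⟨a, ha⟩ := jacobson_density f' s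
  have : f = (a : Module.End K V) := by
    refine LinearMap.ext fun x => ?_
    induction hs.ge (Submodule.mem_top : x ∈ ⊤) using Submodule.span_induction with
    | mem m hm => exact ha m hm
    | zero => simp
    | add _ _ _ _ h₁ h₂ => rw [map_add, map_add, h₁, h₂]
    | smul t _ _ h => rw [map_smul, map_smul, h]
  rw [this]
  exact a.2

end FLTAgent.GalRep
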