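import Mathlib.RingTheory.Finiteness.Nakayama
import Mathlib.Algebra.Category.Grp.Injective
import Mathlib.LinearAlgebra.Matrix.ToLin
import Mathlib.LinearAlgebra.Matrix.StdBasis
import Mathlib.LinearAlgebra.Dual.Lemmas
import Mathlib.RingTheory.Finiteness.Basic
import Mathlib.Algebra.Algebra.Subalgebra.Lattice
import Mathlib.Algebra.CharZero.Defs
import Mathlib.GroupTheory.Divisible
import Mathlib.LinearAlgebra.FiniteDimensional.Basic
import Mathlib.LinearAlgebra.FreeModule.Finite.Matrix

/-!
# Common eigenvectors with prescribed eigencharacter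
-/

namespace FLTAgent.GalRep

open Matrix
open scoped IsMulCommutative

variable {T : Type*} [CommRing T] {K : Type*} [Field K] {ι : Type*} [Fintype ι] [DecidableEq ι]

/-- If a character of `T` extends linearly along a matrix representation of `T`, it has an
eigenvector for that representation. -/
theorem exists_eigenvector (L : T →+* Matrix ι ι K) (χ : T →+* K)
    (χ' : Matrix ι ι K →ₗ[K] K) (hχ : ∀ t, χ' (L t) = χ t) :
    ∃ v : ι → K, v ≠ 0 ∧ ∀ t, L t *ᵥ v = χ t • v := by
  classical
  let Lt : T →+* Matrix ι ι K :=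
    { toFun := fun t => (L t)ᵀ
      map_one' := by simp
      map_mul' := fun s t => by rw [mul_comm, map_mul, Matrix.transpose_mul]
      map_zero' := by simp
      map_add' := by simp }
  have hcl : Submonoid.closure (Set.range Lt) = MonoidHom.mrange (Lt : T →* Matrix ι ι K) := by
    rw [← Submonoid.closure_eq (MonoidHom.mrange (Lt : T →* Matrix ι ι K))]
    rfl
  let A := Algebra.adjoin K (Set.range Lt)
  have hA : ∀ a ∈ A, a ∈ Submodule.span K (Set.range Lt) := by
    intro a ha
    have := Algebra.adjoin_eq_span K (Set.range Lt)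
    rw [hcl] at this
    rw [← Subalgebra.mem_toSubmodule, this] at ha
    exact ha
  haveI : IsMulCommutative A := Algebra.isMulCommutative_adjoin K (by
    rintro _ ⟨s, rfl⟩ _ ⟨t, rfl⟩
    exact (Commute.all s t).map Lt)
  have hA_mem : ∀ a ∈ Submodule.span K (Set.range Lt), a ∈ A := fun a ha =>
    (Submodule.span_le (p := Subalgebra.toSubmodule A)).mpr Algebra.subset_adjoin ha
  -- the linear functional on transposes is multiplicative on `A`
  let χt : Matrix ι ι K →ₗ[K] K := χ' ∘ₗ (Matrix.transposeLinearEquiv ι ι K K).toLinearMap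
  have hχt : ∀ t, χt (Lt t) = χ t := fun t => by
    simpa [χt, Lt] using hχ t
  have hmul : ∀ a ∈ A, ∀ b ∈ A, χt (a * b) = χt a * χt b := by
    intro a ha b hb
    induction hA a ha using Submodule.span_induction with
    | mem x hx =>
      obtain ⟨s, rfl⟩ := hx
      induction hA b hb using Submodule.span_induction with
      | mem y hy => obtain ⟨t, rfl⟩ := hy; rw [← map_mul, hχt, hχt, hχt, map_mul]
      | zero => simp
      | add y z _ _ hy hz =>
        rw [mul_add, map_add, map_add, hy (hA_mem _ ‹_›), hz (hA_mem _ ‹_›), mul_add]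
      | smul c y _ hy => rw [mul_smul_comm, map_smul, map_smul, hy (hA_mem _ ‹_›), mul_smul_comm]
    | zero => simp
    | add x y _ _ hx hy =>
      rw [add_mul, map_add, map_add, hx (hA_mem _ ‹_›), hy (hA_mem _ ‹_›), add_mul]
    | smul c x _ hx => rw [smul_mul_assoc, map_smul, map_smul, hx (hA_mem _ ‹_›), smul_mul_assoc]
  have h1 : χt 1 = 1 := by rw [← map_one Lt, hχt, map_one]
  let e : A →+* K :=
    { toFun := fun a => χt a
      map_one' := h1
      map_mul' := fun a b => hmul _ a.2 _ b.2
      map_zero' := map_zero χt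
      map_add' := fun a b => map_add χt _ _ }
  let φ : A →ₐ[K] Module.End K (ι → K) :=
    (Matrix.toLinAlgEquiv' (R := K) (n := ι)).toAlgHom.comp A.val
  letI : Module A (ι → K) := Module.compHom _ φ.toRingHom
  haveI : IsScalarTower K A (ι → K) := ⟨fun c a v => by
    show φ (c • a) v = c • φ a v
    rw [map_smul, LinearMap.smul_apply]⟩
  haveI : Module.Finite A (ι → K) := Module.Finite.of_restrictScalars_finite K A _
  -- Nakayama: the quotient by `ker e` is nonzero
  let U : Submodule A (ι → K) := RingHom.ker e • ⊤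
  have hU : U ≠ ⊤ := by
    intro htop
    obtain ⟨a, ha1, ha⟩ := Submodule.exists_sub_one_mem_and_smul_eq_zero_of_fg_of_le_smul
      (RingHom.ker e) (⊤ : Submodule A (ι → K)) Module.Finite.fg_top htop.ge
    have ha0 : (a : Matrix ι ι K) = 0 := by
      refine (Matrix.toLinAlgEquiv' (R := K) (n := ι)).injective ?_
      rw [map_zero]
      exact LinearMap.ext fun v => ha v Submodule.mem_top
    have : a = 0 := Subtype.ext ha0
    rw [this, zero_sub] at ha1
    simp [RingHom.mem_ker, e, h1] at ha1
  obtain ⟨f, hf0, hfU⟩ := Submodule.exists_dual_map_eq_bot_of_lt_top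
    (lt_top_iff_ne_top.mpr fun h => hU ((Submodule.restrictScalars_eq_top_iff K A (ι → K)).mp h) :
      U.restrictScalars K < ⊤) inferInstance
  have hfz : ∀ x ∈ U, f x = 0 := fun x hx => by
    have : f x ∈ Submodule.map f (U.restrictScalars K) := Submodule.mem_map_of_mem hx
    rwa [hfU, Submodule.mem_bot] at this
  let v : ι → K := fun i => f (Pi.single i 1)
  have hfv : ∀ x, f x = v ⬝ᵥ x := fun x => by
    conv_lhs => rw [← Finset.univ_sum_single x]
    rw [map_sum]
    refine Finset.sum_congr rfl fun i _ => ?_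
    rw [show Pi.single i (x i) = x i • Pi.single i (1 : K) by
      rw [← Pi.single_smul', smul_eq_mul, mul_one], map_smul, smul_eq_mul, mul_comm]
  refine ⟨v, fun h => hf0 (LinearMap.ext fun x => ?_), fun t => ?_⟩
  · rw [hfv, h, zero_dotProduct]; rfl
  · refine funext fun i => ?_
    let a : A := ⟨Lt t - χ t • 1,
      sub_mem (Algebra.subset_adjoin ⟨t, rfl⟩) (A.smul_mem A.one_mem _)⟩
    have ha : a ∈ RingHom.ker e := by
      show χt (Lt t - χ t • 1) = 0
      simp [hχt, h1]
    have hz := hfz _ (Submodule.smul_mem_smul ha (Submodule.mem_top (x := Pi.single i 1)) :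
      a • (Pi.single i 1 : ι → K) ∈ U)
    have hev : a • (Pi.single i 1 : ι → K) = (Lt t - χ t • 1) *ᵥ Pi.single i 1 := rfl
    rw [hev, hfv, Matrix.sub_mulVec, dotProduct_sub, Matrix.smul_mulVec, Matrix.one_mulVec,
      Matrix.dotProduct_mulVec, dotProduct_smul, sub_eq_zero] at hz
    simpa [Lt, Matrix.vecMul_transpose] using hz

/-- An additive map out of a subgroup of integer matrices to a field of characteristic zero
extends linearly to all matrices. -/
theorem exists_linear_extension_int [CharZero K] (L : T →+* Matrix ι ι ℤ)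
    (hL : Function.Injective L) (χ : T →+* K) :
    ∃ χ' : Matrix ι ι K →ₗ[K] K, ∀ t, χ' ((L t).map (Int.cast : ℤ → K)) = χ t := by
  haveI : DivisibleBy K ℤ :=
    AddCommGroup.divisibleByIntOfSMulTopEqTop K fun {n} hn => eq_top_iff.mpr fun x _ => by
      refine ⟨x / n, AddSubgroup.mem_top _, ?_⟩
      simp [zsmul_eq_mul, mul_div_cancel₀ x (Int.cast_ne_zero.mpr hn : (n : K) ≠ 0)]
  obtain ⟨g, hg⟩ := Module.Baer.extension_property (Module.Baer.of_divisible K)
    L.toAddMonoidHom.toIntLinearMap hL χ.toAddMonoidHom.toIntLinearMap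
  refine ⟨∑ a, ∑ b, g (Matrix.single a b 1) • (Matrix.entryLinearMap K K a b), fun t => ?_⟩
  have := LinearMap.congr_fun hg t
  simp only [LinearMap.comp_apply, AddMonoidHom.coe_toIntLinearMap, RingHom.toAddMonoidHom_eq_coe,
    AddMonoidHom.coe_coe] at this
  rw [← this]
  conv_rhs => rw [Matrix.matrix_eq_sum_single (L t)]
  simp only [map_sum, LinearMap.sum_apply, LinearMap.smul_apply, Matrix.entryLinearMap_apply,
    Matrix.map_apply]
  refine Finset.sum_congr rfl fun a _ => Finset.sum_congr rfl fun b _ => ?_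
  rw [show Matrix.single a b (L t a b) = (L t a b) • Matrix.single a b (1 : ℤ) by
    rw [Matrix.smul_single, smul_eq_mul, mul_one], map_smul, zsmul_eq_mul, smul_eq_mul, mul_comm]

/-- A character of the image of a matrix representation over a subfield extends linearly to
matrices over the big field. -/
theorem exists_linear_extension_field {F : Type*} [Field F] [Algebra F K]
    (L : T →+* Matrix ι ι F) (χ : T →+* K) (hker : ∀ t, L t = 0 → χ t = 0)
    (hlin : ∀ c : F, ∃ s : T, L s = c • 1 ∧ χ s = algebraMap F K c) :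
    ∃ χ' : Matrix ι ι K →ₗ[K] K, ∀ t, χ' ((L t).map (algebraMap F K)) = χ t := by
  classical
  let R : Submodule F (Matrix ι ι F) :=
    { carrier := Set.range L
      add_mem' := by rintro _ _ ⟨a, rfl⟩ ⟨b, rfl⟩; exact ⟨a + b, map_add L a b⟩
      zero_mem' := ⟨0, map_zero L⟩
      smul_mem' := by
        rintro c _ ⟨a, rfl⟩
        obtain ⟨s, hs, -⟩ := hlin c
        exact ⟨s * a, by rw [map_mul, hs, smul_mul_assoc, one_mul]⟩ }
  have hwd : ∀ a b, L a = L b → χ a = χ b := fun a b h =>
    sub_eq_zero.mp (by rw [← map_sub]; exact hker _ (by rw [map_sub, h, sub_self]))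
  let pre : R → T := fun x => x.2.choose
  have hpre : ∀ x : R, L (pre x) = x := fun x => x.2.choose_spec
  let g0 : R →ₗ[F] K :=
    { toFun := fun x => χ (pre x)
      map_add' := fun x y => by
        rw [← map_add]; exact hwd _ _ (by simp [hpre])
      map_smul' := fun c x => by
        obtain ⟨s, hs, hs'⟩ := hlin c
        rw [RingHom.id_apply, Algebra.smul_def, ← hs', ← map_mul]
        exact hwd _ _ (by simp [hpre, hs]) }
  obtain ⟨g, hg⟩ := g0.exists_extend
  refine ⟨∑ a, ∑ b, g (Matrix.single a b 1) • (Matrix.entryLinearMap K K a b), fun t => ?_⟩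
  have h1 : g (L t) = χ t := by
    have := LinearMap.congr_fun hg (⟨L t, t, rfl⟩ : R)
    simp only [LinearMap.comp_apply, Submodule.subtype_apply] at this
    rw [this]
    exact hwd _ _ (hpre _)
  rw [← h1]
  conv_rhs => rw [Matrix.matrix_eq_sum_single (L t)]
  simp only [map_sum, LinearMap.sum_apply, LinearMap.smul_apply, Matrix.entryLinearMap_apply,
    Matrix.map_apply]
  refine Finset.sum_congr rfl fun a _ => Finset.sum_congr rfl fun b _ => ?_
  rw [show Matrix.single a b (L t a b) = (L t a b) • Matrix.single a b (1 : F) by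
    rw [Matrix.smul_single, smul_eq_mul, mul_one], map_smul, smul_eq_mul, Algebra.smul_def,
    mul_comm]

end FLTAgent.GalRep
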