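import Fermat.Agent.GalRep.Approx
import Fermat.Agent.GalRep.Eigen
import Fermat.Agent.GalRep.AdicRep
import Mathlib.RingTheory.Localization.FractionRing
import Mathlib.RingTheory.Filtration

/-!
# The eigenlattice of a Hecke character in the Tate module
-/

namespace FLTAgent.GalRep

open Matrix

local notation "Γℚ" => AlgebraicClosure ℚ ≃ₐ[ℚ] AlgebraicClosure ℚ

/-- A lattice of rank `r` over `R` with commuting Galois and Hecke actions and a character `χ` of
the Hecke operators: the data from which the representation attached to `χ` is cut out. -/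
structure EigenSetup (R : Type) [CommRing R] [IsLocalRing R] : Type 1 where
  r : ℕ
  I : Type
  op : I → Matrix (Fin r) (Fin r) R
  χ : I → R
  RM : Γℚ →* Matrix (Fin r) (Fin r) R
  c : Γℚ →* Rˣ
  τ : Γℚ → R
  comm : ∀ g t, RM g * op t = op t * RM g
  rel : ∀ g (e : Fin r → R), (∀ t, op t *ᵥ e = χ t • e) →
    RM g *ᵥ e + (c g : R) • (RM g⁻¹ *ᵥ e) = τ g • e
  exists_eigen : ∃ e : Fin r → R, e ≠ 0 ∧ ∀ t, op t *ᵥ e = χ t • e
  cont : ∀ n : ℕ, ∃ L : IntermediateField ℚ (AlgebraicClosure ℚ), FiniteDimensional ℚ L ∧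
    ∀ σ : Γℚ, (∀ x ∈ L, σ x = x) →
      (∀ a b, (RM σ - 1) a b ∈ IsLocalRing.maximalIdeal R ^ n) ∧
        ((c σ : R) - 1) ∈ IsLocalRing.maximalIdeal R ^ n
  c_conj : (c complexConjugation : R) = -1

namespace MatModel

variable {N : ℕ} [NeZero N] {p : ℕ} [Fact p.Prime] {S : Finset ℕ} (M : MatModel N p ↑S)
variable {R : Type} [CommRing R] [IsDomain R] [IsDiscreteValuationRing R]
  [IsAdicComplete (IsLocalRing.maximalIdeal R) R] [CharZero R]

/-- The Hecke matrices over `R`. -/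
noncomputable def opR (R : Type) [CommRing R] (t : CuspForm.heckeAlgebra N 2 (↑S : Set ℕ)) :
    Matrix (Fin M.r) (Fin M.r) R :=
  (Int.castRingHom R).mapMatrix (M.Tm t)

theorem map_castP {R : Type} [CommRing R] (ψ : ℤ_[p] →+* R)
    (t : CuspForm.heckeAlgebra N 2 (↑S : Set ℕ)) :
    ψ.mapMatrix (castP p (M.Tm t)) = M.opR R t := by
  ext a b; simp [castP, opR]

theorem exists_eigen_lattice (χ : CuspForm.heckeAlgebra N 2 (↑S : Set ℕ) →+* R) :
    ∃ e : Fin M.r → R, e ≠ 0 ∧ ∀ t, M.opR R t *ᵥ e = χ t • e := by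
  classical
  let K := FractionRing R
  haveI : CharZero K := charZero_of_injective_algebraMap (IsFractionRing.injective R K)
  let χK : CuspForm.heckeAlgebra N 2 (↑S : Set ℕ) →+* K := (algebraMap R K).comp χ
  obtain ⟨χ', hχ'⟩ := exists_linear_extension_int M.Tm M.Tm_injective χK
  obtain ⟨v, hv0, hv⟩ := exists_eigenvector ((Int.castRingHom K).mapMatrix.comp M.Tm) χK χ'
    fun t => hχ' t
  obtain ⟨s, hs⟩ := IsLocalization.exist_integer_multiples_of_finite (nonZeroDivisors R) v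
  choose e he using hs
  have hs0 : algebraMap R K (s : R) ≠ 0 := by simp
  have hev : ∀ i, algebraMap R K (e i) = algebraMap R K (s : R) * v i := fun i =>
    (he i).trans (Algebra.smul_def _ _)
  refine ⟨e, fun h => hv0 (funext fun i => ?_), fun t => funext fun i => ?_⟩
  · have := hev i
    rw [h, Pi.zero_apply, map_zero, eq_comm, mul_eq_zero] at this
    exact this.resolve_left hs0
  · apply IsFractionRing.injective R K
    have h := congrFun (hv t) i
    simp only [Matrix.mulVec, dotProduct, Pi.smul_apply, smul_eq_mul, RingHom.coe_comp,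
      Function.comp_apply, RingHom.mapMatrix_apply, Matrix.map_apply, χK] at h
    simp only [Matrix.mulVec, dotProduct, Pi.smul_apply, smul_eq_mul, opR, RingHom.mapMatrix_apply,
      Matrix.map_apply, map_sum, map_mul, hev, eq_intCast, map_intCast] at h ⊢
    rw [show ∑ x, (M.Tm t i x : K) * (algebraMap R K (s : R) * v x) =
        algebraMap R K (s : R) * ∑ x, (M.Tm t i x : K) * v x by
      rw [Finset.mul_sum]; exact Finset.sum_congr rfl fun x _ => by ring]
    linear_combination (algebraMap R K (s : R)) * h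

variable (χ : CuspForm.heckeAlgebra N 2 (↑S : Set ℕ) →+* R)

theorem sub_mem_of_redP (ψ : ℤ_[p] →+* R) (hp : (p : R) ∈ IsLocalRing.maximalIdeal R) {n : ℕ}
    {X Y : Matrix (Fin M.r) (Fin M.r) ℤ_[p]} (h : redP p n X = redP p n Y) (a b : Fin M.r) :
    ψ (X a b) - ψ (Y a b) ∈ IsLocalRing.maximalIdeal R ^ n := by
  rw [← map_sub]
  refine padicHom_mem_pow ψ hp ?_
  rw [map_sub, sub_eq_zero]
  exact congrFun (congrFun h a) b

include M in
/-- The setup attached to a character of the Hecke algebra, with the facts used later. -/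
theorem exists_eigenSetup (hd : FrobeniusDense) (hp : (p : R) ∈ IsLocalRing.maximalIdeal R) :
    ∃ E : EigenSetup R,
      (∀ (ℓ : ℕ) (hℓ : ℓ.Prime) (hℓN : ¬ ℓ ∣ N) (hℓS : ℓ ∉ (↑S : Set ℕ)), ℓ ≠ p →
        ∀ A : ValuationSubring (AlgebraicClosure ℚ), A.LiesOverPrime ℓ →
          ∀ σ : Γℚ, A.IsFrobeniusAt σ ℓ →
            (E.c σ : R) = (ℓ : R) ∧ E.τ σ = χ (CuspForm.heckeAlgebra.T hℓ hℓN hℓS)) ∧
      (∀ q : ℕ, q.Prime → ¬ q ∣ N * p →
        ∀ A : ValuationSubring (AlgebraicClosure ℚ), A.LiesOverPrime q →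
          ∀ σ ∈ A.inertiaSubgroupIn ℚ, E.RM σ = 1 ∧ E.c σ = 1) := by
  classical
  obtain ⟨ψ⟩ := exists_padicHom p R hp
  obtain ⟨e0, he0, he0'⟩ := M.exists_eigen_lattice χ
  obtain ⟨a, w, i, ha, hw, hwi⟩ := exists_primitive he0
  have hwE : ∀ t, M.opR R t *ᵥ w = χ t • w := fun t => by
    have h := he0' t
    rw [hw, Matrix.mulVec_smul, smul_comm] at h
    exact smul_right_injective _ ha h
  let phiR : Γℚ → Matrix (Fin M.r) (Fin M.r) R := fun g => ψ.mapMatrix (M.phi g)
  let τ : Γℚ → R := fun g => (phiR g *ᵥ w) i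
  have happ : ∀ g n, ∃ t, (∀ a b, (phiR g - M.opR R t) a b ∈ IsLocalRing.maximalIdeal R ^ n) := by
    intro g n
    obtain ⟨ℓ, hℓ, hℓN, hℓS, A, hA, σ, hσ, hℓp, -, he⟩ := M.exists_approx hd g n ⊥
    refine ⟨CuspForm.heckeAlgebra.T hℓ hℓN hℓS, fun a b => ?_⟩
    rw [← M.map_castP ψ]
    exact M.sub_mem_of_redP ψ hp he a b
  have hvec : ∀ (n : ℕ) (X : Matrix (Fin M.r) (Fin M.r) R) (e : Fin M.r → R),
      (∀ a b, X a b ∈ IsLocalRing.maximalIdeal R ^ n) →
        ∀ a, (X *ᵥ e) a ∈ IsLocalRing.maximalIdeal R ^ n := fun n X e h a => by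
    simp only [Matrix.mulVec, dotProduct]
    exact Ideal.sum_mem _ fun b _ => Ideal.mul_mem_right _ _ (h a b)
  have hrel : ∀ g (e : Fin M.r → R), (∀ t, M.opR R t *ᵥ e = χ t • e) → phiR g *ᵥ e = τ g • e := by
    intro g e hev
    funext j
    rw [← sub_eq_zero, ← Submodule.mem_bot R, ← Ideal.iInf_pow_eq_bot_of_isLocalRing
      (IsLocalRing.maximalIdeal R) (IsLocalRing.maximalIdeal.isMaximal R).ne_top, Submodule.mem_iInf]
    intro n
    obtain ⟨t, ht⟩ := happ g n
    have h1 := hvec n _ e ht j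
    have h2 := hvec n _ w ht i
    rw [Matrix.sub_mulVec, hev, Pi.sub_apply, Pi.smul_apply, smul_eq_mul] at h1
    rw [Matrix.sub_mulVec, hwE, Pi.sub_apply, Pi.smul_apply, smul_eq_mul, hwi, mul_one] at h2
    rw [Pi.smul_apply, smul_eq_mul]
    convert Ideal.sub_mem _ h1 (Ideal.mul_mem_right (e j) _ h2) using 1
    ring
  let RM : Γℚ →* Matrix (Fin M.r) (Fin M.r) R := ψ.mapMatrix.toMonoidHom.comp M.G
  let c : Γℚ →* Rˣ := (Units.map ψ.toMonoidHom).comp (cyclo p)
  have hphi : ∀ g, phiR g = RM g + (c g : R) • RM g⁻¹ := fun g => by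
    ext a b; simp [phiR, RM, c, MatModel.phi]
  refine ⟨{ r := M.r, I := CuspForm.heckeAlgebra N 2 (↑S : Set ℕ), op := M.opR R, χ := χ
            RM := RM, c := c, τ := τ
            comm := fun g t => by
              rw [← M.map_castP ψ t]
              show ψ.mapMatrix (M.G g) * _ = _ * ψ.mapMatrix (M.G g)
              rw [← map_mul, ← map_mul, M.G_comm]
            rel := fun g e he => by
              rw [← hrel g e he, hphi, Matrix.add_mulVec, Matrix.smul_mulVec]
            exists_eigen := ⟨w, fun h => one_ne_zero (by rw [← hwi, h]; rfl : (1 : R) = 0), hwE⟩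
            cont := ?_
            c_conj := ?_ }, ?_, ?_⟩
  · intro n
    obtain ⟨L₁, hL₁, h₁⟩ := M.cont n
    obtain ⟨L₂, hL₂, h₂⟩ := cyclo_continuous p n
    refine ⟨L₁ ⊔ L₂, inferInstance, fun σ hσ => ⟨fun a b => ?_, ?_⟩⟩
    · have := M.sub_mem_of_redP ψ hp (n := n) (X := M.G σ) (Y := 1)
        ((h₁ σ fun x hx => hσ x ((le_sup_left : L₁ ≤ L₁ ⊔ L₂) hx)).trans (map_one _).symm) a b
      convert this using 1
      simp [RM, Matrix.one_apply]
    · show ψ (cyclo p σ : ℤ_[p]) - 1 ∈ _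
      rw [← map_one ψ, ← map_sub]
      refine padicHom_mem_pow ψ hp ?_
      rw [map_sub, map_one, h₂ σ fun x hx => hσ x ((le_sup_right : L₂ ≤ L₁ ⊔ L₂) hx), sub_self]
  · show ψ (cyclo p complexConjugation : ℤ_[p]) = -1
    rw [cyclo_complexConjugation, map_neg, map_one]
  · intro ℓ hℓ hℓN hℓS hℓp A hA σ hσ
    refine ⟨?_, ?_⟩
    · show ψ (cyclo p σ : ℤ_[p]) = _
      rw [cyclo_frobenius hℓ hℓp hA hσ, map_natCast]
    · have : phiR σ = M.opR R (CuspForm.heckeAlgebra.T hℓ hℓN hℓS) := by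
        rw [← M.map_castP ψ, ← M.frob ℓ hℓ hℓN hℓS hℓp A hA σ hσ]
        show ψ.mapMatrix (M.G σ + _ • _) = _
        rw [cyclo_frobenius hℓ hℓp hA hσ]
      show (phiR σ *ᵥ w) i = _
      rw [this, hwE, Pi.smul_apply, smul_eq_mul, hwi, mul_one]
  · intro q hq hqn A hA σ hσ
    refine ⟨?_, ?_⟩
    · show ψ.mapMatrix (M.G σ) = 1
      rw [M.inertia q hq hqn A hA σ hσ, map_one]
    · show Units.map ψ.toMonoidHom (cyclo p σ) = 1
      rw [cyclo_inertia hq (fun h => hqn (by rw [h]; exact dvd_mul_left p N)) hA hσ, map_one]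

end MatModel

end FLTAgent.GalRep
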