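import Fermat.Agent.GalRep.EigenLattice
import Fermat.Agent.GalRep.TwoDim
import Mathlib.RingTheory.Localization.Module
import Mathlib.LinearAlgebra.FreeModule.PID

/-!
# The two-dimensional representation cut out by an eigenlattice
-/

namespace FLTAgent.GalRep

open Matrix

local notation "Γℚ" => AlgebraicClosure ℚ ≃ₐ[ℚ] AlgebraicClosure ℚ

/-- A matrix representation over `R` with prescribed trace, determinant, continuity and kernel. -/
def EigenSetup.Goal {R : Type} [CommRing R] [IsLocalRing R] (E : EigenSetup R) : Prop :=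
  ∃ ρ : Γℚ →* Matrix (Fin 2) (Fin 2) R,
    (∀ g, (ρ g).trace = E.τ g ∧ (ρ g).det = (E.c g : R)) ∧
    (∀ n : ℕ, ∃ L : IntermediateField ℚ (AlgebraicClosure ℚ), FiniteDimensional ℚ L ∧
      ∀ σ : Γℚ, (∀ x ∈ L, σ x = x) →
        ∀ a b, (ρ σ - 1) a b ∈ IsLocalRing.maximalIdeal R ^ n) ∧
    (∀ σ, E.RM σ = 1 → E.c σ = 1 → ρ σ = 1)

variable {R : Type} [CommRing R] [IsDomain R] [IsDiscreteValuationRing R]
  (E : EigenSetup R) (K : Type) [Field K] [Algebra R K] [IsFractionRing R K]

/-- The fraction field version of the Galois action. -/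
noncomputable def EigenSetup.RK : Γℚ →* Module.End K (Fin E.r → K) :=
  ((MonoidHomClass.toMonoidHom (Matrix.toLinAlgEquiv' (R := K) (n := Fin E.r))).comp
    (algebraMap R K).mapMatrix.toMonoidHom).comp E.RM

omit [IsDomain R] [IsDiscreteValuationRing R] [IsFractionRing R K] in
theorem coe_smul_coe {ι : Type*} (s : R) (e : ι → R) :
    (algebraMap R K) ∘ (s • e) = algebraMap R K s • ((algebraMap R K) ∘ e) :=
  funext fun j => by simp

theorem EigenSetup.RK_coe (g : Γℚ) (e : Fin E.r → R) :
    E.RK K g (algebraMap R K ∘ e) = algebraMap R K ∘ (E.RM g *ᵥ e) := by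
  show (E.RM g).map (algebraMap R K) *ᵥ _ = _
  funext i
  exact (RingHom.map_mulVec _ _ _ _).symm

/-- The eigenspace over the fraction field. -/
noncomputable def EigenSetup.eigenK : Submodule K (Fin E.r → K) :=
  ⨅ t, LinearMap.ker (Matrix.mulVecLin ((E.op t).map (algebraMap R K)) -
    algebraMap R K (E.χ t) • LinearMap.id)

theorem EigenSetup.mem_eigenK {v : Fin E.r → K} :
    v ∈ E.eigenK K ↔ ∀ t, (E.op t).map (algebraMap R K) *ᵥ v =
      algebraMap R K (E.χ t) • v := by
  simp [EigenSetup.eigenK, Submodule.mem_iInf, sub_eq_zero]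

theorem EigenSetup.exists_integral (v : Fin E.r → K) :
    ∃ (s : R) (e : Fin E.r → R), algebraMap R K s ≠ 0 ∧
      algebraMap R K ∘ e = algebraMap R K s • v := by
  obtain ⟨s, hs⟩ := IsLocalization.exist_integer_multiples_of_finite (nonZeroDivisors R) v
  choose e he using hs
  exact ⟨s, e, (map_ne_zero_iff _ (IsFractionRing.injective R K)).mpr
    (nonZeroDivisors.coe_ne_zero s), funext fun i => (he i).trans (Algebra.smul_def _ _)⟩

theorem EigenSetup.eigen_of_coe {e : Fin E.r → R}
    (h : algebraMap R K ∘ e ∈ E.eigenK K) (t : E.I) :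
    E.op t *ᵥ e = E.χ t • e := by
  funext i
  apply IsFractionRing.injective R K
  rw [RingHom.map_mulVec, Pi.smul_apply, smul_eq_mul, map_mul]
  exact congrFun ((E.mem_eigenK K).mp h t) i

theorem EigenSetup.coe_eigen {e : Fin E.r → R}
    (h : ∀ t, E.op t *ᵥ e = E.χ t • e) : algebraMap R K ∘ e ∈ E.eigenK K :=
  (E.mem_eigenK K).mpr fun t => funext fun i => by
    rw [Pi.smul_apply, smul_eq_mul, ← RingHom.map_mulVec, h t, Pi.smul_apply, smul_eq_mul, map_mul]
    rfl

theorem EigenSetup.isStable_eigenK : IsStable (E.RK K) (E.eigenK K) := fun g v hv => by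
  rw [E.mem_eigenK] at hv ⊢
  intro t
  have hc := congrArg (·.map (algebraMap R K)) (E.comm g t)
  simp only [Matrix.map_mul] at hc
  show _ *ᵥ ((E.RM g).map (algebraMap R K) *ᵥ v) = _ • ((E.RM g).map (algebraMap R K) *ᵥ v)
  rw [Matrix.mulVec_mulVec, ← hc, ← Matrix.mulVec_mulVec, hv, Matrix.mulVec_smul]

theorem EigenSetup.rel_eigenK (g : Γℚ) :
    restrictEnd (E.RK K) (E.eigenK K) (E.isStable_eigenK K) g +
      (((Units.map (algebraMap R K).toMonoidHom).comp E.c) g : K) •
        restrictEnd (E.RK K) (E.eigenK K) (E.isStable_eigenK K) g⁻¹ =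
      algebraMap R K (E.τ g) • (1 : Module.End K (E.eigenK K)) := by
  refine LinearMap.ext fun v => Subtype.ext ?_
  obtain ⟨s, e, hs, he⟩ := E.exists_integral K (v : Fin E.r → K)
  have hev := congrArg (fun x => algebraMap R K ∘ x)
    (E.rel g e (E.eigen_of_coe K (he ▸ (E.eigenK K).smul_mem _ v.2)))
  simp only [coe_smul_coe] at hev
  rw [show algebraMap R K ∘ (E.RM g *ᵥ e + (E.c g : R) • (E.RM g⁻¹ *ᵥ e)) =
      algebraMap R K ∘ (E.RM g *ᵥ e) + algebraMap R K ∘ ((E.c g : R) • (E.RM g⁻¹ *ᵥ e)) from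
        funext fun j => by simp, coe_smul_coe, ← E.RK_coe, ← E.RK_coe, he, map_smul, map_smul,
      smul_comm ((algebraMap R K) (E.c g : R)), smul_comm ((algebraMap R K) (E.τ g)),
      ← smul_add] at hev
  exact smul_right_injective (Fin E.r → K) hs hev

/-- The case of a common eigenvector. -/
theorem EigenSetup.goal_of_eigenvector (v : E.eigenK K) (hv0 : v ≠ 0)
    (hv : ∀ g, ∃ t : K, E.RK K g (v : Fin E.r → K) = t • (v : Fin E.r → K)) : E.Goal := by
  classical
  set al := algebraMap R K with hal_def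
  have hal : Function.Injective al := IsFractionRing.injective R K
  have halc : Function.Injective (al ∘ · : (Fin E.r → R) → Fin E.r → K) := hal.comp_left
  obtain ⟨s, e, hs, he⟩ := E.exists_integral K (v : Fin E.r → K)
  have he0 : e ≠ 0 := by
    rintro rfl
    refine hv0 (Subtype.ext ?_)
    have : al s • (v : Fin E.r → K) = 0 := he.symm.trans (funext fun i => map_zero al)
    exact (smul_eq_zero.mp this).resolve_left hs
  obtain ⟨a, u, i, ha, hu, hui⟩ := exists_primitive he0
  let f : Γℚ → R := fun g => (E.RM g *ᵥ u) i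
  have hf : ∀ g, E.RM g *ᵥ u = f g • u := fun g => by
    obtain ⟨t, ht⟩ := hv g
    have h1 : E.RK K g (al ∘ e) = t • (al ∘ e) := by
      rw [he, map_smul, ht, smul_comm]
    rw [E.RK_coe, hu, Matrix.mulVec_smul, coe_smul_coe, coe_smul_coe, smul_comm t] at h1
    have h2 := smul_right_injective (Fin E.r → K) ((map_ne_zero_iff al hal).mpr ha) h1
    have ht' : t = al (f g) := by
      have := congrFun h2 i
      simpa [f, hui] using this.symm
    refine halc (h2.trans ?_)
    rw [ht']
    exact (coe_smul_coe K _ _).symm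
  let ψm : Γℚ →* R :=
    { toFun := f
      map_one' := by simp [f, hui]
      map_mul' := fun g h => by
        show (E.RM (g * h) *ᵥ u) i = f g * f h
        rw [map_mul, ← Matrix.mulVec_mulVec, hf h, Matrix.mulVec_smul, hf g]
        simp [hui, mul_comm] }
  let ψ : Γℚ →* Rˣ := ψm.toHomUnits
  have hue : ∀ t, E.op t *ᵥ u = E.χ t • u := fun t => by
    have h := E.eigen_of_coe K (he ▸ (E.eigenK K).smul_mem _ v.2) t
    rw [hu, Matrix.mulVec_smul, smul_comm] at h
    exact smul_right_injective _ ha h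
  have hτ : ∀ g, E.τ g = f g + (E.c g : R) * f g⁻¹ := fun g => by
    have := congrFun (E.rel g u hue) i
    simpa [hf, hui] using this.symm
  have hψ : ∀ g, ((ψ g : Rˣ) : R) = f g := fun g => rfl
  have hψinv : ∀ g, ((ψ g)⁻¹ : Rˣ) = ψ g⁻¹ := fun g => (map_inv ψ g).symm
  refine ⟨{ toFun := fun g => Matrix.diagonal ![(ψ g : R), ((E.c g * (ψ g)⁻¹ : Rˣ) : R)]
            map_one' := by ext a b; fin_cases a <;> fin_cases b <;> simp
            map_mul' := fun g h => by
              rw [Matrix.diagonal_mul_diagonal]; congr 1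
              ext a; fin_cases a <;> simp <;> ring }, fun g => ⟨?_, ?_⟩, fun n => ?_, ?_⟩
  · show (Matrix.diagonal _).trace = _
    rw [Matrix.trace_diagonal, Fin.sum_univ_two, hτ, hψinv]
    rfl
  · show (Matrix.diagonal _).det = _
    rw [Matrix.det_diagonal, Fin.prod_univ_two]
    show ((ψ g : R) * ((E.c g * (ψ g)⁻¹ : Rˣ) : R)) = _
    rw [← Units.val_mul, mul_comm (E.c g), mul_inv_cancel_left]
  · obtain ⟨L, hL, h⟩ := E.cont n
    refine ⟨L, hL, fun σ hσ => ?_⟩
    have key : ∀ τ' : Γℚ, (∀ x ∈ L, τ' x = x) → f τ' - 1 ∈ IsLocalRing.maximalIdeal R ^ n := by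
      intro τ' hτ'
      rw [show f τ' - 1 = ((E.RM τ' - 1) *ᵥ u) i by simp [f, Matrix.sub_mulVec, hui]]
      simp only [Matrix.mulVec, dotProduct]
      exact Ideal.sum_mem _ fun b _ => Ideal.mul_mem_right _ _ ((h τ' hτ').1 i b)
    have k1 := key σ hσ
    have k2 := key σ⁻¹ fun x hx => by
      conv_lhs => rw [← hσ x hx]
      exact σ.symm_apply_apply x
    have k3 : (E.c σ : R) * f σ⁻¹ - 1 ∈ IsLocalRing.maximalIdeal R ^ n := by
      rw [show (E.c σ : R) * f σ⁻¹ - 1 = ((E.c σ : R) - 1) * f σ⁻¹ + (f σ⁻¹ - 1) by ring]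
      exact Ideal.add_mem _ (Ideal.mul_mem_right _ _ (h σ hσ).2) k2
    intro a b
    show (Matrix.diagonal ![(ψ σ : R), ((E.c σ * (ψ σ)⁻¹ : Rˣ) : R)] - 1) a b ∈ _
    rw [hψinv, Units.val_mul, hψ, hψ]
    fin_cases a <;> fin_cases b <;> simp [Matrix.one_apply, -map_inv]
    · exact k1
    · exact k3
  · intro σ h1 h2
    have : ψ σ = 1 := Units.ext (show f σ = 1 by simp [f, h1, hui])
    show Matrix.diagonal _ = _
    rw [this, h2]
    ext a b; fin_cases a <;> fin_cases b <;> simp

/-- The lattice in a subspace of the eigenspace. -/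
noncomputable def planeLattice {r : ℕ} (P : Submodule K (Fin r → K)) : Submodule R (Fin r → R) :=
  (P.restrictScalars R).comap ((Algebra.linearMap R K).compLeft (Fin r))

theorem mem_planeLattice {r : ℕ} {P : Submodule K (Fin r → K)} {e : Fin r → R} :
    e ∈ planeLattice K P ↔ algebraMap R K ∘ e ∈ P :=
  Iff.rfl

/-- The inclusion of the lattice in its subspace. -/
noncomputable def planeIncl {r : ℕ} (P : Submodule K (Fin r → K)) : planeLattice (R := R) K P →ₗ[R] P where
  toFun x := ⟨algebraMap R K ∘ (x : Fin r → R), x.2⟩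
  map_add' x y := Subtype.ext (funext fun j => map_add (algebraMap R K) _ _)
  map_smul' s x := Subtype.ext (funext fun j => by simp [Algebra.smul_def])

theorem exists_planeBasis {r : ℕ} (P : Submodule K (Fin r → K)) :
    Nonempty (Module.Basis (Fin (Module.finrank K P)) R (planeLattice (R := R) K P)) := by
  obtain ⟨m, bQ⟩ := Submodule.basisOfPid (Pi.basisFun R (Fin r)) (planeLattice (R := R) K P)
  have hal : Function.Injective (algebraMap R K) := IsFractionRing.injective R K
  have hinj : Function.Injective (planeIncl (R := R) K P) := fun x y h =>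
    Subtype.ext (hal.comp_left (congrArg Subtype.val h))
  have hliQ : LinearIndependent K (fun j => planeIncl K P (bQ j)) :=
    (LinearIndependent.iff_fractionRing R K).mp
      (bQ.linearIndependent.map' _ (LinearMap.ker_eq_bot.mpr hinj))
  have hspan : Submodule.span K (Set.range fun j => planeIncl K P (bQ j)) = ⊤ := by
    refine eq_top_iff.mpr fun x _ => ?_
    obtain ⟨s, hs⟩ := IsLocalization.exist_integer_multiples_of_finite (nonZeroDivisors R)
      (x : Fin r → K)
    choose e he using hs
    have hs' : algebraMap R K (s : R) ≠ 0 :=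
      (map_ne_zero_iff _ hal).mpr (nonZeroDivisors.coe_ne_zero s)
    have he' : algebraMap R K ∘ e = algebraMap R K (s : R) • (x : Fin r → K) :=
      funext fun i => (he i).trans (Algebra.smul_def _ _)
    have heQ : e ∈ planeLattice (R := R) K P :=
      (mem_planeLattice K).mpr (he' ▸ P.smul_mem _ x.2)
    have hx : x = (algebraMap R K (s : R))⁻¹ • planeIncl K P ⟨e, heQ⟩ := Subtype.ext (by
      show _ = (algebraMap R K (s : R))⁻¹ • (algebraMap R K ∘ e)
      rw [he', inv_smul_smul₀ hs'])
    rw [hx]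
    refine Submodule.smul_mem _ _ ?_
    rw [← bQ.sum_repr ⟨e, heQ⟩, map_sum]
    refine Submodule.sum_mem _ fun j _ => ?_
    rw [map_smul, ← algebraMap_smul K (bQ.repr ⟨e, heQ⟩ j) (planeIncl K P (bQ j))]
    exact Submodule.smul_mem _ _ (Submodule.subset_span ⟨j, rfl⟩)
  have hm : Module.finrank K P = m := by
    rw [Module.finrank_eq_card_basis (Module.Basis.mk hliQ hspan.ge), Fintype.card_fin]
  exact ⟨bQ.reindex (finCongr hm.symm)⟩

theorem trace_eq_of_quadratic {A : Type*} [CommRing A] [IsDomain A] (X : Matrix (Fin 2) (Fin 2) A)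
    (τ c : A) (h : X * X - τ • X + c • (1 : Matrix (Fin 2) (Fin 2) A) = 0) :
    X.trace = τ ∨ X = X 0 0 • (1 : Matrix (Fin 2) (Fin 2) A) := by
  have h00 := congrFun (congrFun h 0) 0
  have h01 := congrFun (congrFun h 0) 1
  have h10 := congrFun (congrFun h 1) 0
  have h11 := congrFun (congrFun h 1) 1
  simp [Matrix.mul_apply, Fin.sum_univ_two] at h00 h01 h10 h11
  rw [Matrix.trace_fin_two]
  by_cases hsc : X 0 1 = 0 ∧ X 1 0 = 0 ∧ X 0 0 = X 1 1
  · obtain ⟨hb, hc', had⟩ := hsc
    right
    ext a b; fin_cases a <;> fin_cases b <;> simp [hb, hc', ← had]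
  · left
    rw [not_and_or, not_and_or] at hsc
    rcases hsc with h | h | h
    · exact mul_left_cancel₀ h (by linear_combination h01)
    · exact mul_left_cancel₀ h (by linear_combination h10)
    · exact mul_left_cancel₀ (sub_ne_zero.mpr h) (by linear_combination h00 - h11)

/-- The case of a stable plane. -/
theorem EigenSetup.goal_of_plane (v w : Fin E.r → K) (hv : v ∈ E.eigenK K) (hw : w ∈ E.eigenK K)
    (hli : LinearIndependent K ![v, w])
    (hvw : ∀ g, ∃ a b e d : K, E.RK K g v = a • v + e • w ∧ E.RK K g w = b • v + d • w ∧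
      a + d = algebraMap R K (E.τ g)) : E.Goal := by
  classical
  have hal : Function.Injective (algebraMap R K) := IsFractionRing.injective R K
  let P : Submodule K (Fin E.r → K) := Submodule.span K (Set.range ![v, w])
  have hPrank : Module.finrank K P = 2 := by
    rw [finrank_span_eq_card hli, Fintype.card_fin]
  have hv' : v ∈ P := Submodule.subset_span ⟨0, rfl⟩
  have hw' : w ∈ P := Submodule.subset_span ⟨1, rfl⟩
  have hPE : P ≤ E.eigenK K := Submodule.span_le.mpr (by
    rintro x ⟨j, rfl⟩; fin_cases j; exacts [hv, hw])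
  have hst : ∀ g, ∀ x ∈ P, E.RK K g x ∈ P := by
    intro g x hx
    obtain ⟨a, b, e', d, h1, h2, -⟩ := hvw g
    induction hx using Submodule.span_induction with
    | mem x hx =>
      obtain ⟨j, rfl⟩ := hx
      fin_cases j
      · show E.RK K g v ∈ P
        rw [h1]; exact P.add_mem (P.smul_mem _ hv') (P.smul_mem _ hw')
      · show E.RK K g w ∈ P
        rw [h2]; exact P.add_mem (P.smul_mem _ hv') (P.smul_mem _ hw')
    | zero => simp
    | add x y _ _ hx hy => rw [map_add]; exact P.add_mem hx hy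
    | smul t x _ hx => rw [map_smul]; exact P.smul_mem _ hx
  obtain ⟨bQ'⟩ := exists_planeBasis (R := R) K P
  let bQ : Module.Basis (Fin 2) R (planeLattice (R := R) K P) := bQ'.reindex (finCongr hPrank)
  have hQst : ∀ g, ∀ e ∈ planeLattice (R := R) K P, E.RM g *ᵥ e ∈ planeLattice (R := R) K P :=
    fun g e he => by
      rw [mem_planeLattice, ← E.RK_coe]
      exact hst g _ he
  let act : Γℚ →* Module.End R (planeLattice (R := R) K P) :=
    { toFun := fun g => (Matrix.mulVecLin (E.RM g)).restrict (hQst g)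
      map_one' := by ext x; simp
      map_mul' := fun g h => LinearMap.ext fun x => Subtype.ext (by
        show E.RM (g * h) *ᵥ (x : Fin E.r → R) = E.RM g *ᵥ (E.RM h *ᵥ (x : Fin E.r → R))
        rw [map_mul, Matrix.mulVec_mulVec]) }
  have hact : ∀ g (x : planeLattice (R := R) K P),
      ((act g x : planeLattice (R := R) K P) : Fin E.r → R) = E.RM g *ᵥ (x : Fin E.r → R) :=
    fun g x => rfl
  let ρ : Γℚ →* Matrix (Fin 2) (Fin 2) R :=
    (MonoidHomClass.toMonoidHom (LinearMap.toMatrixAlgEquiv bQ)).comp act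
  have hrelQ : ∀ g, act g + (E.c g : R) • act g⁻¹ = E.τ g • (1 : Module.End R _) := fun g => by
    refine LinearMap.ext fun x => Subtype.ext ?_
    exact E.rel g _ fun t => E.eigen_of_coe K (hPE x.2) t
  have hρrel : ∀ g,
      ρ g * ρ g - E.τ g • ρ g + (E.c g : R) • (1 : Matrix (Fin 2) (Fin 2) R) = 0 := by
    intro g
    have h := congrArg (fun X => ρ g * X) (congrArg (LinearMap.toMatrixAlgEquiv bQ) (hrelQ g))
    simp only [map_add, map_smul, map_one, mul_add, mul_smul_comm, mul_one] at h
    have h1 : ρ g * ρ g⁻¹ = 1 := by rw [← map_mul, mul_inv_cancel, map_one]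
    change ρ g * ρ g + (E.c g : R) • (ρ g * ρ g⁻¹) = E.τ g • ρ g at h
    rw [h1] at h
    rw [← h]; abel
  have htr : ∀ g, (ρ g).trace = E.τ g := by
    intro g
    rcases trace_eq_of_quadratic (ρ g) (E.τ g) _ (hρrel g) with h | hM
    · exact h
    set lam := ρ g 0 0
    have hgQ : ∀ x, act g x = lam • x := by
      intro x
      have : act g = lam • (1 : Module.End R _) :=
        (LinearMap.toMatrixAlgEquiv bQ).injective (hM.trans (by rw [map_smul, map_one]))
      rw [this]; rfl
    have hgP : ∀ x ∈ P, E.RK K g x = algebraMap R K lam • x := by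
      intro x hx
      obtain ⟨s, e, hs, he⟩ := E.exists_integral K x
      have heQ : e ∈ planeLattice (R := R) K P :=
        (mem_planeLattice K).mpr (he ▸ P.smul_mem _ hx)
      have h1 : E.RM g *ᵥ e = lam • e := congrArg Subtype.val (hgQ ⟨e, heQ⟩)
      refine smul_right_injective (Fin E.r → K) hs ?_
      show algebraMap R K s • E.RK K g x = algebraMap R K s • (algebraMap R K lam • x)
      rw [← map_smul, ← he, E.RK_coe, h1, smul_comm, ← he, coe_smul_coe]
    obtain ⟨a, b, e', d, h1, h2, hd'⟩ := hvw g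
    have hA : (a - algebraMap R K lam) • v + e' • w = 0 := by
      rw [sub_smul, ← hgP v hv', h1]; abel
    have hD : b • v + (d - algebraMap R K lam) • w = 0 := by
      rw [sub_smul, ← hgP w hw', h2]; abel
    obtain ⟨ha, -⟩ := LinearIndependent.pair_iff.mp hli _ _ hA
    obtain ⟨-, hd2⟩ := LinearIndependent.pair_iff.mp hli _ _ hD
    apply hal
    rw [hM, Matrix.trace_fin_two]
    simp only [Matrix.smul_apply, Matrix.one_apply_eq, smul_eq_mul, mul_one, map_add]
    linear_combination -ha - hd2 + hd'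
  refine ⟨ρ, fun g => ⟨htr g, ?_⟩, fun n => ?_, fun σ h1 _ => ?_⟩
  · have h00 := congrFun (congrFun (hρrel g) 0) 0
    simp [Matrix.mul_apply, Fin.sum_univ_two] at h00
    rw [Matrix.det_fin_two]
    have := htr g
    rw [Matrix.trace_fin_two] at this
    linear_combination -h00 + (ρ g 0 0) * this
  · obtain ⟨L, hL, h⟩ := E.cont n
    refine ⟨L, hL, fun σ hσ a b => ?_⟩
    obtain ⟨π, hπ⟩ := IsDiscreteValuationRing.exists_irreducible R
    have hmem : ∀ j, ((act σ (bQ b) - bQ b : planeLattice (R := R) K P) : Fin E.r → R) j ∈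
        IsLocalRing.maximalIdeal R ^ n := fun j => by
      have e1 : ((act σ (bQ b) - bQ b : planeLattice (R := R) K P) : Fin E.r → R) =
          (E.RM σ - 1) *ᵥ ((bQ b : planeLattice (R := R) K P) : Fin E.r → R) := by
        rw [Matrix.sub_mulVec, Matrix.one_mulVec]; rfl
      rw [e1]
      simp only [Matrix.mulVec, dotProduct]
      exact Ideal.sum_mem _ fun k _ => Ideal.mul_mem_right _ _ ((h σ hσ).1 j k)
    rw [hπ.maximalIdeal_eq, Ideal.span_singleton_pow] at hmem ⊢
    choose y hy using fun j => Ideal.mem_span_singleton.mp (hmem j)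
    have hyQ : y ∈ planeLattice (R := R) K P := by
      have e2 : ((act σ (bQ b) - bQ b : planeLattice (R := R) K P) : Fin E.r → R) = π ^ n • y :=
        funext fun j => by rw [hy j]; rfl
      have hx := (mem_planeLattice K).mp (e2 ▸ (act σ (bQ b) - bQ b).2)
      rw [coe_smul_coe] at hx
      rw [mem_planeLattice]
      have := P.smul_mem (algebraMap R K (π ^ n))⁻¹ hx
      rwa [inv_smul_smul₀ ((map_ne_zero_iff _ hal).mpr (pow_ne_zero n hπ.ne_zero))] at this
    have hxy : act σ (bQ b) - bQ b = π ^ n • (⟨y, hyQ⟩ : planeLattice (R := R) K P) :=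
      Subtype.ext (funext fun j => (hy j).trans rfl)
    rw [Ideal.mem_span_singleton]
    refine ⟨bQ.repr ⟨y, hyQ⟩ a, ?_⟩
    have := congrArg (fun x => bQ.repr x a) hxy
    simp only [map_sub, map_smul, Finsupp.sub_apply, Finsupp.smul_apply, smul_eq_mul,
      Module.Basis.repr_self] at this
    rw [← this]
    show LinearMap.toMatrix bQ bQ (act σ) a b - _ = _
    rw [LinearMap.toMatrix_apply, Matrix.one_apply, Finsupp.single_apply]
    simp only [eq_comm]
  · have : act σ = 1 := by
      refine LinearMap.ext fun x => Subtype.ext ?_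
      rw [hact, h1, Matrix.one_mulVec]; rfl
    show LinearMap.toMatrixAlgEquiv bQ (act σ) = 1
    rw [this, map_one]

theorem EigenSetup.exists_rep [CharZero R] : E.Goal := by
  classical
  let K₀ := FractionRing R
  have hal : Function.Injective (algebraMap R K₀) := IsFractionRing.injective R K₀
  haveI : CharZero K₀ := charZero_of_injective_algebraMap hal
  obtain ⟨e, he0, he⟩ := E.exists_eigen
  haveI : Nontrivial (E.eigenK K₀) :=
    nontrivial_of_ne ⟨_, E.coe_eigen K₀ he⟩ 0 fun h => he0 (hal.comp_left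
      ((congrArg Subtype.val h).trans (funext fun i => (map_zero (algebraMap R K₀)).symm)))
  rcases exists_eigenvector_or_plane _ _ (fun g => algebraMap R K₀ (E.τ g)) (E.rel_eigenK K₀)
    two_ne_zero complexConjugation complexConjugation_mul_self (by simp [E.c_conj]) with
    ⟨v, hv0, hv⟩ | ⟨v, w, hli, hvw⟩
  · exact E.goal_of_eigenvector K₀ v hv0 fun g => (hv g).imp fun t ht => congrArg Subtype.val ht
  · refine E.goal_of_plane K₀ v w v.2 w.2 ?_ fun g => ?_
    · have := hli.map' (E.eigenK K₀).subtype (Submodule.ker_subtype _)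
      rwa [show (E.eigenK K₀).subtype ∘ ![v, w] = ![(v : Fin E.r → K₀), (w : Fin E.r → K₀)] from
        funext fun j => by fin_cases j <;> rfl] at this
    · obtain ⟨a, b, e', d, h1, h2, h3⟩ := hvw g
      exact ⟨a, b, e', d, congrArg Subtype.val h1, congrArg Subtype.val h2, h3⟩

end FLTAgent.GalRep
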