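import Fermat.Agent.GalRep.Burnside
import Mathlib.LinearAlgebra.Matrix.Charpoly.Coeff
import Mathlib.LinearAlgebra.Matrix.ToLin
import Mathlib.LinearAlgebra.Matrix.Basis
import Mathlib.Algebra.MonoidAlgebra.Basic

/-!
# Two-dimensional representations from a quadratic relation

If every element of a group acts on a nonzero space with `g + c(g) g⁻¹ = τ(g)`, then there is a
two-dimensional representation with trace `τ` and determinant `c`.
-/

namespace FLTAgent.GalRep

open Matrix

theorem det_eq_of_quadratic {K : Type*} [Field K] (M : Matrix (Fin 2) (Fin 2) K) (τ c : K)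
    (htr : M.trace = τ) (hq : M * M - τ • M + c • (1 : Matrix (Fin 2) (Fin 2) K) = 0) :
    M.det = c := by
  have h := congrFun (congrFun hq 0) 0
  simp [Matrix.mul_apply, Fin.sum_univ_two] at h
  rw [Matrix.trace_fin_two] at htr
  rw [Matrix.det_fin_two]
  subst htr
  linear_combination -h

section

variable {G : Type*} [Group G] {K : Type*} [Field K]

theorem quadratic_of_relation {A : Type*} [Ring A] [Algebra K A] (r : G →* A) (c : G →* Kˣ)
    (τ : G → K) (hrel : ∀ g, r g + (c g : K) • r g⁻¹ = τ g • (1 : A)) (g : G) :
    r g * r g - τ g • r g + (c g : K) • (1 : A) = 0 := by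
  have h := congrArg (fun x => r g * x) (hrel g)
  simp only [mul_add, mul_smul_comm, mul_one, ← map_mul, mul_inv_cancel, map_one] at h
  rw [← map_mul, ← h]
  abel

/-- The core case: a full matrix algebra spanned by operators satisfying the relation. -/
theorem dim_eq_two_and_trace {d : ℕ} (hd : 2 ≤ d) (r : G →* Matrix (Fin d) (Fin d) K)
    (c : G →* Kˣ) (τ : G → K)
    (hrel : ∀ g, r g + (c g : K) • r g⁻¹ = τ g • (1 : Matrix (Fin d) (Fin d) K))
    (hspan : Submodule.span K (Set.range r) = ⊤) :
    d = 2 ∧ ∀ g, (r g).trace = τ g := by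
  classical
  set L := Finsupp.linearCombination K (r : G → Matrix (Fin d) (Fin d) K) with hL
  set L' := Finsupp.linearCombination K
    (fun g => (c g : K) • r g⁻¹ : G → Matrix (Fin d) (Fin d) K) with hL'
  set T := Finsupp.linearCombination K τ with hT
  have hsum : ∀ f, L f + L' f = T f • (1 : Matrix (Fin d) (Fin d) K) := by
    intro f
    induction f using Finsupp.induction_linear with
    | zero => simp
    | add f g hf hg => rw [map_add, map_add, map_add, add_smul, ← hf, ← hg]; abel
    | single g a =>
      simp only [hL, hL', hT, Finsupp.linearCombination_single]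
      rw [← smul_add, hrel, smul_smul, smul_eq_mul]
  have hLsurj : Function.Surjective L := by
    rw [← LinearMap.range_eq_top, hL, Finsupp.range_linearCombination, hspan]
  -- right translation
  have hker : ∀ f, L f = 0 → T f = 0 := by
    intro f hf
    by_contra hne
    have hscal : ∀ h : G, ∃ t : K, r h⁻¹ = t • (1 : Matrix (Fin d) (Fin d) K) := by
      intro h
      have h1 : ∀ f, L (f.mapDomain (· * h)) = L f * r h := by
        intro f
        induction f using Finsupp.induction_linear with
        | zero => simp
        | add f g hf hg => rw [Finsupp.mapDomain_add, map_add, map_add, hf, hg, add_mul]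
        | single g a => simp [hL, map_mul]
      have h2 : ∀ f, L' (f.mapDomain (· * h)) = (c h : K) • (r h⁻¹ * L' f) := by
        intro f
        induction f using Finsupp.induction_linear with
        | zero => simp
        | add f g hf hg =>
          rw [Finsupp.mapDomain_add, map_add, map_add, hf, hg, mul_add, smul_add]
        | single g a =>
          simp [hL', map_mul, smul_smul]
          ring_nf
      have e := hsum (f.mapDomain (· * h))
      rw [h1, h2, hf, zero_mul, zero_add] at e
      have e' := hsum f
      rw [hf, zero_add] at e'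
      rw [e', mul_smul_comm, mul_one, smul_smul] at e
      refine ⟨((c h : K) * T f)⁻¹ * T (f.mapDomain (· * h)), ?_⟩
      rw [mul_smul, ← e, smul_smul, inv_mul_cancel₀ (mul_ne_zero (c h).ne_zero hne), one_smul]
    have : Submodule.span K (Set.range r) ≤ K ∙ (1 : Matrix (Fin d) (Fin d) K) := by
      rw [Submodule.span_le]
      rintro _ ⟨g, rfl⟩
      obtain ⟨t, ht⟩ := hscal g⁻¹
      rw [inv_inv] at ht
      exact Submodule.mem_span_singleton.mpr ⟨t, ht.symm⟩
    obtain ⟨t, ht⟩ := Submodule.mem_span_singleton.mp
      (this (hspan ▸ Submodule.mem_top : Matrix.single (⟨0, by omega⟩ : Fin d) ⟨1, by omega⟩ (1 : K)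
        ∈ Submodule.span K (Set.range r)))
    have := congrFun (congrFun ht ⟨0, by omega⟩) ⟨1, by omega⟩
    simp [Fin.ext_iff] at this
  obtain ⟨s, hs⟩ : ∃ s : Matrix (Fin d) (Fin d) K →ₗ[K] K, ∀ f, s (L f) = T f := by
    refine ⟨((LinearMap.ker L).liftQ T fun f hf => hker f hf) ∘ₗ
      (L.quotKerEquivOfSurjective hLsurj).symm.toLinearMap, fun f => ?_⟩
    have : (L.quotKerEquivOfSurjective hLsurj).symm (L f) = Submodule.Quotient.mk f :=
      (LinearEquiv.symm_apply_eq _).mpr rfl
    simp only [LinearMap.comp_apply, LinearEquiv.coe_coe, this]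
    exact Submodule.liftQ_apply _ T f
  have hs_r : ∀ g, s (r g) = τ g := fun g => by simpa [hL, hT] using hs (Finsupp.single g 1)
  have hinv : ∀ g, (c g : K) • r g⁻¹ = s (r g) • (1 : Matrix (Fin d) (Fin d) K) - r g := fun g => by
    rw [hs_r, ← hrel g, add_sub_cancel_left]
  have hanti : ∀ x y : Matrix (Fin d) (Fin d) K, s (x * y) • (1 : Matrix (Fin d) (Fin d) K) - x * y =
      (s y • 1 - y) * (s x • 1 - x) := by
    intro x y
    obtain ⟨f, rfl⟩ := hLsurj x
    obtain ⟨f', rfl⟩ := hLsurj y
    induction f using Finsupp.induction_linear with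
    | zero => simp
    | add f g hf hg =>
      simp only [map_add, add_mul, add_smul, add_sub_add_comm, mul_add, hf, hg]
    | single g a =>
      induction f' using Finsupp.induction_linear with
      | zero => simp
      | add f₁ f₂ h₁ h₂ =>
        simp only [map_add, mul_add, add_smul, add_sub_add_comm, add_mul, h₁, h₂]
      | single g' b =>
        simp only [hL, Finsupp.linearCombination_single, map_smul, smul_eq_mul, mul_smul,
          ← smul_sub, smul_mul_assoc, mul_smul_comm, ← map_mul]
        rw [← hinv, ← hinv, ← hinv]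
        simp only [smul_mul_assoc, mul_smul_comm, ← map_mul, smul_smul, _root_.mul_inv_rev,
          Units.val_mul]
        congr 1
        simp only [map_mul, Units.val_mul]
        ring
  have key : ∀ x y : Matrix (Fin d) (Fin d) K, ∀ i j, (x * y) i j + (y * x) i j =
      s y * x i j + s x * y i j + (s (x * y) - s y * s x) * (1 : Matrix (Fin d) (Fin d) K) i j := by
    intro x y i j
    have h := congrFun (congrFun (hanti x y) i) j
    simp [sub_mul, mul_sub, smul_mul_assoc, mul_smul_comm] at h
    linear_combination -h
  have hd2 : d = 2 := by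
    by_contra hne
    let i0 : Fin d := ⟨0, by omega⟩
    let i1 : Fin d := ⟨1, by omega⟩
    let i2 : Fin d := ⟨2, by omega⟩
    have := key (Matrix.single i0 i1 1) (Matrix.single i1 i2 1) i0 i2
    rw [Matrix.single_mul_single_same, Matrix.single_mul_single_of_ne _ _ _ _ (by simp [i0, i2])] at this
    simp [i0, i1, i2, Matrix.single_apply, Fin.ext_iff] at this
  refine ⟨hd2, fun g => ?_⟩
  subst hd2
  rw [← hs_r g]
  have h00 : s (Matrix.single 0 0 1) = 1 := by
    have := key (Matrix.single 0 0 1) (Matrix.single 0 1 1) 0 1
    simpa [Matrix.single_apply, Matrix.mul_apply, Fin.sum_univ_two] using this.symm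
  have h01 : s (Matrix.single 0 1 1) = 0 := by
    have e0 := key (Matrix.single 0 0 1) (Matrix.single 0 1 1) 0 0
    have e1 := key (Matrix.single 0 0 1) (Matrix.single 0 1 1) 1 1
    simp [Matrix.single_apply, Matrix.mul_apply, Fin.sum_univ_two, h00] at e0 e1
    linear_combination -(e0 - e1)
  have h11 : s (Matrix.single 1 1 1) = 1 := by
    have := key (Matrix.single 1 1 1) (Matrix.single 1 0 1) 1 0
    simpa [Matrix.single_apply, Matrix.mul_apply, Fin.sum_univ_two] using this.symm
  have h10 : s (Matrix.single 1 0 1) = 0 := by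
    have e0 := key (Matrix.single 1 1 1) (Matrix.single 1 0 1) 0 0
    have e1 := key (Matrix.single 1 1 1) (Matrix.single 1 0 1) 1 1
    simp [Matrix.single_apply, Matrix.mul_apply, Fin.sum_univ_two, h11] at e0 e1
    linear_combination (e0 - e1)
  conv_rhs => rw [Matrix.matrix_eq_sum_single (r g)]
  have e : ∀ (i j : Fin 2) (t : K), Matrix.single i j t = t • Matrix.single i j (1 : K) := by
    intro i j t; rw [Matrix.smul_single, smul_eq_mul, mul_one]
  simp only [Fin.sum_univ_two, map_add, e _ _ (r g _ _), map_smul, h00, h01, h10, h11]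
  simp [Matrix.trace_fin_two]

end

end FLTAgent.GalRep
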