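import Fermat.Agent.GalRep.Approx
import Fermat.Agent.GalRep.Eigen
import Fermat.Agent.GalRep.TwoDim
import Fermat.Prelude.Def_GaloisRep_Residual
import Mathlib.FieldTheory.IsAlgClosed.Basic

/-!
# Residual representations attached to mod `p` Hecke characters
-/

namespace FLTAgent.GalRep

open Matrix

local notation "Γℚ" => AlgebraicClosure ℚ ≃ₐ[ℚ] AlgebraicClosure ℚ

namespace MatModel

variable {N : ℕ} [NeZero N] {p : ℕ} [Fact p.Prime] {S : Finset ℕ} (M : MatModel N p ↑S)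

theorem map_one_eq_zero_imp {k : Type*} [Field k] [CharP k p]
    (θ : CuspForm.heckeAlgebra N 2 (↑S : Set ℕ) →+* k) (t : CuspForm.heckeAlgebra N 2 (↑S : Set ℕ))
    (ht : (M.Tm t).map (Int.cast : ℤ → ZMod p) = 0) : θ t = 0 := by
  obtain ⟨c, hc⟩ := M.exists_bound
  have hy : ∀ a b, (p : ℤ) ∣ M.Tm t a b := fun a b => by
    have := congrFun (congrFun ht a) b
    simpa [ZMod.intCast_zmod_eq_zero_iff_dvd] using this
  choose y hy using hy
  have hY : M.Tm t = (p : ℤ) • Matrix.of y := by ext a b; simp [hy a b]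
  have hpow : redP p (c + 1) (castP p (M.Tm (t ^ (c + 1)))) = 0 := by
    rw [redP_castP, map_pow, hY, smul_pow]
    ext a b
    rw [Matrix.map_apply, Matrix.smul_apply, smul_eq_mul, Matrix.zero_apply, Int.cast_mul,
      show (((p : ℤ) ^ (c + 1) : ℤ) : ZMod (p ^ (c + 1))) = 0 by
        rw [ZMod.intCast_zmod_eq_zero_iff_dvd]; push_cast; rfl, zero_mul]
  obtain ⟨t', ht'⟩ := hc (c + 1) (t ^ (c + 1)) hpow
  have := congrArg θ ht'
  rw [map_pow, map_nsmul, nsmul_eq_mul, Nat.cast_pow, CharP.cast_eq_zero k p,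
    zero_pow (by omega : c + 1 - c ≠ 0), zero_mul] at this
  exact eq_zero_of_pow_eq_zero this

include M in
theorem exists_residual (hd : FrobeniusDense) {k : Type} [Field k] [CharP k p] [IsAlgClosed k]
    (θ : CuspForm.heckeAlgebra N 2 (↑S : Set ℕ) →+* k) :
    ∃ ρ : Γℚ →* Matrix (Fin 2) (Fin 2) k,
      (∃ L : IntermediateField ℚ (AlgebraicClosure ℚ), FiniteDimensional ℚ L ∧
        ∀ σ : Γℚ, (∀ x ∈ L, σ x = x) → ρ σ = 1) ∧
      (∀ (ℓ : ℕ) (hℓ : ℓ.Prime) (hℓN : ¬ ℓ ∣ N) (hℓS : ℓ ∉ (↑S : Set ℕ)), ℓ ≠ p →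
        ∀ A : ValuationSubring (AlgebraicClosure ℚ), A.LiesOverPrime ℓ →
          ∀ σ : Γℚ, A.IsFrobeniusAt σ ℓ →
            (ρ σ).trace = θ (CuspForm.heckeAlgebra.T hℓ hℓN hℓS) ∧ (ρ σ).det = (ℓ : k)) ∧
      (∀ q : ℕ, q.Prime → ¬ q ∣ N * p →
        ∀ A : ValuationSubring (AlgebraicClosure ℚ), A.LiesOverPrime q →
          ∀ σ ∈ A.inertiaSubgroupIn ℚ, ρ σ = 1) := by
  classical
  let +nondep : Algebra (ZMod p) k := ZMod.algebra k p
  obtain ⟨χ', hχ'⟩ := exists_linear_extension_field (F := ZMod p)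
    ((Int.castRingHom (ZMod p)).mapMatrix.comp M.Tm) θ (fun t ht => M.map_one_eq_zero_imp θ t ht)
    (fun c => ⟨(c.val : CuspForm.heckeAlgebra N 2 (↑S : Set ℕ)), by
      rw [map_natCast]
      conv_rhs => rw [← ZMod.natCast_zmod_val c]
      rw [Nat.cast_smul_eq_nsmul, nsmul_one],
      by rw [map_natCast, ← map_natCast (algebraMap (ZMod p) k), ZMod.natCast_zmod_val]⟩)
  let op : CuspForm.heckeAlgebra N 2 (↑S : Set ℕ) →+* Matrix (Fin M.r) (Fin M.r) k :=
    (Int.castRingHom k).mapMatrix.comp M.Tm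
  obtain ⟨w, hw0, hw⟩ := exists_eigenvector op θ χ' fun t => by
    rw [← hχ' t]
    congr 1
    ext a b; simp [op]
  let f : ℤ_[p] →+* k :=
    (ZMod.castHom (dvd_of_eq (pow_one p).symm) k : ZMod (p ^ 1) →+* k).comp (PadicInt.toZModPow 1)
  have hf : ∀ t, f.mapMatrix (castP p (M.Tm t)) = op t := fun t => by ext a b; simp [castP, op]
  have hfred : ∀ {X Y : Matrix (Fin M.r) (Fin M.r) ℤ_[p]},
      redP p 1 X = redP p 1 Y → f.mapMatrix X = f.mapMatrix Y := fun {X Y} h => by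
    ext a b
    exact congrArg (ZMod.castHom (dvd_of_eq (pow_one p).symm) k) (congrFun (congrFun h a) b)
  let RM : Γℚ →* Module.End k (Fin M.r → k) :=
    ((MonoidHomClass.toMonoidHom (Matrix.toLinAlgEquiv' (R := k) (n := Fin M.r))).comp
      f.mapMatrix.toMonoidHom).comp M.G
  let E : Submodule k (Fin M.r → k) :=
    ⨅ t, LinearMap.ker (Matrix.mulVecLin (op t) - θ t • LinearMap.id)
  have hE : ∀ {v}, v ∈ E ↔ ∀ t, op t *ᵥ v = θ t • v := fun {v} => by
    simp [E, Submodule.mem_iInf, sub_eq_zero]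
  have hst : IsStable RM E := fun g v hv => hE.mpr fun t => by
    show op t *ᵥ (f.mapMatrix (M.G g) *ᵥ v) = θ t • (f.mapMatrix (M.G g) *ᵥ v)
    rw [Matrix.mulVec_mulVec, ← hf t, ← map_mul, ← M.G_comm, map_mul, hf, ← Matrix.mulVec_mulVec,
      hE.mp hv, Matrix.mulVec_smul]
  haveI : Nontrivial E :=
    nontrivial_of_ne ⟨w, hE.mpr hw⟩ 0 fun h => hw0 (congrArg Subtype.val h)
  let c : Γℚ →* kˣ := (Units.map f.toMonoidHom).comp (cyclo p)
  choose l hl hlN hlS A hA σ₀ hσ₀ _hlp _hag he using fun g => M.exists_approx hd g 1 ⊥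
  let τ : Γℚ → k := fun g => θ (CuspForm.heckeAlgebra.T (hl g) (hlN g) (hlS g))
  have hphi : ∀ g (v : Fin M.r → k), RM g v + (c g : k) • RM g⁻¹ v = f.mapMatrix (M.phi g) *ᵥ v := by
    intro g v
    rw [show f.mapMatrix (M.phi g) =
      f.mapMatrix (M.G g) + (c g : k) • f.mapMatrix (M.G g⁻¹) by
        ext a b; simp [MatModel.phi, c], Matrix.add_mulVec, Matrix.smul_mulVec]
    rfl
  have hrel : ∀ g, restrictEnd RM E hst g + (c g : k) • restrictEnd RM E hst g⁻¹ =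
      τ g • (1 : Module.End k E) := fun g => by
    refine LinearMap.ext fun v => Subtype.ext ?_
    show RM g v + (c g : k) • RM g⁻¹ v = τ g • (v : Fin M.r → k)
    rw [hphi, hfred (he g), hf]
    exact hE.mp v.2 _
  obtain ⟨ρ, htr, hdet, hker⟩ := exists_matrixRep_of_relation (restrictEnd RM E hst) c τ hrel
  have hkerG : ∀ σ, f.mapMatrix (M.G σ) = 1 → c σ = 1 → ρ σ = 1 := fun σ h1 h2 => by
    refine hker σ (LinearMap.ext fun v => Subtype.ext ?_) h2
    show f.mapMatrix (M.G σ) *ᵥ (v : Fin M.r → k) = v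
    rw [h1, Matrix.one_mulVec]
  refine ⟨ρ, ?_, ?_, ?_⟩
  · obtain ⟨L₁, hL₁, h₁⟩ := M.cont 1
    obtain ⟨L₂, hL₂, h₂⟩ := cyclo_continuous p 1
    refine ⟨L₁ ⊔ L₂, inferInstance, fun σ hσ => hkerG σ ?_ ?_⟩
    · rw [← map_one f.mapMatrix]
      exact hfred ((h₁ σ fun x hx => hσ x ((le_sup_left : L₁ ≤ L₁ ⊔ L₂) hx)).trans (map_one _).symm)
    · refine Units.ext ?_
      show f (cyclo p σ : ℤ_[p]) = 1
      simp only [f, RingHom.coe_comp, Function.comp_apply]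
      rw [h₂ σ fun x hx => hσ x ((le_sup_right : L₂ ≤ L₁ ⊔ L₂) hx), map_one]
  · intro ℓ hℓ hℓN hℓS hℓp A' hA' σ hσ
    obtain ⟨v, hv⟩ := exists_ne (0 : E)
    refine ⟨?_, ?_⟩
    · rw [htr σ]
      have hphiσ : M.phi σ = castP p (M.Tm (CuspForm.heckeAlgebra.T hℓ hℓN hℓS)) := by
        rw [← M.frob ℓ hℓ hℓN hℓS hℓp A' hA' σ hσ, MatModel.phi, cyclo_frobenius hℓ hℓp hA' hσ]
      have h := congrArg Subtype.val (LinearMap.congr_fun (hrel σ) v)
      change RM σ v + (c σ : k) • RM σ⁻¹ v = τ σ • (v : Fin M.r → k) at h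
      rw [hphi, hphiσ, hf, hE.mp v.2] at h
      exact (smul_left_injective k (fun h0 => hv (Subtype.ext h0)) h).symm
    · rw [hdet σ]
      show f (cyclo p σ : ℤ_[p]) = _
      rw [cyclo_frobenius hℓ hℓp hA' hσ, map_natCast]
  · intro q hq hqn A' hA' σ hσ
    refine hkerG σ ?_ ?_
    · rw [M.inertia q hq hqn A' hA' σ hσ, map_one]
    · show Units.map f.toMonoidHom (cyclo p σ) = 1
      rw [cyclo_inertia hq (fun h => hqn (by rw [h]; exact dvd_mul_left p N)) hA' hσ, map_one]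

end MatModel

end FLTAgent.GalRep
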