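import Fermat.Agent.GalRep.Assembly
import Fermat.Agent.S37

/-!
The good reduction specialisations of `JZero N` exist.
-/

set_option autoImplicit false

namespace FLTAgent.GalRep

open ModularCurve

theorem specializationsExist : SpecializationsExist := fun N p _ hcomm =>
  Fermat.Agent.S37.result N p hcomm

end FLTAgent.GalRep
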